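import Fermat.Agent.PicScheme.Modules.Bridge

/-!
# Invertible modules are quasicoherent

A module locally isomorphic to the unit has the unit presentation locally; on an affine scheme it
is therefore associated to its module of global sections.
-/

set_option autoImplicit false

noncomputable section

universe u

open CategoryTheory CategoryTheory.Limits AlgebraicGeometry TopologicalSpace

namespace FLTAgent.PicScheme

variable {X : Scheme.{u}}

/-- An isomorphism on a part gives one of the modules over that part. -/
def IsoOn.toOver {U : X.Opens} {M N : X.Modules} (e : IsoOn U M N) :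
    SheafOfModules.over (R := X.ringCatSheaf) M U ≅ SheafOfModules.over (R := X.ringCatSheaf) N U :=
  (SheafOfModules.fullyFaithfulForget _).preimageIso
    (PresheafOfModules.isoMk
      (fun W => show M.val.obj (Opposite.op W.unop.left) ≅ N.val.obj (Opposite.op W.unop.left) from
        LinearEquiv.toModuleIso (X₁ := M.val.obj (Opposite.op W.unop.left))
          (X₂ := N.val.obj (Opposite.op W.unop.left))
        { toFun := fun x => e.hom.app W.unop.left (leOfHom W.unop.hom) x
          map_add' := map_add (e.hom.app W.unop.left (leOfHom W.unop.hom))
          map_smul' := fun r x => (e.hom.app W.unop.left (leOfHom W.unop.hom)).map_smul (show Γ(X, W.unop.left) from r) x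
          invFun := fun x => e.inv.app W.unop.left (leOfHom W.unop.hom) x
          left_inv := fun x => e.hom_inv _ x
          right_inv := fun x => e.inv_hom _ x })
      (fun {V W} f => by
        ext x
        exact (e.hom.natural (leOfHom f.unop.left) (leOfHom V.unop.hom) x).symm))

/-- The presentation of the free module on one generator. -/
def freeOnePresentation (X : Scheme.{u}) :
    SheafOfModules.Presentation (R := X.ringCatSheaf)
      (SheafOfModules.free (R := X.ringCatSheaf) PUnit.{u + 1}) :=
  SheafOfModules.presentationOfIsCokernelFree (ι := PEmpty.{u + 1}) (σ := PUnit.{u + 1})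
    0 (𝟙 _) zero_comp
    (CokernelCofork.IsColimit.ofπ _ _ (fun g _ => g) (fun g _ => Category.id_comp g)
      (fun _ _ m hm => (Category.id_comp m).symm.trans hm))

/-- The presentation of the unit. -/
def unitPresentation (X : Scheme.{u}) :
    SheafOfModules.Presentation (R := X.ringCatSheaf) (unitMod X) :=
  SheafOfModules.Presentation.ofIsIso
    (coproductUniqueIso fun _ : PUnit.{u + 1} => SheafOfModules.unit X.ringCatSheaf).hom
    (freeOnePresentation X)

/-- **An invertible module is quasicoherent.** -/
theorem isQuasicoherent_of_isInvertible {M : X.Modules} (h : Scheme.Modules.IsInvertible M) :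
    M.IsQuasicoherent := by
  choose U hxU he using isInvertible_iff_isoOn.1 h
  let q : SheafOfModules.QuasicoherentData.{u} (R := X.ringCatSheaf) M :=
    { I := X
      X := U
      coversTop := (Opens.coversTop_iff _ U).2 (Opens.ext (Set.eq_univ_of_forall fun x =>
        Opens.mem_iSup.2 ⟨x, hxU x⟩))
      presentation := fun x => SheafOfModules.Presentation.ofIsIso.{u, u, u} (he x).some.toOver.hom
        ((unitPresentation X).map (SheafOfModules.pushforward (𝟙 (X.ringCatSheaf.over (U x))))
          (Iso.refl _)) }
  exact q.isQuasicoherent

/-- An invertible module on an affine scheme comes from its module of global sections. -/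
theorem isIso_fromTildeΓ_of_isInvertible {R : CommRingCat.{u}} {M : (Spec R).Modules}
    (h : Scheme.Modules.IsInvertible M) : IsIso M.fromTildeΓ :=
  @Scheme.Modules.isIso_fromTildeΓ_of_isQuasicoherent R M (isQuasicoherent_of_isInvertible h)

/-- The isomorphism with the associated sheaf of the global sections. -/
def tildeΓIso {R : CommRingCat.{u}} {M : (Spec R).Modules}
    (h : Scheme.Modules.IsInvertible M) : tilde ((moduleSpecΓFunctor (R := R)).obj M) ≅ M :=
  @asIso _ _ _ _ M.fromTildeΓ (isIso_fromTildeΓ_of_isInvertible h)

/-- An isomorphism of global sections gives one of invertible modules. -/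
def isoOfΓIso {R : CommRingCat.{u}} {M N : (Spec R).Modules}
    (hM : Scheme.Modules.IsInvertible M) (hN : Scheme.Modules.IsInvertible N)
    (e : (moduleSpecΓFunctor (R := R)).obj M ≅ (moduleSpecΓFunctor (R := R)).obj N) : M ≅ N :=
  (tildeΓIso hM).symm ≪≫ (tilde.functor R).mapIso e ≪≫ tildeΓIso hN

end FLTAgent.PicScheme

end
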