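import Fermat.Agent.PicScheme.Modules.Frames
import Fermat.Agent.PicScheme.Modules.Quasicoherent

/-!
# Invertible modules on affine schemes have frames

The global sections are finite projective, as this holds on a cover by principal opens.
-/

set_option autoImplicit false
set_option backward.isDefEq.respectTransparency false
set_option linter.style.haveILetI false

noncomputable section

universe u

open CategoryTheory CategoryTheory.Limits AlgebraicGeometry TopologicalSpace

namespace FLTAgent.PicScheme

variable {R : CommRingCat.{u}}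

theorem projective_of_isInvertible {P : ModuleCat.{u} R}
    (h : Scheme.Modules.IsInvertible (tilde P)) : Module.Finite R P ∧ Module.Projective R P := by
  let S : Set R := {g | Nonempty (IsoOn (PrimeSpectrum.basicOpen g : (Spec R).Opens)
    (unitMod (Spec R)) (tilde P))}
  have hS : Ideal.span S = ⊤ := by
    by_contra hne
    obtain ⟨m, hm, hle⟩ := Ideal.exists_le_maximal _ hne
    obtain ⟨U, hx, ⟨e⟩⟩ := isInvertible_iff_isoOn.1 h (⟨m, hm.isPrime⟩ : PrimeSpectrum R)
    obtain ⟨_, ⟨g, rfl⟩, hz, hsub⟩ :=
      PrimeSpectrum.isTopologicalBasis_basic_opens.exists_subset_of_mem_open hx U.2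
    exact hz (hle (Ideal.subset_span ⟨e.res (show
      (PrimeSpectrum.basicOpen g : (Spec R).Opens) ≤ U from hsub)⟩))
  let Rg : S → Type u := fun g => (structureSheafInType R R).obj.obj (.op (PrimeSpectrum.basicOpen g.1))
  let Pg : S → Type u := fun g => (structureSheafInType R P).obj.obj (.op (PrimeSpectrum.basicOpen g.1))
  have hlin : ∀ g : S, Nonempty (Rg g ≃ₗ[Rg g] Pg g) := fun g => by
    obtain ⟨e⟩ := g.2
    exact ⟨LinearEquiv.ofLinearMap (e.hom.app _ le_rfl) (e.inv.app _ le_rfl)
      (LinearMap.ext fun x => e.inv_hom le_rfl x) (LinearMap.ext fun x => e.hom_inv le_rfl x)⟩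
  have hfp : Module.FinitePresentation R P :=
    Module.FinitePresentation.of_localizationSpan' S hS (Rₚ := Rg) (Mₚ := Pg)
      (fun g => StructureSheaf.toOpenₗ R P (PrimeSpectrum.basicOpen g.1)) fun g =>
        Module.FinitePresentation.of_equiv (hlin g).some
  haveI hflat : Module.Flat R P :=
    Module.flat_of_isLocalized_span R P S hS Pg
      (fun g => StructureSheaf.toOpenₗ R P (PrimeSpectrum.basicOpen g.1)) fun g =>
        haveI : Module.Flat (Rg g) (Pg g) := Module.Flat.of_linearEquiv (hlin g).some.symm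
        haveI : Module.Flat R (Rg g) := IsLocalization.flat (Rg g) (Submonoid.powers g.1)
        Module.Flat.trans R (Rg g) (Pg g)
  exact ⟨inferInstance, Module.Flat.projective_of_finitePresentation⟩

theorem exists_mframe_tilde {P : ModuleCat.{u} R}
    (h : Scheme.Modules.IsInvertible (tilde P)) : ∃ n, Nonempty (MFrame (tilde P) n) := by
  obtain ⟨hfin, hproj⟩ := projective_of_isInvertible h
  obtain ⟨n, f, hf⟩ := Module.Finite.exists_fin' R P
  obtain ⟨g, hg⟩ := Module.projective_lifting_property f LinearMap.id hf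
  let O : ModuleCat.{u} R := ModuleCat.of R R
  let sP : Fin n → (O ⟶ P) := fun j => ModuleCat.ofHom (LinearMap.toSpanSingleton R P (f (Pi.single j 1)))
  let tP : Fin n → (P ⟶ O) := fun j => ModuleCat.ofHom ((LinearMap.proj j).comp g)
  have hsum : ∑ j, tP j ≫ sP j = 𝟙 P := by
    refine ModuleCat.hom_ext (LinearMap.ext fun x => ?_)
    have hx : f (g x) = x := LinearMap.congr_fun hg x
    simp only [ModuleCat.hom_sum, LinearMap.sum_apply, ModuleCat.hom_comp, LinearMap.comp_apply,
      ModuleCat.hom_id, LinearMap.id_coe, id_eq, sP, tP, ModuleCat.hom_ofHom]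
    calc ∑ j, g x j • f (Pi.single j 1) = f (∑ j, g x j • Pi.single j 1) := by
          rw [map_sum]; simp only [map_smul]
      _ = f (g x) := congrArg f (pi_eq_sum_univ' (g x)).symm
      _ = x := hx
  refine ⟨n, ⟨⟨fun j => (tildeSelf (R := R)).inv ≫ (tilde.functor R).map (sP j),
    fun j => (tilde.functor R).map (tP j) ≫ (tildeSelf (R := R)).hom, ?_⟩⟩⟩
  simp only [Category.assoc, Iso.hom_inv_id_assoc, ← Functor.map_comp]
  exact (Functor.map_sum (tilde.functor R) (fun j => tP j ≫ sP j) Finset.univ).symm.trans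
    ((congrArg (tilde.functor R).map hsum).trans ((tilde.functor R).map_id P))

/-- **An invertible module on an affine scheme has a frame.** -/
theorem exists_mframe_of_isInvertible {M : (Spec R).Modules}
    (h : Scheme.Modules.IsInvertible M) : ∃ n, Nonempty (MFrame M n) := by
  let e := tildeΓIso h
  obtain ⟨n, ⟨F⟩⟩ := exists_mframe_tilde (R := R) ⟨fun x => by
    obtain ⟨U, hx, ⟨t⟩⟩ := h.1 x
    exact ⟨U, hx, ⟨(Scheme.Modules.pullback U.ι).mapIso e ≪≫ t⟩⟩⟩
  exact ⟨n, ⟨F.ofIso e⟩⟩

end FLTAgent.PicScheme

end
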