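import Fermat.Agent.PicScheme.Modules.HomOn
import Fermat.Prelude.Def_AlgebraicGeometry_RelativePicardFunctor

/-!
# Morphisms on a part and morphisms of restrictions

Morphisms of modules on a part are the morphisms of the restrictions to that open subscheme; in
particular a module is invertible when it is locally isomorphic to the unit in this sense.
-/

set_option autoImplicit false

noncomputable section

universe u

open CategoryTheory AlgebraicGeometry TopologicalSpace

namespace FLTAgent.PicScheme

variable {X : Scheme.{u}}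

/-- The structure sheaf as a module. -/
abbrev unitMod (X : Scheme.{u}) : X.Modules := SheafOfModules.unit X.ringCatSheaf

/-- A section of a module as a section of its restriction. -/
def rIn (M : X.Modules) (U : X.Opens) (W : U.toScheme.Opens) :
    Γ(M, U.ι ''ᵁ W) →+ Γ(M.restrict U.ι, W) :=
  AddMonoidHom.id _

/-- A section of the restriction as a section of the module. -/
def rOut (M : X.Modules) (U : X.Opens) (W : U.toScheme.Opens) :
    Γ(M.restrict U.ι, W) →+ Γ(M, U.ι ''ᵁ W) :=
  AddMonoidHom.id _

theorem rIn_smul (M : X.Modules) (U : X.Opens) (W : U.toScheme.Opens) (r : Γ(X, U.ι ''ᵁ W))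
    (x : Γ(M, U.ι ''ᵁ W)) :
    rIn M U W (r • x) = ((U.ι.appIso W).hom r) • rIn M U W x :=
  Scheme.Modules.smul_restrictAppIso_inv_apply U.ι M W r x

theorem rOut_smul (M : X.Modules) (U : X.Opens) (W : U.toScheme.Opens) (r : Γ(U.toScheme, W))
    (x : Γ(M.restrict U.ι, W)) :
    rOut M U W (r • x) = ((U.ι.appIso W).inv r) • rOut M U W x :=
  Scheme.Modules.smul_restrictAppIso_hom_apply U.ι M W r x

theorem rOut_rIn (M : X.Modules) (U : X.Opens) (W : U.toScheme.Opens) (x : Γ(M, U.ι ''ᵁ W)) :
    rOut M U W (rIn M U W x) = x := rfl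

theorem rIn_rOut (M : X.Modules) (U : X.Opens) (W : U.toScheme.Opens)
    (x : Γ(M.restrict U.ι, W)) : rIn M U W (rOut M U W x) = x := rfl

theorem rOut_mres (M : X.Modules) (U : X.Opens) {W W' : U.toScheme.Opens} (h : W ≤ W')
    (x : Γ(M.restrict U.ι, W')) :
    rOut M U W (mres (M.restrict U.ι) h x) = mres M (U.ι.image_mono h) (rOut M U W' x) := rfl

namespace HomOn

variable {U : X.Opens} {M N K : X.Modules}

theorem app_congr (f : HomOn U M N) {V W : X.Opens} (e : V = W) (hV : V ≤ U) (hW : W ≤ U)
    (x : Γ(M, W)) :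
    f.app V hV (mres M e.le x) = mres N e.le (f.app W hW x) :=
  (f.natural e.le hW x).symm

/-- The morphism of restrictions given by a morphism on the part. -/
def toRestrict (f : HomOn U M N) : M.restrict U.ι ⟶ N.restrict U.ι :=
  homOfMaps
    (fun W =>
      { toFun := fun x => rIn N U W (f.app (U.ι ''ᵁ W) (U.ι_image_le W) (rOut M U W x))
        map_add' := fun x y => by rw [map_add, map_add, map_add]
        map_smul' := fun r x => by
          rw [rOut_smul, map_smul, rIn_smul, RingHom.id_apply, ← ConcreteCategory.comp_apply,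
            Iso.inv_hom_id]
          rfl })
    (fun {V W} h x => congrArg (rIn N U V)
      (f.natural (U.ι.image_mono h) (U.ι_image_le W) (rOut M U W x)))

theorem toRestrict_app (f : HomOn U M N) (W : U.toScheme.Opens) (x : Γ(M.restrict U.ι, W)) :
    f.toRestrict.app W x = rIn N U W (f.app (U.ι ''ᵁ W) (U.ι_image_le W) (rOut M U W x)) := rfl

theorem image_preimage_of_le {V : X.Opens} (hV : V ≤ U) : U.ι ''ᵁ (U.ι ⁻¹ᵁ V) = V := by
  rw [U.ι.image_preimage_eq_opensRange_inf, Scheme.Opens.opensRange_ι, inf_eq_right.2 hV]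

/-- The morphism on the part given by a morphism of restrictions. -/
def ofRestrict (φ : M.restrict U.ι ⟶ N.restrict U.ι) : HomOn U M N where
  app V hV :=
    { toFun := fun x => mres N (image_preimage_of_le hV).ge (rOut N U _
        (φ.app (U.ι ⁻¹ᵁ V) (rIn M U _ (mres M (image_preimage_of_le hV).le x))))
      map_add' := fun x y => by rw [mres_add, map_add, map_add, map_add, mres_add]
      map_smul' := fun r x => by
        rw [RingHom.id_apply, mres_smul, rIn_smul, Scheme.Modules.Hom.app_smul, rOut_smul,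
          mres_smul]
        congr 1
        rw [U.ι_appIso]
        show X.presheaf.map _ (X.presheaf.map _ r) = r
        rw [← ConcreteCategory.comp_apply, ← X.presheaf.map_comp]
        exact (ConcreteCategory.congr_hom ((congrArg X.presheaf.map
          (Subsingleton.elim _ (𝟙 _))).trans (X.presheaf.map_id _)) r).trans rfl }
  natural {V W} h hW x := by
    have h2 : rOut N U _ (φ.app (U.ι ⁻¹ᵁ V) (mres (M.restrict U.ι) (U.ι.preimage_mono h)
          (rIn M U _ (mres M (image_preimage_of_le hW).le x)))) =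
        mres N (U.ι.image_mono (U.ι.preimage_mono h))
          (rOut N U _ (φ.app (U.ι ⁻¹ᵁ W) (rIn M U _ (mres M (image_preimage_of_le hW).le x)))) :=
      (congrArg (rOut N U _) ((HomOn.ofHom ⊤ φ).natural (U.ι.preimage_mono h) le_top _).symm).trans
        (rOut_mres N U _ _)
    have h3 : mres (M.restrict U.ι) (U.ι.preimage_mono h)
          (rIn M U _ (mres M (image_preimage_of_le hW).le x)) =
        rIn M U _ (mres M (image_preimage_of_le (h.trans hW)).le (mres M h x)) :=
      congrArg (rIn M U _) ((rOut_mres M U _ _).trans ((mres_mres M _ _ x).trans (mres_mres M _ _ x).symm))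
    rw [h3] at h2
    show mres N h (mres N _ _) = mres N _ _
    rw [h2, mres_mres, mres_mres]

theorem ofRestrict_app (φ : M.restrict U.ι ⟶ N.restrict U.ι) {V : X.Opens} (hV : V ≤ U)
    (x : Γ(M, V)) : (ofRestrict φ).app V hV x = mres N (image_preimage_of_le hV).ge (rOut N U _
      (φ.app (U.ι ⁻¹ᵁ V) (rIn M U _ (mres M (image_preimage_of_le hV).le x)))) := rfl

theorem ofRestrict_id : ofRestrict (𝟙 (M.restrict U.ι)) = HomOn.id U M := by
  ext V hV x
  exact (mres_mres M _ _ x).trans (mres_self M x)

theorem ofRestrict_comp (φ : M.restrict U.ι ⟶ N.restrict U.ι) (ψ : N.restrict U.ι ⟶ K.restrict U.ι) :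
    ofRestrict (φ ≫ ψ) = (ofRestrict φ).comp (ofRestrict ψ) := by
  ext V hV x
  rw [comp_app, ofRestrict_app, ofRestrict_app, ofRestrict_app, mres_mres, mres_self, rIn_rOut]
  rfl

theorem toRestrict_ofRestrict (φ : M.restrict U.ι ⟶ N.restrict U.ι) :
    (ofRestrict φ).toRestrict = φ := by
  ext W x
  rw [toRestrict_app, ofRestrict_app]
  have e : U.ι ⁻¹ᵁ (U.ι ''ᵁ W) = W := U.ι.preimage_image_eq W
  have h2 := congrArg (rOut N U _) ((HomOn.ofHom ⊤ φ).natural e.le le_top x)
  rw [rOut_mres, HomOn.ofHom_app, HomOn.ofHom_app] at h2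
  refine congrArg (rIn N U W) ((congrArg (mres N _) h2.symm).trans ?_)
  rw [mres_mres, mres_self]
  rfl

theorem ofRestrict_toRestrict (f : HomOn U M N) : ofRestrict f.toRestrict = f := by
  ext V hV x
  rw [ofRestrict_app, toRestrict_app, rOut_rIn, rOut_rIn, f.natural, mres_mres, mres_self]

theorem toRestrict_injective : Function.Injective (toRestrict : HomOn U M N → _) :=
  Function.LeftInverse.injective ofRestrict_toRestrict

theorem toRestrict_id : (HomOn.id U M).toRestrict = 𝟙 _ := rfl

theorem toRestrict_comp (f : HomOn U M N) (g : HomOn U N K) :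
    (f.comp g).toRestrict = f.toRestrict ≫ g.toRestrict := rfl

end HomOn

namespace IsoOn

variable {U : X.Opens} {M N : X.Modules}

/-- The isomorphism of restrictions. -/
def toRestrict (e : IsoOn U M N) : M.restrict U.ι ≅ N.restrict U.ι where
  hom := e.hom.toRestrict
  inv := e.inv.toRestrict
  hom_inv_id := by ext W x; exact congrArg (rIn M U W) (e.hom_inv _ (rOut M U W x))
  inv_hom_id := by ext W x; exact congrArg (rIn N U W) (e.inv_hom _ (rOut N U W x))

/-- The isomorphism on the part. -/
def ofRestrict (e : M.restrict U.ι ≅ N.restrict U.ι) : IsoOn U M N where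
  hom := HomOn.ofRestrict e.hom
  inv := HomOn.ofRestrict e.inv
  hom_inv hV x := by
    rw [← HomOn.comp_app, ← HomOn.ofRestrict_comp, e.hom_inv_id, HomOn.ofRestrict_id]; rfl
  inv_hom hV x := by
    rw [← HomOn.comp_app, ← HomOn.ofRestrict_comp, e.inv_hom_id, HomOn.ofRestrict_id]; rfl

end IsoOn

/-- The unit restricts to the unit. -/
def unitRestrictIso (U : X.Opens) : (unitMod X).restrict U.ι ≅ unitMod U.toScheme :=
  (Scheme.Modules.restrictFunctorIsoPullback U.ι).app _ ≪≫ Scheme.Modules.pullbackUnitIso U.ι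

/-- A trivialisation of the inverse image is a trivialisation on the part. -/
def isoOnOfTrivialization {U : X.Opens} {M : X.Modules}
    (e : (Scheme.Modules.pullback U.ι).obj M ≅ SheafOfModules.unit U.toScheme.ringCatSheaf) :
    IsoOn U (unitMod X) M :=
  IsoOn.ofRestrict
    (unitRestrictIso U ≪≫ e.symm ≪≫ ((Scheme.Modules.restrictFunctorIsoPullback U.ι).app M).symm)

/-- A trivialisation on the part gives one of the inverse image. -/
def trivializationOfIsoOn {U : X.Opens} {M : X.Modules} (e : IsoOn U (unitMod X) M) :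
    (Scheme.Modules.pullback U.ι).obj M ≅ SheafOfModules.unit U.toScheme.ringCatSheaf :=
  ((Scheme.Modules.restrictFunctorIsoPullback U.ι).app M).symm ≪≫ e.toRestrict.symm ≪≫
    unitRestrictIso U

theorem isInvertible_iff_isoOn {M : X.Modules} : Scheme.Modules.IsInvertible M ↔
    ∀ x : X, ∃ U : X.Opens, x ∈ U ∧ Nonempty (IsoOn U (unitMod X) M) := by
  refine ⟨fun h x => ?_, fun h => ⟨fun x => ?_⟩⟩
  · obtain ⟨U, hx, ⟨e⟩⟩ := h.1 x
    exact ⟨U, hx, ⟨isoOnOfTrivialization e⟩⟩
  · obtain ⟨U, hx, ⟨e⟩⟩ := h x
    exact ⟨U, hx, ⟨trivializationOfIsoOn e⟩⟩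

end FLTAgent.PicScheme

end
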