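import Fermat.Agent.PicScheme.Modules.Open
import Fermat.Agent.PicScheme.Interface

/-!
# The charts of the curve over an affine base

Over an affine base the two charts of the curve give two affine open subschemes covering it,
whose intersection is the overlap chart; the marked point lies in the first.
-/

set_option autoImplicit false
set_option linter.checkUnivs false

noncomputable section

universe u

open CategoryTheory CategoryTheory.Limits AlgebraicGeometry AlgebraicGeometry.RelPicard
  NeronModelInfra TopologicalSpace
open scoped TensorProduct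

namespace FLTAgent.PicScheme

variable {k : Type u} [Field k] {C : Scheme.{u}} {c : C ⟶ Spec (CommRingCat.of k)}
  {ε : SchemeHomOver (𝟙 (Spec (CommRingCat.of k))) c}

/-- The morphism of spectra of a ring map. -/
abbrev specMap {R S : Type u} [CommRing R] [CommRing S] (f : R →+* S) :
    Spec (CommRingCat.of S) ⟶ Spec (CommRingCat.of R) :=
  Spec.map (CommRingCat.ofHom f)

theorem specMap_comp {R S T : Type u} [CommRing R] [CommRing S] [CommRing T] (f : R →+* S)
    (g : S →+* T) : specMap g ≫ specMap f = specMap (g.comp f) :=
  (Spec.map_comp _ _).symm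

theorem specMap_congr {R S : Type u} [CommRing R] [CommRing S] {f g : R →+* S} (h : ∀ x, f x = g x) :
    specMap f = specMap g := by
  rw [RingHom.ext h]

section Piece

variable (A : Type u) [CommRing A] [Algebra k A] {B : Type u} [CommRing B] [Algebra k B]
  (j : SchemeHomOver (specT k B) c)

/-- The projection to a chart of the curve. -/
def chartFst (B : Type u) [CommRing B] [Algebra k B] :
    Spec (CommRingCat.of (A ⊗[k] B)) ⟶ Spec (CommRingCat.of B) :=
  specMap (Algebra.TensorProduct.includeRight : B →ₐ[k] A ⊗[k] B).toRingHom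

/-- The projection to the base. -/
def chartSnd (B : Type u) [CommRing B] [Algebra k B] :
    Spec (CommRingCat.of (A ⊗[k] B)) ⟶ Spec (CommRingCat.of A) :=
  specMap (Algebra.TensorProduct.includeLeftRingHom : A →+* A ⊗[k] B)

theorem isPullback_chart (B : Type u) [CommRing B] [Algebra k B] :
    IsPullback (chartSnd (k := k) A B) (chartFst A B) (specT k A) (specT k B) :=
  isPullback_SpecMap_of_isPushout _ _ _ _ (CommRingCat.isPushout_tensorProduct k A B)

/-- A chart over the base. -/
def piece : Spec (CommRingCat.of (A ⊗[k] B)) ⟶ pullback c (specT k A) :=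
  pullback.lift (chartFst A B ≫ j.1) (chartSnd A B)
    (by rw [Category.assoc, j.2, (isPullback_chart A B).w])

theorem piece_fst : piece A j ≫ pullback.fst c (specT k A) = chartFst A B ≫ j.1 :=
  pullback.lift_fst _ _ _

theorem piece_snd : piece A j ≫ pullback.snd c (specT k A) = chartSnd A B :=
  pullback.lift_snd _ _ _

theorem isPullback_piece :
    IsPullback (piece A j) (chartFst A B) (pullback.fst c (specT k A)) j.1 :=
  IsPullback.of_right
    (by rw [piece_snd, j.2]; exact isPullback_chart A B)
    (piece_fst A j) (IsPullback.of_hasPullback c (specT k A)).flip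

theorem isOpenImmersion_piece [IsOpenImmersion j.1] : IsOpenImmersion (piece A j) :=
  MorphismProperty.of_isPullback (P := @IsOpenImmersion) (isPullback_piece A j).flip ‹_›

theorem mem_range_piece {z : ↑(pullback c (specT k A))} :
    z ∈ Set.range (piece A j) ↔ pullback.fst c (specT k A) z ∈ Set.range j.1 := by
  have h := isPullback_piece A j
  have e : Set.range (piece A j) = pullback.fst c (specT k A) ⁻¹' Set.range j.1 := by
    rw [← Scheme.Pullback.range_fst, ← h.isoPullback_hom_fst, Scheme.Hom.comp_base, TopCat.coe_comp,
      Set.range_comp]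
    rw [show Set.range h.isoPullback.hom = Set.univ from
      Set.range_eq_univ.mpr h.isoPullback.hom.homeomorph.surjective, Set.image_univ]
  rw [e]
  rfl

variable {A} {A' : Type u} [CommRing A'] [Algebra k A']

theorem piece_baseChange (φ : A →ₐ[k] A') :
    piece A' j ≫ baseChangeSnd c (specHom φ) =
      specMap (Datum.chartMap B φ).toRingHom ≫ piece A j := by
  apply pullback.hom_ext
  · rw [Category.assoc, Category.assoc, piece_fst, baseChangeSnd, pullback.lift_fst,
      Category.comp_id, piece_fst, ← Category.assoc, chartFst, chartFst, specMap_comp]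
    exact congrArg (· ≫ j.1) (specMap_congr fun b => by simp [Datum.chartMap])
  · rw [Category.assoc, Category.assoc, piece_snd, baseChangeSnd, pullback.lift_snd,
      ← Category.assoc, piece_snd, chartSnd, chartSnd, specMap_comp]
    exact (specMap_comp _ _).trans (specMap_congr fun a => by
      simp [Datum.chartMap, Algebra.TensorProduct.includeLeftRingHom_apply])

end Piece

namespace Frame

variable (F : Frame c ε) (A : Type u) [CommRing A] [Algebra k A]

/-- The immersion of the overlap chart into the curve. -/
def j₀ : SchemeHomOver (specT k F.X.B₀) c :=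
  postComp F.j₁ (specHom F.X.ι₁)

theorem j₀_eq : F.j₀.1 = (specHom F.X.ι₂).1 ≫ F.j₂.1 := F.inter.w

instance openImmersion₁ : IsOpenImmersion F.j₁.1 := F.open₁

instance openImmersion₂ : IsOpenImmersion F.j₂.1 := F.open₂

instance openImmersion₀ : IsOpenImmersion F.j₀.1 :=
  haveI : IsOpenImmersion (specHom F.X.ι₁).1 :=
    MorphismProperty.of_isPullback (P := @IsOpenImmersion) F.inter.flip F.open₂
  show IsOpenImmersion ((specHom F.X.ι₁).1 ≫ F.j₁.1) from inferInstance

theorem res₁_piece : specMap (F.X.res₁ A).toRingHom ≫ piece A F.j₁ = piece A F.j₀ := by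
  apply pullback.hom_ext
  · rw [Category.assoc, piece_fst, piece_fst, ← Category.assoc, chartFst, specMap_comp]
    show _ = _ ≫ (specHom F.X.ι₁).1 ≫ F.j₁.1
    rw [← Category.assoc]
    refine congrArg (· ≫ F.j₁.1) (Eq.trans ?_ (specMap_comp _ _).symm)
    exact specMap_congr fun b => by simp [Charts.res₁]
  · rw [Category.assoc, piece_snd, piece_snd, chartSnd, specMap_comp]
    exact specMap_congr fun a => by simp [Charts.res₁]

theorem res₂_piece : specMap (F.X.res₂ A).toRingHom ≫ piece A F.j₂ = piece A F.j₀ := by
  apply pullback.hom_ext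
  · rw [Category.assoc, piece_fst, piece_fst, ← Category.assoc, chartFst, specMap_comp, F.j₀_eq,
      ← Category.assoc]
    refine congrArg (· ≫ F.j₂.1) (Eq.trans ?_ (specMap_comp _ _).symm)
    exact specMap_congr fun b => by simp [Charts.res₂]
  · rw [Category.assoc, piece_snd, piece_snd, chartSnd, specMap_comp]
    exact specMap_congr fun a => by simp [Charts.res₂]

/-- The two charts over an affine base. -/
def twoCover : TwoCover (pullback c (specT k A)) where
  Y₁ := Spec (CommRingCat.of (F.X.R₁ A))
  Y₂ := Spec (CommRingCat.of (F.X.R₂ A))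
  Y₀ := Spec (CommRingCat.of (F.X.R₀ A))
  f₁ := piece A F.j₁
  f₂ := piece A F.j₂
  f₀ := piece A F.j₀
  g₁ := specMap (F.X.res₁ A).toRingHom
  g₂ := specMap (F.X.res₂ A).toRingHom
  open₁ := isOpenImmersion_piece A F.j₁
  open₂ := isOpenImmersion_piece A F.j₂
  open₀ := isOpenImmersion_piece A F.j₀
  comp₁ := F.res₁_piece A
  comp₂ := F.res₂_piece A
  inter := by
    rintro z ⟨h₁, h₂⟩
    show z ∈ Set.range (piece A F.j₀)
    obtain ⟨a, ha⟩ := (mem_range_piece A F.j₁).1 h₁
    obtain ⟨b, hb⟩ := (mem_range_piece A F.j₂).1 h₂
    have e : Set.range (specHom F.X.ι₁).1 = F.j₁.1 ⁻¹' Set.range F.j₂.1 := by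
      rw [← Scheme.Pullback.range_fst, ← F.inter.isoPullback_hom_fst, Scheme.Hom.comp_base,
        TopCat.coe_comp, Set.range_comp,
        show Set.range F.inter.isoPullback.hom = Set.univ from
          Set.range_eq_univ.mpr F.inter.isoPullback.hom.homeomorph.surjective, Set.image_univ]
    obtain ⟨y, hy⟩ : a ∈ Set.range (specHom F.X.ι₁).1 := by
      rw [e]
      exact ⟨b, hb.trans ha.symm⟩
    refine (mem_range_piece A F.j₀).2 ⟨y, ?_⟩
    show F.j₁.1 ((specHom F.X.ι₁).1 y) = _
    rw [hy, ha]
  cover := eq_top_iff.2 fun z _ => by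
    rcases F.cover (pullback.fst c (specT k A) z) with h | h
    · exact Or.inl ((mem_range_piece A F.j₁).2 h)
    · exact Or.inr ((mem_range_piece A F.j₂).2 h)

/-- The evaluation at the marked point. -/
def evPt : F.X.R₁ A →ₐ[A] A :=
  Algebra.TensorProduct.lift (AlgHom.id A A) ((Algebra.ofId k A).comp F.X.pt)
    (fun _ _ => Commute.all _ _)

theorem evPt_piece :
    specMap (F.evPt A).toRingHom ≫ piece A F.j₁ = rigSection c (specT k A) ε := by
  apply pullback.hom_ext
  · rw [Category.assoc, piece_fst, rigSection, pullback.lift_fst, chartFst, ← Category.assoc,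
      specMap_comp]
    have hp : (specHom F.X.pt).1 ≫ F.j₁.1 = ε.1 := by
      rw [F.point, specT, Algebra.algebraMap_self]
      exact (congrArg (· ≫ ε.1) (Spec.map_id _)).trans (Category.id_comp _)
    rw [← hp, ← Category.assoc]
    refine congrArg (· ≫ F.j₁.1) (Eq.trans ?_ (specMap_comp _ _).symm)
    exact specMap_congr fun b => by simp [evPt, Algebra.ofId_apply]
  · rw [Category.assoc, piece_snd, rigSection, pullback.lift_snd, chartSnd, specMap_comp]
    exact (specMap_congr (g := RingHom.id A) fun a => by simp [evPt]).trans (Spec.map_id _)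

end Frame

end FLTAgent.PicScheme

end
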