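import Fermat.Agent.PicScheme.Modules.Normal
import Fermat.Agent.PicScheme.Modules.Pieces
import Fermat.Agent.PicScheme.Curve.Const

/-!
# Rigidified bundles descend along affine pieces of the base

Bundles with equal classes on affine pieces are isomorphic and compatible classes on affine pieces
come from a bundle: isomorphisms respecting rigidifications are unique, so they glue.
-/

set_option autoImplicit false
set_option linter.checkUnivs false
set_option linter.style.haveILetI false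

noncomputable section

universe u

open CategoryTheory CategoryTheory.Limits AlgebraicGeometry AlgebraicGeometry.RelPicard
  NeronModelInfra GoodReductionJacobian TopologicalSpace

namespace FLTAgent.PicScheme

section Part

variable {X : Scheme.{u}} {M N : X.Modules}

/-- Morphisms glue on a part. -/
theorem HomOn.exists_glue {ι : Type u} {U : ι → X.Opens} (f : ∀ i, HomOn (U i) M N) (hf : Agree f)
    {W : X.Opens} (hW : W ≤ iSup U) :
    ∃ g : HomOn W M N, ∀ i (V : X.Opens) (hV : V ≤ W) (hi : V ≤ U i) (x : Γ(M, V)),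
      g.app V hV x = (f i).app V hi x := by
  have hcov : ∀ V : X.Opens, V ≤ W → V ≤ iSup fun i => V ⊓ U i := fun V hV => by
    rw [← inf_iSup_eq]
    exact le_inf le_rfl (hV.trans hW)
  have hex : ∀ (V : X.Opens), V ≤ W → ∀ x : Γ(M, V),
      ∃! y : Γ(N, V), ∀ i, mres N (inf_le_left : V ⊓ U i ≤ V) y =
        (f i).app (V ⊓ U i) inf_le_right (mres M inf_le_left x) := fun V hV x =>
    existsUnique_mres N _ (hcov V hV) _ fun i j => by
      rw [(f i).natural, (f j).natural, mres_mres, mres_mres]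
      exact hf i j _ _ _ _
  choose y hy hu using hex
  refine ⟨{ app := fun V hV =>
    { toFun := y V hV
      map_add' := fun a b => (hu V hV (a + b) _ fun i => by
        rw [mres_add, mres_add, hy, hy, map_add]).symm
      map_smul' := fun r a => (hu V hV (r • a) _ fun i => by
        rw [mres_smul, mres_smul, RingHom.id_apply, hy, map_smul]).symm }
            natural := fun {V V'} h hV' x => ?_ }, fun i V hV hi x => ?_⟩
  · refine hu V (h.trans hV') _ _ fun i => ?_
    show mres N _ (mres N h (y V' hV' x)) = _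
    rw [mres_mres, mres_mres, ← mres_mres N (inf_le_inf_right (U i) h) (inf_le_left : V' ⊓ U i ≤ V'),
      hy, (f i).natural, mres_mres]
  · refine (hu V hV x _ fun j => ?_).symm
    rw [(f i).natural]
    exact hf i j _ _ _ _

/-- Isomorphisms glue on a part. -/
theorem IsoOn.exists_glue {ι : Type u} {U : ι → X.Opens} (e : ∀ i, IsoOn (U i) M N)
    (he : Agree fun i => (e i).hom) {W : X.Opens} (hW : W ≤ iSup U) :
    ∃ g : IsoOn W M N, ∀ i (V : X.Opens) (hV : V ≤ W) (hi : V ≤ U i) (x : Γ(M, V)),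
      g.hom.app V hV x = (e i).hom.app V hi x := by
  obtain ⟨a, ha⟩ := HomOn.exists_glue _ he hW
  obtain ⟨b, hb⟩ := HomOn.exists_glue _ (IsoOn.symm_agree he) hW
  refine ⟨⟨a, b, fun {V} hV x => ?_, fun {V} hV x => ?_⟩, ha⟩
  · refine eq_of_mres M (U := fun i => V ⊓ U i) (fun i => inf_le_left)
      (by rw [← inf_iSup_eq]; exact le_inf le_rfl (hV.trans hW)) fun i => ?_
    rw [b.natural, a.natural, ha i _ _ inf_le_right, hb i _ _ inf_le_right, (e i).hom_inv]
  · refine eq_of_mres N (U := fun i => V ⊓ U i) (fun i => inf_le_left)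
      (by rw [← inf_iSup_eq]; exact le_inf le_rfl (hV.trans hW)) fun i => ?_
    rw [a.natural, b.natural, hb i _ _ inf_le_right, ha i _ _ inf_le_right, (e i).inv_hom]

theorem InvOn.mono {W W' : X.Opens} (h : InvOn W M) (hW : W' ≤ W) : InvOn W' M :=
  fun x hx => h x (hW hx)

theorem app_congr_hom {Y : Scheme.{u}} {g g' : Y ⟶ X} (e : g = g') {V : X.Opens} (r : Γ(X, V))
    {W : Y.Opens} (h : W ≤ g ⁻¹ᵁ V) (h' : W ≤ g' ⁻¹ᵁ V) :
    fres Y h (g.app V r) = fres Y h' (g'.app V r) := by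
  subst e
  rfl

theorem appTop_inj_of_range {Y : Scheme.{u}} (g : Y ⟶ X) [IsOpenImmersion g] {a b : Γ(X, ⊤)}
    (h : g.appTop a = g.appTop b) :
    fres X (le_top : g.opensRange ≤ ⊤) a = fres X (le_top : g.opensRange ≤ ⊤) b := by
  haveI : IsIso (g.app g.opensRange) := g.isIso_app _ le_rfl
  apply (ConcreteCategory.bijective_of_isIso (g.app g.opensRange)).1
  rw [app_fres, app_fres]
  exact congrArg (fres Y _) h

end Part

variable {k : Type u} [Field k] {C : Scheme.{u}} {c : C ⟶ Spec (CommRingCat.of k)}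
  {ε : SchemeHomOver (𝟙 (Spec (CommRingCat.of k))) c}

theorem rigSection_snd {T : Scheme.{u}} (t : T ⟶ Spec (CommRingCat.of k)) :
    rigSection c t ε ≫ pullback.snd c t = 𝟙 T :=
  pullback.lift_snd _ _ _

theorem baseChangeSnd_snd {T T' : Scheme.{u}} {t : T ⟶ Spec (CommRingCat.of k)}
    {t' : T' ⟶ Spec (CommRingCat.of k)} (s : SchemeHomOver t' t) :
    baseChangeSnd c s ≫ pullback.snd c t = pullback.snd c t' ≫ s.1 :=
  pullback.lift_snd _ _ _

theorem baseChangeSnd_fst {T T' : Scheme.{u}} {t : T ⟶ Spec (CommRingCat.of k)}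
    {t' : T' ⟶ Spec (CommRingCat.of k)} (s : SchemeHomOver t' t) :
    baseChangeSnd c s ≫ pullback.fst c t = pullback.fst c t' :=
  (pullback.lift_fst _ _ _).trans (Category.comp_id _)

theorem isPullback_baseChangeSnd {T T' : Scheme.{u}} {t : T ⟶ Spec (CommRingCat.of k)}
    {t' : T' ⟶ Spec (CommRingCat.of k)} (s : SchemeHomOver t' t) :
    IsPullback (baseChangeSnd c s) (pullback.snd c t') (pullback.snd c t) s.1 := by
  refine IsPullback.of_right (h₁₂ := pullback.fst c t) (h₂₂ := t) (v₁₃ := c) ?_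
    (baseChangeSnd_snd s) (IsPullback.of_hasPullback c t)
  rw [baseChangeSnd_fst, s.2]
  exact IsPullback.of_hasPullback c t'

instance isOpenImmersion_baseChangeSnd {T T' : Scheme.{u}} {t : T ⟶ Spec (CommRingCat.of k)}
    {t' : T' ⟶ Spec (CommRingCat.of k)} (s : SchemeHomOver t' t) [IsOpenImmersion s.1] :
    IsOpenImmersion (baseChangeSnd c s) :=
  MorphismProperty.of_isPullback (P := @IsOpenImmersion) (isPullback_baseChangeSnd s).flip ‹_›

theorem opensRange_baseChangeSnd {T T' : Scheme.{u}} {t : T ⟶ Spec (CommRingCat.of k)}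
    {t' : T' ⟶ Spec (CommRingCat.of k)} (s : SchemeHomOver t' t) [IsOpenImmersion s.1] :
    (baseChangeSnd c s).opensRange = pullback.snd c t ⁻¹ᵁ s.1.opensRange := by
  apply Opens.ext
  show Set.range (baseChangeSnd c s) = pullback.snd c t ⁻¹' Set.range s.1
  have h := isPullback_baseChangeSnd (c := c) s
  rw [← Scheme.Pullback.range_fst, ← h.isoPullback_hom_fst, Scheme.Hom.comp_base, TopCat.coe_comp,
    Set.range_comp, show Set.range h.isoPullback.hom = Set.univ from
      Set.range_eq_univ.mpr h.isoPullback.hom.homeomorph.surjective, Set.image_univ]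

section Functions

variable [IsAlgClosed k] [IsProper c] [SmoothOfRelativeDimension 1 c] [IsIntegral C]

/-- The functions on the curve over an affine base are functions on the base. -/
theorem surjective_appTop_snd (F : Frame c ε) (A : Type u) [CommRing A] [Algebra k A] :
    Function.Surjective (pullback.snd c (specT k A)).appTop := by
  intro s
  let U := F.twoCover A
  let rd : ∀ (R : CommRingCat.{u}) (g : Spec R ⟶ pullback c (specT k A)), R := fun R g =>
    (Scheme.ΓSpecIso R).hom (g.appTop s)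
  have hread : ∀ {R S : CommRingCat.{u}} (φ : R ⟶ S) (g : Spec R ⟶ pullback c (specT k A)),
      rd S (Spec.map φ ≫ g) = φ (rd R g) := fun φ g =>
    ConcreteCategory.congr_hom (Scheme.ΓSpecIso_naturality φ) (g.appTop s)
  have h : F.X.res₁ A (rd _ (piece A F.j₁)) = F.X.res₂ A (rd _ (piece A F.j₂)) := by
    refine Eq.trans (hread (CommRingCat.ofHom (F.X.res₁ A).toRingHom) (piece A F.j₁)).symm
      (Eq.trans ?_ (hread (CommRingCat.ofHom (F.X.res₂ A).toRingHom) (piece A F.j₂)))
    exact congrArg (rd _) ((F.res₁_piece A).trans (F.res₂_piece A).symm)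
  obtain ⟨a, ha₁, ha₂⟩ := F.hasConst.of_res _ _ h
  refine ⟨(Scheme.ΓSpecIso (CommRingCat.of A)).inv a, ?_⟩
  have key : ∀ (B : Type u) [CommRing B] [Algebra k B] (j : SchemeHomOver (specT k B) c),
      rd _ (piece A j) = Algebra.TensorProduct.includeLeftRingHom a →
      (piece A j).appTop ((pullback.snd c (specT k A)).appTop
        ((Scheme.ΓSpecIso (CommRingCat.of A)).inv a)) = (piece A j).appTop s := fun B _ _ j hj => by
    rw [← ConcreteCategory.comp_apply, ← Scheme.Hom.comp_appTop, piece_snd]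
    apply (ConcreteCategory.bijective_of_isIso (Scheme.ΓSpecIso (CommRingCat.of _)).hom).1
    refine Eq.trans ?_ hj.symm
    rw [chartSnd, specMap]
    refine (ConcreteCategory.congr_hom (Scheme.ΓSpecIso_naturality _) _).trans ?_
    rw [ConcreteCategory.comp_apply]
    refine congrArg _ ?_
    exact ConcreteCategory.congr_hom (Scheme.ΓSpecIso (CommRingCat.of A)).inv_hom_id a
  refine fun_ext (U := U.opens) (fun i => le_top) U.iSup_opens.ge fun i => ?_
  rcases i with ⟨_ | _⟩
  · haveI := U.open₂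
    exact appTop_inj_of_range U.f₂ (key _ F.j₂ ha₂)
  · haveI := U.open₁
    exact appTop_inj_of_range U.f₁ (key _ F.j₁ ha₁)

end Functions

section Pieces

variable {T : Scheme.{u}} (t : T ⟶ Spec (CommRingCat.of k))

/-- The algebra of an affine open of the base. -/
@[reducible] def ptAlg (U : T.affineOpens) : Algebra k Γ(T, U.1) :=
  (Spec.preimage (U.2.fromSpec ≫ t)).hom.toAlgebra

/-- An affine open of the base as a point. -/
def affPt (U : T.affineOpens) : SchemeHomOver (@specT k _ Γ(T, U.1) _ (ptAlg t U)) t :=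
  ⟨U.2.fromSpec, (Spec.map_preimage (U.2.fromSpec ≫ t)).symm⟩

instance (U : T.affineOpens) : IsOpenImmersion (affPt t U).1 :=
  U.2.isOpenImmersion_fromSpec

theorem opensRange_affPt (U : T.affineOpens) : (affPt t U).1.opensRange = U.1 :=
  U.2.opensRange_fromSpec

variable {t}

/-- A morphism of affine points over the base is given by a homomorphism. -/
theorem exists_eq_specHom {A A' : Type u} [CommRing A] [Algebra k A] [CommRing A'] [Algebra k A']
    (q : SchemeHomOver (specT k A') (specT k A)) : ∃ φ : A →ₐ[k] A', specHom φ = q := by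
  obtain ⟨ψ, hψ⟩ := Spec.map_surjective q.1
  have h2 : Spec.map (CommRingCat.ofHom (algebraMap k A) ≫ ψ) =
      Spec.map (CommRingCat.ofHom (algebraMap k A')) := by
    rw [Spec.map_comp, hψ]
    exact q.2
  have h3 : ∀ x : k, ψ.hom (algebraMap k A x) = algebraMap k A' x := fun x =>
    ConcreteCategory.congr_hom (Spec.map_injective h2) x
  exact ⟨{ ψ.hom with commutes' := h3 }, Subtype.ext hψ⟩

/-- A point inside an affine open factors through it. -/
theorem exists_factor_affPt (U : T.affineOpens) {A' : Type u} [CommRing A'] [Algebra k A']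
    (p : SchemeHomOver (specT k A') t) (h : Set.range p.1 ⊆ U.1) :
    letI := ptAlg t U
    ∃ φ : Γ(T, U.1) →ₐ[k] A', postComp (affPt t U) (specHom φ) = p := by
  letI := ptAlg t U
  have hr : Set.range p.1 ⊆ Set.range (affPt t U).1 := fun x hx => by
    have := h hx
    rw [← opensRange_affPt t U] at this
    exact this
  let l := IsOpenImmersion.lift (affPt t U).1 p.1 hr
  have hl : l ≫ (affPt t U).1 = p.1 := IsOpenImmersion.lift_fac _ _ _
  obtain ⟨φ, hφ⟩ := exists_eq_specHom (k := k) (A := Γ(T, U.1))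
    ⟨l, by rw [← (affPt t U).2, ← Category.assoc, hl, p.2]⟩
  refine ⟨φ, Subtype.ext ?_⟩
  show (specHom φ).1 ≫ (affPt t U).1 = p.1
  rw [hφ]
  exact hl

theorem le_range_baseChangeSnd (U : T.affineOpens) :
    pullback.snd c t ⁻¹ᵁ U.1 ≤ (baseChangeSnd c (affPt t U)).opensRange := by
  rw [opensRange_baseChangeSnd, opensRange_affPt]

theorem preimage_baseChangeSnd (U : T.affineOpens) :
    baseChangeSnd c (affPt t U) ⁻¹ᵁ (pullback.snd c t ⁻¹ᵁ U.1) = ⊤ := by
  refine eq_top_iff.2 fun z _ => ?_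
  show baseChangeSnd c (affPt t U) z ∈ pullback.snd c t ⁻¹ᵁ U.1
  exact ((opensRange_baseChangeSnd (affPt t U)).le.trans
    (Scheme.Hom.preimage_mono _ (opensRange_affPt t U).le)) ⟨z, rfl⟩

variable (F : Frame c ε) [IsAlgClosed k] [IsProper c] [SmoothOfRelativeDimension 1 c] [IsIntegral C]

include F in
/-- The functions on the preimage of an affine open are functions on it. -/
theorem surjective_app_snd (U : T.affineOpens) :
    Function.Surjective ((pullback.snd c t).app U.1) := by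
  letI := ptAlg t U
  intro r
  let f := pullback.snd c t
  let p := affPt t U
  let g := baseChangeSnd c p
  haveI : IsIso (g.app (f ⁻¹ᵁ U.1)) := g.isIso_app _ (le_range_baseChangeSnd U)
  haveI : IsIso (p.1.app U.1) := p.1.isIso_app _ (opensRange_affPt t U).ge
  have hg := preimage_baseChangeSnd (c := c) (t := t) U
  have hp : p.1 ⁻¹ᵁ U.1 = ⊤ := U.2.fromSpec_preimage_self
  obtain ⟨a', ha'⟩ := surjective_appTop_snd F Γ(T, U.1) (fres _ hg.ge (g.app (f ⁻¹ᵁ U.1) r))
  obtain ⟨a, ha⟩ := (ConcreteCategory.bijective_of_isIso (p.1.app U.1)).2 (fres _ le_top a')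
  refine ⟨a, (ConcreteCategory.bijective_of_isIso (g.app (f ⁻¹ᵁ U.1))).1 ?_⟩
  have hle : g ⁻¹ᵁ (f ⁻¹ᵁ U.1) ≤ (pullback.snd c (specT k Γ(T, U.1)) ≫ p.1) ⁻¹ᵁ U.1 := by
    rw [← baseChangeSnd_snd p]
    exact le_rfl
  have h1 := app_congr_hom (baseChangeSnd_snd (c := c) p) a (W := g ⁻¹ᵁ (f ⁻¹ᵁ U.1)) le_rfl hle
  replace h1 : fres _ (le_refl (g ⁻¹ᵁ (f ⁻¹ᵁ U.1))) (g.app (f ⁻¹ᵁ U.1) (f.app U.1 a)) =
      fres _ hle ((pullback.snd c (specT k Γ(T, U.1))).app (p.1 ⁻¹ᵁ U.1) (p.1.app U.1 a)) := h1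
  rw [fres_self, ha] at h1
  refine h1.trans ?_
  rw [app_fres]
  refine (fres_fres _ _ _ _).trans ?_
  refine (congrArg (fres _ _) ha').trans ?_
  refine (fres_fres _ _ _ _).trans ?_
  exact fres_self _ _

include F in
/-- Isomorphisms respecting trivialisations agree over any part of the base. -/
theorem rigid_agree {U : T.Opens} {L L' : (pullback c t).Modules}
    (hL' : InvOn (pullback.snd c t ⁻¹ᵁ U) L')
    (η : Trv (rigSection c t ε) (pullback.snd c t ⁻¹ᵁ U) L)
    {η' : Trv (rigSection c t ε) (pullback.snd c t ⁻¹ᵁ U) L'} (h' : η'.NonDeg)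
    (ψ ψ' : IsoOn (pullback.snd c t ⁻¹ᵁ U) L L')
    (hψ : ∀ V hV y, η'.val V hV (ψ.hom.app V hV y) = η.val V hV y)
    (hψ' : ∀ V hV y, η'.val V hV (ψ'.hom.app V hV y) = η.val V hV y)
    {V : (pullback c t).Opens} (hV : V ≤ pullback.snd c t ⁻¹ᵁ U) (x : Γ(L, V)) :
    ψ.hom.app V hV x = ψ'.hom.app V hV x := by
  have hcov : V ≤ iSup fun O : {O : T.affineOpens // O.1 ≤ U} => V ⊓ pullback.snd c t ⁻¹ᵁ O.1.1 :=
    fun z hz => by
      obtain ⟨O, hO, hzO, hOU⟩ := exists_isAffineOpen_mem_and_subset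
        (show pullback.snd c t z ∈ U from hV hz)
      exact Opens.mem_iSup.2 ⟨⟨⟨O, hO⟩, hOU⟩, hz, hzO⟩
  refine eq_of_mres L' (fun O => inf_le_left) hcov fun O => ?_
  have hle : pullback.snd c t ⁻¹ᵁ O.1.1 ≤ pullback.snd c t ⁻¹ᵁ U := Scheme.Hom.preimage_mono _ O.2
  rw [ψ.hom.natural, ψ'.hom.natural]
  exact rigid_unique (surjective_app_snd F O.1) (hL'.mono hle) (η.res hle) (h'.res hle)
    (ψ.res hle) (ψ'.res hle) (fun V hV y => hψ V (hV.trans hle) y)
    (fun V hV y => hψ' V (hV.trans hle) y) (rigSection_snd t) inf_le_right _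

variable {L L' : (pullback c t).Modules}

include F in
/-- Rigid isomorphisms over pieces of the base glue. -/
theorem exists_glue_rigid {ι : Type u} (O : ι → T.Opens) {W : T.Opens} (hW : W ≤ iSup O)
    (hL' : InvOn (pullback.snd c t ⁻¹ᵁ W) L') (hOW : ∀ i, O i ≤ W)
    (η : Trv (rigSection c t ε) (pullback.snd c t ⁻¹ᵁ W) L)
    {η' : Trv (rigSection c t ε) (pullback.snd c t ⁻¹ᵁ W) L'} (h' : η'.NonDeg)
    (ψ : ∀ i, IsoOn (pullback.snd c t ⁻¹ᵁ O i) L L')
    (hψ : ∀ i V hV y, η'.val V (hV.trans ((pullback.snd c t).preimage_mono (hOW i)))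
      ((ψ i).hom.app V hV y) = η.val V (hV.trans ((pullback.snd c t).preimage_mono (hOW i))) y) :
    ∃ φ : IsoOn (pullback.snd c t ⁻¹ᵁ W) L L',
      ∀ V hV y, η'.val V hV (φ.hom.app V hV y) = η.val V hV y := by
  have hag : Agree fun i => (ψ i).hom := fun i j V hi hj x => by
    have hle : pullback.snd c t ⁻¹ᵁ (O i ⊓ O j) ≤ pullback.snd c t ⁻¹ᵁ W :=
      Scheme.Hom.preimage_mono _ (inf_le_left.trans (hOW i))
    exact rigid_agree F (U := O i ⊓ O j) (hL'.mono hle) (η.res hle) (h'.res hle)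
      ((ψ i).res (Scheme.Hom.preimage_mono _ inf_le_left))
      ((ψ j).res (Scheme.Hom.preimage_mono _ inf_le_right))
      (fun V hV y => hψ i V (hV.trans (Scheme.Hom.preimage_mono _ inf_le_left)) y)
      (fun V hV y => hψ j V (hV.trans (Scheme.Hom.preimage_mono _ inf_le_right)) y)
      (le_inf hi hj) x
  obtain ⟨φ, hφ⟩ := IsoOn.exists_glue ψ hag (W := pullback.snd c t ⁻¹ᵁ W) fun z hz => by
    obtain ⟨i, hi⟩ := Opens.mem_iSup.1 (hW hz)
    exact Opens.mem_iSup.2 ⟨i, hi⟩
  refine ⟨φ, fun V hV y => fun_ext (U := fun i => rigSection c t ε ⁻¹ᵁ (V ⊓ pullback.snd c t ⁻¹ᵁ O i))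
    (fun i => Scheme.Hom.preimage_mono _ inf_le_left) (fun z hz => ?_) fun i => ?_⟩
  · obtain ⟨i, hi⟩ := Opens.mem_iSup.1 (hW (hV hz))
    exact Opens.mem_iSup.2 ⟨i, hz, hi⟩
  · rw [← η'.val_mres inf_le_left hV, ← η.val_mres inf_le_left hV, φ.hom.natural,
      hφ i _ _ inf_le_right]
    exact hψ i _ _ _

include F in
/-- Bundles isomorphic near each point of the base are isomorphic. -/
theorem nonempty_bundleIso_of_local (M M' : RigidifiedLineBundle c ε t)
    (h : ∀ x : T, ∃ O : T.Opens, x ∈ O ∧ Nonempty (IsoOn (pullback.snd c t ⁻¹ᵁ O) M.L M'.L)) :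
    Nonempty (M.L ≅ M'.L) := by
  choose O hxO hO using h
  obtain ⟨r⟩ := M.rigidified
  obtain ⟨r'⟩ := M'.rigidified
  let η : Trv (rigSection c t ε) (pullback.snd c t ⁻¹ᵁ ⊤) M.L :=
    (trvOf (rigSection c t ε) r).res le_top
  let η' : Trv (rigSection c t ε) (pullback.snd c t ⁻¹ᵁ ⊤) M'.L :=
    (trvOf (rigSection c t ε) r').res le_top
  have hn : η.NonDeg := (trvOf_nonDeg M.isInvertible r).res _
  have hn' : η'.NonDeg := (trvOf_nonDeg M'.isInvertible r').res _
  have hle : ∀ x, pullback.snd c t ⁻¹ᵁ O x ≤ pullback.snd c t ⁻¹ᵁ ⊤ := fun x =>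
    Scheme.Hom.preimage_mono _ le_top
  choose ψ hψ using fun x => exists_rigid (rigSection_snd (ε := ε) t)
    (invOn_of_isInvertible M.isInvertible _) (hn.res (hle x)) (hn'.res (hle x)) (hO x).some
  obtain ⟨φ, -⟩ := exists_glue_rigid F O (W := ⊤) (fun x _ => Opens.mem_iSup.2 ⟨x, hxO x⟩)
    (invOn_of_isInvertible M'.isInvertible _) (fun _ => le_top) η hn' ψ
    (fun x V hV y => hψ x V hV y)
  exact ⟨IsoOn.glue (fun _ : PUnit.{u + 1} => φ) (iSup_const (a := (⊤ : (pullback c t).Opens)))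
    fun _ _ _ _ _ _ => rfl⟩

end Pieces

section Transport

variable {T : Scheme.{u}} {t : T ⟶ Spec (CommRingCat.of k)} {U : T.Opens} {T' : Scheme.{u}}
  {t' : T' ⟶ Spec (CommRingCat.of k)} (p : SchemeHomOver t' t)

/-- A trivialisation of a direct image from an open piece of the base. -/
theorem exists_trv_pushforward [IsOpenImmersion p.1] (hU : p.1.opensRange = U)
    (M : RigidifiedLineBundle c ε t') :
    ∃ η : Trv (rigSection c t ε) (pullback.snd c t ⁻¹ᵁ U)
      ((Scheme.Modules.pushforward (baseChangeSnd c p)).obj M.L), η.NonDeg := by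
  obtain ⟨r⟩ := M.rigidified
  let σ := rigSection c t ε
  let σ' := rigSection c t' ε
  let g := baseChangeSnd c p
  have hcomp : σ' ≫ g = p.1 ≫ σ := rigSection_baseChangeSnd c ε p
  have hsq : ∀ V : (pullback c t).Opens, p.1 ⁻¹ᵁ (σ ⁻¹ᵁ V) = σ' ⁻¹ᵁ (g ⁻¹ᵁ V) := fun V =>
    (congrArg (fun h => h ⁻¹ᵁ V) hcomp).symm
  have hiso : ∀ V : (pullback c t).Opens, V ≤ pullback.snd c t ⁻¹ᵁ U →
      IsIso (p.1.app (σ ⁻¹ᵁ V)) := fun V hV => p.1.isIso_app _ (by
    rw [hU]
    exact (σ.preimage_mono hV).trans (preimage_section (rigSection_snd t) U).le)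
  let v := fun (V : (pullback c t).Opens) (y : Γ(M.L, g ⁻¹ᵁ V)) =>
    fres T' (hsq V).le ((trvOf σ' r).val (g ⁻¹ᵁ V) le_top y)
  let iv : ∀ (V : (pullback c t).Opens) (_ : V ≤ pullback.snd c t ⁻¹ᵁ U),
      Γ(T, σ ⁻¹ᵁ V) ≃+* Γ(T', p.1 ⁻¹ᵁ (σ ⁻¹ᵁ V)) := fun V hV =>
    haveI := hiso V hV
    (asIso (p.1.app (σ ⁻¹ᵁ V))).commRingCatIsoToRingEquiv
  let η : Trv σ (pullback.snd c t ⁻¹ᵁ U) ((Scheme.Modules.pushforward g).obj M.L) :=
    { app := fun V hV =>
        { toFun := fun y => uIn T _ ((iv V hV).symm (v V y))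
          map_add' := fun a b => by
            refine Eq.trans ?_ (map_add (uIn T _) _ _)
            refine congrArg (uIn T _) (Eq.trans (congrArg _ ?_) (map_add (iv V hV).symm _ _))
            exact (congrArg (fres T' _ ∘ uOut T' _) (map_add ((trvOf σ' r).app _ _) a b)).trans
              (map_add _ _ _)
          map_smul' := fun s a => by
            let a' : Γ(M.L, g ⁻¹ᵁ V) := a
            refine congrArg (uIn T _) ((iv V hV).symm_apply_eq.2 ?_)
            show fres T' _ ((trvOf σ' r).val (g ⁻¹ᵁ V) le_top (g.app V s • a')) =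
              iv V hV (σ.app V s * (iv V hV).symm (v V a))
            rw [Trv.val_smul, map_mul, map_mul, RingEquiv.apply_symm_apply]
            refine congrArg (· * v V a) ?_
            exact (app_congr_hom hcomp s (hsq V).le le_rfl).trans (fres_self T' _) }
      natural := fun {V V'} h hV' y => by
        apply congrArg (uIn T _)
        apply (iv V (h.trans hV')).injective
        show p.1.app (σ ⁻¹ᵁ V) (fres T (σ.preimage_mono h) ((iv V' hV').symm (v V' y))) =
          iv V (h.trans hV') ((iv V (h.trans hV')).symm (v V (mres M.L (g.preimage_mono h) y)))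
        rw [RingEquiv.apply_symm_apply]
        rw [app_fres]
        refine (congrArg (fres T' _) ((iv V' hV').apply_symm_apply (v V' y))).trans ?_
        show fres T' _ (fres T' _ _) = fres T' _ ((trvOf σ' r).val _ _ (mres M.L (g.preimage_mono h) y))
        rw [fres_fres]
        refine Eq.trans ?_
          (congrArg _ ((trvOf σ' r).val_mres (g.preimage_mono h) le_top _)).symm
        exact (fres_fres _ _ _ _).symm }
  refine ⟨η, fun x hx => ?_⟩
  have hxU : x ∈ U := (preimage_section (rigSection_snd t) U).le hx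
  rw [← hU] at hxU
  obtain ⟨y, rfl⟩ := hxU
  obtain ⟨V', hV', z, hyV, hz⟩ := trvOf_nonDeg M.isInvertible r y trivial
  have hle : g ''ᵁ V' ≤ pullback.snd c t ⁻¹ᵁ U := by
    rintro _ ⟨w, -, rfl⟩
    show pullback.snd c t (g w) ∈ U
    rw [← hU]
    have h2 := congrArg (fun q : pullback c t' ⟶ T => q w) (baseChangeSnd_snd (c := c) p)
    exact ⟨pullback.snd c t' w, h2.symm⟩
  refine ⟨g ''ᵁ V', hle, mres M.L (g.preimage_image_eq V').le z, ?_, ?_⟩
  · exact ⟨σ' y, hyV, congrArg (fun q : T' ⟶ pullback c t => q y) hcomp⟩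
  · show IsUnit ((iv _ hle).symm (v (g ''ᵁ V') (mres M.L (g.preimage_image_eq V').le z)))
    refine IsUnit.map _ ?_
    show IsUnit (fres T' _ _)
    rw [(trvOf σ' r).val_mres (g.preimage_image_eq V').le le_top]
    exact IsUnit.map _ (IsUnit.map _ hz)

end Transport

section Main

theorem targetDescent : TargetDescent.{u} := by
  intro k _ _ C c _ _ _ ε F Δ T t
  letI : ∀ U : T.affineOpens, Algebra k Γ(T, U.1) := ptAlg t
  refine ⟨fun M M' h => nonempty_bundleIso_of_local F M M' fun x => ?_, fun ξ hξ => ?_⟩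
  · obtain ⟨U, hU, hx, -⟩ := exists_isAffineOpen_mem_and_subset (show x ∈ (⊤ : T.Opens) from trivial)
    letI := ptAlg t ⟨U, hU⟩
    obtain ⟨e⟩ := (Δ.cls_eq_iff _ _ _).1 (h Γ(T, U) (affPt t ⟨U, hU⟩))
    exact ⟨U, hx, ⟨(isoOnOf (baseChangeSnd c (affPt t ⟨U, hU⟩)) e).res
      (le_range_baseChangeSnd ⟨U, hU⟩)⟩⟩
  · let J := T.affineOpens
    let W : J → (pullback c t).Opens := fun U => pullback.snd c t ⁻¹ᵁ U.1
    let g := fun U : J => baseChangeSnd c (affPt t U)
    choose M hM using fun U : J => Δ.cls_surjective Γ(T, U.1) (ξ _ (affPt t U))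
    let N : J → (pullback c t).Modules := fun U => (Scheme.Modules.pushforward (g U)).obj (M U).L
    let eN : ∀ U : J, (Scheme.Modules.pullback (g U)).obj (N U) ≅ (M U).L := fun U =>
      haveI : IsIso ((Scheme.Modules.pullbackPushforwardAdjunction (g U)).counit.app (M U).L) :=
        inferInstance
      asIso ((Scheme.Modules.pullbackPushforwardAdjunction (g U)).counit.app (M U).L)
    choose η hη using fun U : J => exists_trv_pushforward (ε := ε) (affPt t U) (opensRange_affPt t U) (M U)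
    have hinv : ∀ U, InvOn (W U) (N U) := fun U z hz => by
      refine exists_isoOn_of_pullback (g U) ?_ (le_range_baseChangeSnd U hz)
      refine isInvertible_iff_isoOn.2 fun w => ?_
      obtain ⟨O, hw, ⟨e⟩⟩ := isInvertible_iff_isoOn.1 (M U).isInvertible w
      exact ⟨O, hw, ⟨e.trans (IsoOn.ofIso O (eN U).symm)⟩⟩
    have hle₁ : ∀ i j : J, pullback.snd c t ⁻¹ᵁ (i.1 ⊓ j.1) ≤ W i := fun i j =>
      Scheme.Hom.preimage_mono _ inf_le_left
    have hle₂ : ∀ i j : J, pullback.snd c t ⁻¹ᵁ (i.1 ⊓ j.1) ≤ W j := fun i j =>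
      Scheme.Hom.preimage_mono _ inf_le_right
    have hloc : ∀ (U O : J), O.1 ≤ U.1 → ∃ φ : Γ(T, U.1) →ₐ[k] Γ(T, O.1),
        postComp (affPt t U) (specHom φ) = affPt t O := fun U O h =>
      exists_factor_affPt U (affPt t O) (by
        show ((affPt t O).1.opensRange : Set T) ⊆ _
        rw [opensRange_affPt]
        exact h)
    have hφ : ∀ i j : J, ∃ φ : IsoOn (pullback.snd c t ⁻¹ᵁ (i.1 ⊓ j.1)) (N j) (N i),
        ∀ V hV y, (η i).val V (hV.trans (hle₁ i j)) (φ.hom.app V hV y) =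
          (η j).val V (hV.trans (hle₂ i j)) y := fun i j => by
      let K := {O : J // O.1 ≤ i.1 ⊓ j.1}
      have hK : i.1 ⊓ j.1 ≤ iSup fun O : K => O.1.1 := fun z hz => by
        obtain ⟨O, hO, hzO, hle⟩ := exists_isAffineOpen_mem_and_subset hz
        exact Opens.mem_iSup.2 ⟨⟨⟨O, hO⟩, hle⟩, hzO⟩
      have hiso : ∀ O : K, Nonempty (IsoOn (W O.1) (N j) (N i)) := fun O => by
        obtain ⟨a, ha⟩ := hloc i O.1 (O.2.trans inf_le_left)
        obtain ⟨b, hb⟩ := hloc j O.1 (O.2.trans inf_le_right)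
        have h1 : Δ.cls _ ((M j).pullbackAlong (specHom b)) =
            Δ.cls _ ((M i).pullbackAlong (specHom a)) := by
          rw [Δ.cls_pullback, Δ.cls_pullback, hM, hM, ← hξ, ← hξ, ha, hb]
        obtain ⟨e⟩ := (Δ.cls_eq_iff _ _ _).1 h1
        have tr : ∀ (U : J) (d : Γ(T, U.1) →ₐ[k] Γ(T, O.1.1)),
            postComp (affPt t U) (specHom d) = affPt t O.1 →
            Nonempty ((Scheme.Modules.pullback (g O.1)).obj (N U) ≅
              ((M U).pullbackAlong (specHom d)).L) := fun U d hd => by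
          have hg : baseChangeSnd c (specHom d) ≫ g U = g O.1 := by
            rw [baseChangeSnd_comp, hd]
          exact ⟨(pullIso _ _ _ hg (N U)).symm ≪≫
            (Scheme.Modules.pullback (baseChangeSnd c (specHom d))).mapIso (eN U)⟩
        obtain ⟨ej⟩ := tr j b hb
        obtain ⟨ei⟩ := tr i a ha
        exact ⟨(isoOnOf (g O.1) (ej ≪≫ e ≪≫ ei.symm)).res (le_range_baseChangeSnd O.1)⟩
      have hO : ∀ O : K, W O.1 ≤ pullback.snd c t ⁻¹ᵁ (i.1 ⊓ j.1) := fun O =>
        Scheme.Hom.preimage_mono _ O.2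
      choose ψ hψ using fun O : K => exists_rigid (rigSection_snd (ε := ε) t)
        ((hinv j).mono ((hO O).trans (hle₂ i j))) ((hη j).res ((hO O).trans (hle₂ i j)))
        ((hη i).res ((hO O).trans (hle₁ i j))) (hiso O).some
      exact exists_glue_rigid F (fun O : K => O.1.1) hK ((hinv i).mono (hle₁ i j)) (fun O => O.2)
        ((η j).res (hle₂ i j)) ((hη i).res (hle₁ i j)) ψ (fun O V hV y => hψ O V hV y)
    choose φ hφ using hφ
    let D : GlueData (pullback c t) :=
      { J := J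
        U := W
        cover := eq_top_iff.2 fun z _ => by
          obtain ⟨O, hO, hz, -⟩ :=
            exists_isAffineOpen_mem_and_subset (show pullback.snd c t z ∈ (⊤ : T.Opens) from trivial)
          exact Opens.mem_iSup.2 ⟨⟨O, hO⟩, hz⟩
        N := N
        φ := φ
        φ_self := fun i V hV x => rigid_agree F (U := i.1 ⊓ i.1) ((hinv i).mono (hle₁ i i))
          ((η i).res (hle₂ i i)) ((hη i).res (hle₁ i i)) (φ i i) (IsoOn.refl _ _)
          (fun V hV y => hφ i i V hV y) (fun V hV y => rfl) hV x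
        φ_comp := fun i j l V hij hjl hil x => by
          have h₁ : pullback.snd c t ⁻¹ᵁ (i.1 ⊓ j.1 ⊓ l.1) ≤ pullback.snd c t ⁻¹ᵁ (i.1 ⊓ j.1) :=
            Scheme.Hom.preimage_mono _ inf_le_left
          have h₂ : pullback.snd c t ⁻¹ᵁ (i.1 ⊓ j.1 ⊓ l.1) ≤ pullback.snd c t ⁻¹ᵁ (j.1 ⊓ l.1) :=
            Scheme.Hom.preimage_mono _ (inf_le_inf_right _ inf_le_right)
          have h₃ : pullback.snd c t ⁻¹ᵁ (i.1 ⊓ j.1 ⊓ l.1) ≤ pullback.snd c t ⁻¹ᵁ (i.1 ⊓ l.1) :=
            Scheme.Hom.preimage_mono _ (inf_le_inf_right _ inf_le_left)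
          exact rigid_agree F (U := i.1 ⊓ j.1 ⊓ l.1) ((hinv i).mono (h₁.trans (hle₁ i j)))
            ((η l).res (h₂.trans (hle₂ j l))) ((hη i).res (h₁.trans (hle₁ i j)))
            (((φ j l).res h₂).trans ((φ i j).res h₁)) ((φ i l).res h₃)
            (fun V hV y => (hφ i j V (hV.trans h₁) _).trans (hφ j l V (hV.trans h₂) y))
            (fun V hV y => hφ i l V (hV.trans h₃) y) (le_inf hij (hjl.trans inf_le_right)) x }
    have hD : Agree fun i : J => (D.proj i).hom.comp (η i) := fun i j V hi hj x => by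
      show (η i).app V hi ((D.proj i).hom.app V hi x) = (η j).app V hj ((D.proj j).hom.app V hj x)
      rw [← D.proj_compat i j hi hj x]
      exact hφ i j V (le_inf hi hj) _
    have hLinv : Scheme.Modules.IsInvertible D.glued := isInvertible_iff_isoOn.2 fun z => by
      obtain ⟨i, hi⟩ := Opens.mem_iSup.1 (show z ∈ iSup W from D.cover.ge trivial)
      obtain ⟨O, hzO, ⟨e⟩⟩ := hinv i z hi
      exact ⟨W i ⊓ O, ⟨hi, hzO⟩,
        ⟨(e.res inf_le_right).trans ((D.proj i).symm.res inf_le_left)⟩⟩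
    let ηg : Trv (rigSection c t ε) ⊤ D.glued := HomOn.ofHom ⊤ (glueHom _ D.cover hD)
    have hg : Trv.NonDeg ηg := fun x _ => by
      obtain ⟨i, hi⟩ := Opens.mem_iSup.1 (show rigSection c t ε x ∈ iSup W from D.cover.ge trivial)
      obtain ⟨V, hV, y, hxV, hy⟩ := (hη i).comp (D.proj i) x hi
      refine ⟨V, le_top, y, hxV, ?_⟩
      show IsUnit (uOut T _ ((glueHom _ D.cover hD).app V y))
      rw [glueHom_app _ D.cover hD (i := i) hV]
      exact hy
    refine ⟨⟨D.glued, hLinv, exists_rigidification hLinv ηg hg⟩, fun A _ _ p => ?_⟩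
    obtain ⟨Mp, hMp⟩ := Δ.cls_surjective A (ξ A p)
    rw [← hMp]
    refine (Δ.cls_eq_iff _ _ _).2 (nonempty_bundleIso_of_local F _ _ fun x => ?_)
    obtain ⟨U, hU, hpx, -⟩ := exists_isAffineOpen_mem_and_subset (show p.1 x ∈ (⊤ : T.Opens) from trivial)
    obtain ⟨O, hO, hxO, hOU⟩ := exists_isAffineOpen_mem_and_subset (show x ∈ p.1 ⁻¹ᵁ U from hpx)
    letI := ptAlg (specT k A) ⟨O, hO⟩
    let q := affPt (specT k A) ⟨O, hO⟩
    obtain ⟨φ₀, hφ₀⟩ := exists_eq_specHom q
    obtain ⟨ψ, hψ⟩ := exists_factor_affPt ⟨U, hU⟩ (postComp p q) (by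
      rintro _ ⟨w, rfl⟩
      have hw : q.1 w ∈ q.1.opensRange := ⟨w, rfl⟩
      rw [opensRange_affPt] at hw
      exact hOU hw)
    let Mg : RigidifiedLineBundle c ε t := ⟨D.glued, hLinv, exists_rigidification hLinv ηg hg⟩
    have hgU : Δ.cls _ (Mg.pullbackAlong (affPt t ⟨U, hU⟩)) = ξ _ (affPt t ⟨U, hU⟩) := by
      rw [← hM]
      exact (Δ.cls_eq_iff _ _ _).2 ⟨pullIsoOf (g ⟨U, hU⟩) (preimage_baseChangeSnd ⟨U, hU⟩)
        (D.proj ⟨U, hU⟩) ≪≫ eN ⟨U, hU⟩⟩
    have h1 : Δ.cls _ ((Mg.pullbackAlong p).pullbackAlong q) = Δ.cls _ (Mp.pullbackAlong q) := by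
      conv_rhs => rw [← hφ₀, Δ.cls_pullback, hMp, ← hξ, hφ₀, ← hψ, hξ, ← hgU, ← Δ.cls_pullback]
      refine (Δ.cls_eq_iff _ _ _).2 ⟨?_⟩
      exact (Scheme.Modules.pullbackComp _ _).app Mg.L ≪≫
        (Scheme.Modules.pullbackCongr (by rw [baseChangeSnd_comp, baseChangeSnd_comp, hψ])).app Mg.L ≪≫
        ((Scheme.Modules.pullbackComp _ _).app Mg.L).symm
    obtain ⟨e⟩ := (Δ.cls_eq_iff _ _ _).1 h1
    exact ⟨O, hxO, ⟨(isoOnOf (baseChangeSnd c q) e).res (le_range_baseChangeSnd ⟨O, hO⟩)⟩⟩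

end Main

end FLTAgent.PicScheme

end
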