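import Fermat.Agent.PicScheme.Modules.Matrices

/-!
# Line bundles over affine bases as matrices

Frames on the two charts turn an invertible module on the curve over an affine base into a datum,
well defined up to isomorphism, compatible with base change and with the marked point.
-/

set_option autoImplicit false
set_option linter.checkUnivs false

noncomputable section

universe u

open CategoryTheory CategoryTheory.Limits AlgebraicGeometry AlgebraicGeometry.RelPicard
  NeronModelInfra TopologicalSpace Matrix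
open scoped TensorProduct

namespace FLTAgent.PicScheme

variable {k : Type u} [Field k] {C : Scheme.{u}} {c : C ⟶ Spec (CommRingCat.of k)}
  {ε : SchemeHomOver (𝟙 (Spec (CommRingCat.of k))) c}

/-- The two charts over an affine base, as a cover by affine parts. -/
@[reducible] def Frame.affCover (F : Frame c ε) (A : Type u) [CommRing A] [Algebra k A] :
    AffCover (pullback c (specT k A)) (F.X.R₁ A) (F.X.R₂ A) (F.X.R₀ A) where
  f₁ := piece A F.j₁
  f₂ := piece A F.j₂
  f₀ := piece A F.j₀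
  r₁ := (F.X.res₁ A).toRingHom
  r₂ := (F.X.res₂ A).toRingHom
  open₁ := isOpenImmersion_piece A F.j₁
  open₂ := isOpenImmersion_piece A F.j₂
  open₀ := isOpenImmersion_piece A F.j₀
  comp₁ := F.res₁_piece A
  comp₂ := F.res₂_piece A
  inter := (F.twoCover A).inter
  cover := (F.twoCover A).cover

/-- An invertible module on the curve over an affine base with frames on the two charts. -/
structure Framed (F : Frame c ε) (A : Type u) [CommRing A] [Algebra k A] where
  /-- The module. -/
  L : (pullback c (specT k A)).Modules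
  inv : Scheme.Modules.IsInvertible L
  /-- The first size. -/
  n₁ : ℕ
  /-- The second size. -/
  n₂ : ℕ
  /-- The first frame. -/
  F₁ : MFrame ((Scheme.Modules.pullback (piece A F.j₁)).obj L) n₁
  /-- The second frame. -/
  F₂ : MFrame ((Scheme.Modules.pullback (piece A F.j₂)).obj L) n₂

namespace Framed

variable {F : Frame c ε} {A : Type u} [CommRing A] [Algebra k A] (P P' : Framed F A)

/-- The datum. -/
@[reducible] def datum : Datum F.X A where
  n₁ := P.n₁
  n₂ := P.n₂
  e₁ := P.F₁.rMat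
  e₂ := P.F₂.rMat
  u := (F.affCover A).trans P.F₁ P.F₂
  v := (F.affCover A).transInv P.F₁ P.F₂
  rank₁ := P.F₁.rMat_rankOne (P.inv.pullback _)
  rank₂ := P.F₂.rMat_rankOne (P.inv.pullback _)
  uv := (F.affCover A).trans_mul_transInv P.F₁ P.F₂
  vu := (F.affCover A).transInv_mul_trans P.F₁ P.F₂
  u_cut := (F.affCover A).trans_cut P.F₁ P.F₂
  v_cut := (F.affCover A).transInv_cut P.F₁ P.F₂

theorem rHom_map_inv {R : Type u} [CommRing R] {X : Scheme.{u}} (f : Spec (CommRingCat.of R) ⟶ X)
    {M M' : X.Modules} {n n' : ℕ} (G : MFrame ((Scheme.Modules.pullback f).obj M) n)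
    (G' : MFrame ((Scheme.Modules.pullback f).obj M') n') (φ : M ≅ M') :
    G.rHom G' ((Scheme.Modules.pullback f).map φ.hom) *
      G'.rHom G ((Scheme.Modules.pullback f).map φ.inv) = G'.rMat := by
  rw [← MFrame.rHom_comp, ← Functor.map_comp, φ.inv_hom_id, CategoryTheory.Functor.map_id,
    MFrame.rHom_id]

/-- An isomorphism of modules gives one of data. -/
def datumIso (φ : P.L ≅ P'.L) : Datum.Iso P.datum P'.datum where
  a₁ := P.F₁.rHom P'.F₁ ((Scheme.Modules.pullback _).map φ.hom)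
  b₁ := P'.F₁.rHom P.F₁ ((Scheme.Modules.pullback _).map φ.inv)
  a₂ := P.F₂.rHom P'.F₂ ((Scheme.Modules.pullback _).map φ.hom)
  b₂ := P'.F₂.rHom P.F₂ ((Scheme.Modules.pullback _).map φ.inv)
  ab₁ := rHom_map_inv (piece A F.j₁) P.F₁ P'.F₁ φ
  ba₁ := rHom_map_inv (piece A F.j₁) P'.F₁ P.F₁ φ.symm
  ab₂ := rHom_map_inv (piece A F.j₂) P.F₂ P'.F₂ φ
  ba₂ := rHom_map_inv (piece A F.j₂) P'.F₂ P.F₂ φ.symm
  compat := (F.affCover A).trans_compat P.F₁ P.F₂ P'.F₁ P'.F₂ φ.hom

theorem nonempty_iso (φ : Datum.Iso P.datum P'.datum) : Nonempty (P.L ≅ P'.L) :=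
  (F.affCover A).nonempty_iso P.F₁ P.F₂ P'.F₁ P'.F₂ φ.a₁ φ.b₁ φ.a₂ φ.b₂ φ.ab₁ φ.ba₁ φ.ab₂ φ.ba₂
    φ.compat

theorem isRigidifiable_iff :
    P.datum.IsRigidifiable ↔ Nonempty ((Scheme.Modules.pullback (rigSection c (specT k A) ε)).obj P.L ≅
      SheafOfModules.unit (Spec (CommRingCat.of A)).ringCatSheaf) := by
  have hG : (P.F₁.pullTo (specMap (F.evPt A).toRingHom) _ (F.evPt_piece A)).rMat =
      P.F₁.rMat.map (F.evPt A) := MFrame.rMat_pullTo P.F₁ _ _ _
  refine Iff.trans ?_ (P.F₁.pullTo (specMap (F.evPt A).toRingHom) _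
    (F.evPt_piece A)).nonempty_iso_unit_iff.symm
  rw [hG]
  rfl

/-- The trivial framed module. -/
@[reducible] def one (F : Frame c ε) (A : Type u) [CommRing A] [Algebra k A] : Framed F A where
  L := unitMod _
  inv := Scheme.Modules.isInvertible_unit _
  n₁ := 1
  n₂ := 1
  F₁ := (MFrame.unit _).pull _
  F₂ := (MFrame.unit _).pull _

theorem one_datum : (one F A).datum = Datum.one F.X A := by
  have h := (F.affCover A).trans_unit
  have h₁ := AffCover.unit_rMat (X := pullback c (specT k A)) (piece A F.j₁)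
  have h₂ := AffCover.unit_rMat (X := pullback c (specT k A)) (piece A F.j₂)
  simp only [datum, Datum.one, h.1, h.2, h₁, h₂]

variable {A' : Type u} [CommRing A'] [Algebra k A']

/-- Base change of a framed module. -/
@[reducible] def map (φ : A →ₐ[k] A') : Framed F A' where
  L := (Scheme.Modules.pullback (baseChangeSnd c (specHom φ))).obj P.L
  inv := P.inv.pullback _
  n₁ := P.n₁
  n₂ := P.n₂
  F₁ := AffCover.mapFrame _ (Datum.chartMap F.X.B₁ φ).toRingHom (piece_baseChange F.j₁ φ).symm P.F₁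
  F₂ := AffCover.mapFrame _ (Datum.chartMap F.X.B₂ φ).toRingHom (piece_baseChange F.j₂ φ).symm P.F₂

theorem map_datum (φ : A →ₐ[k] A') : (P.map φ).datum = P.datum.map φ := by
  have h := (F.affCover A).trans_mapFrame P.F₁ P.F₂ (F.affCover A') (baseChangeSnd c (specHom φ))
    (Datum.chartMap F.X.B₁ φ).toRingHom (Datum.chartMap F.X.B₂ φ).toRingHom
    (Datum.chartMap F.X.B₀ φ).toRingHom (piece_baseChange F.j₁ φ).symm
    (piece_baseChange F.j₂ φ).symm (piece_baseChange F.j₀ φ).symm
    (RingHom.ext fun x => Datum.chartMap_res₁ φ x) (RingHom.ext fun x => Datum.chartMap_res₂ φ x)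
  have h₁ : (P.map φ).F₁.rMat = P.F₁.rMat.map (Datum.chartMap F.X.B₁ φ) :=
    AffCover.mapFrame_rMat _ _ _ P.F₁
  have h₂ : (P.map φ).F₂.rMat = P.F₂.rMat.map (Datum.chartMap F.X.B₂ φ) :=
    AffCover.mapFrame_rMat _ _ _ P.F₂
  simp only [datum, Datum.map, h.1, h.2, h₁, h₂]
  rfl

theorem exists_of_datum (L : Datum F.X A) : ∃ P : Framed F A, P.datum = L := by
  obtain ⟨n₁, n₂, e₁, e₂, t, t', r₁, r₂, htt, htt', hc, hc'⟩ := L
  obtain ⟨M, hM, G₁, G₂, rfl, rfl, rfl, rfl⟩ :=
    (F.affCover A).exists_of_matrices e₁ e₂ t t' r₁ r₂ htt htt' hc hc'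
  exact ⟨⟨M, hM, n₁, n₂, G₁, G₂⟩, rfl⟩

end Framed

theorem nonempty_framed (F : Frame c ε) {A : Type u} [CommRing A] [Algebra k A]
    {L : (pullback c (specT k A)).Modules} (hL : Scheme.Modules.IsInvertible L) :
    ∃ P : Framed F A, P.L = L := by
  obtain ⟨n₁, ⟨F₁⟩⟩ := exists_mframe_of_isInvertible (hL.pullback (piece A F.j₁))
  obtain ⟨n₂, ⟨F₂⟩⟩ := exists_mframe_of_isInvertible (hL.pullback (piece A F.j₂))
  exact ⟨⟨L, hL, n₁, n₂, F₁, F₂⟩, rfl⟩

/-- Chosen frames. -/
def framedOf (F : Frame c ε) {A : Type u} [CommRing A] [Algebra k A]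
    (M : RigidifiedLineBundle c ε (specT k A)) : Framed F A :=
  (nonempty_framed F M.isInvertible).choose

theorem framedOf_L (F : Frame c ε) {A : Type u} [CommRing A] [Algebra k A]
    (M : RigidifiedLineBundle c ε (specT k A)) : (framedOf F M).L = M.L :=
  (nonempty_framed F M.isInvertible).choose_spec

theorem framedOf_rigidifiable (F : Frame c ε) {A : Type u} [CommRing A] [Algebra k A]
    (M : RigidifiedLineBundle c ε (specT k A)) : (framedOf F M).datum.IsRigidifiable := by
  rw [Framed.isRigidifiable_iff, framedOf_L]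
  exact M.rigidified

/-- The class of a bundle. -/
def clsOf (F : Frame c ε) (A : Type u) [CommRing A] [Algebra k A]
    (M : RigidifiedLineBundle c ε (specT k A)) : Cls F.X A :=
  Quot.mk _ ⟨(framedOf F M).datum, framedOf_rigidifiable F M⟩

theorem clsOf_eq_iff (F : Frame c ε) {A : Type u} [CommRing A] [Algebra k A]
    (M : RigidifiedLineBundle c ε (specT k A)) (P : Framed F A) (hP : P.datum.IsRigidifiable) :
    clsOf F A M = Quot.mk _ ⟨P.datum, hP⟩ ↔ Nonempty (M.L ≅ P.L) := by
  refine Cls.mk_eq_iff.trans ?_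
  rw [← framedOf_L F M]
  exact ⟨fun ⟨e⟩ => (framedOf F M).nonempty_iso P e, fun ⟨e⟩ => ⟨(framedOf F M).datumIso P e⟩⟩

theorem targetDict : TargetDict.{u} := by
  intro k _ _ C c _ _ _ ε F
  refine ⟨{
    cls := fun A _ _ => clsOf F A
    map := fun φ => Cls.map φ
    map_mk := fun φ L h => rfl
    cls_eq_iff := fun A _ _ M M' => ?_
    cls_surjective := fun A _ _ x => ?_
    cls_pullback := fun {A A'} _ _ _ _ φ M => ?_
    cls_unit := fun A _ _ => ?_ }⟩
  · refine (clsOf_eq_iff F M (framedOf F M') (framedOf_rigidifiable F M')).trans ?_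
    rw [framedOf_L]
  · induction x using Quot.ind with
    | _ L =>
      obtain ⟨P, hP⟩ := Framed.exists_of_datum L.1
      have hr : P.datum.IsRigidifiable := hP ▸ L.2
      refine ⟨⟨P.L, P.inv, P.isRigidifiable_iff.1 hr⟩, ?_⟩
      refine ((clsOf_eq_iff F _ P hr).2 ⟨Iso.refl _⟩).trans ?_
      exact congrArg (Quot.mk _) (Subtype.ext hP)
  · have hd := (framedOf F M).map_datum φ
    have hr : ((framedOf F M).map φ).datum.IsRigidifiable := by
      rw [hd]; exact (framedOf_rigidifiable F M).map φ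
    refine ((clsOf_eq_iff F _ _ hr).2 ?_).trans (congrArg (Quot.mk _) (Subtype.ext hd))
    show Nonempty ((Scheme.Modules.pullback _).obj M.L ≅ (Scheme.Modules.pullback _).obj (framedOf F M).L)
    rw [framedOf_L]
    exact ⟨Iso.refl _⟩
  · have hd := Framed.one_datum (F := F) (A := A)
    have hr : (Framed.one F A).datum.IsRigidifiable :=
      (Framed.one F A).isRigidifiable_iff.2 ⟨Scheme.Modules.pullbackUnitIso _⟩
    exact ⟨hd ▸ hr, ((clsOf_eq_iff F _ _ hr).2 ⟨Iso.refl _⟩).trans
      (congrArg (Quot.mk _) (Subtype.ext hd))⟩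

end FLTAgent.PicScheme

end
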