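import Fermat.Agent.PicScheme.Modules.Bridge
import Fermat.Agent.PicScheme.Datum

/-!
# Frames of modules

A frame of a module is a finite family of sections and functionals resolving the identity; its
matrix is an idempotent over the global functions, inverse images map frames to frames, and
morphisms of framed modules are matrices.
-/

set_option autoImplicit false

noncomputable section

universe u

open CategoryTheory CategoryTheory.Limits AlgebraicGeometry TopologicalSpace Matrix

namespace FLTAgent.PicScheme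

variable {X Y : Scheme.{u}}

/-- A section of the unit as a function. -/
def uOut (X : Scheme.{u}) (V : X.Opens) : Γ(unitMod X, V) →+ Γ(X, V) := AddMonoidHom.id _

/-- A function as a section of the unit. -/
def uIn (X : Scheme.{u}) (V : X.Opens) : Γ(X, V) →+ Γ(unitMod X, V) := AddMonoidHom.id _

/-- The inverse image of the unit is the unit. -/
def pUnit (f : Y ⟶ X) : (Scheme.Modules.pullback f).obj (unitMod X) ≅ unitMod Y :=
  Scheme.Modules.pullbackUnitIso f

/-- Multiplication by a function as an endomorphism of the unit. -/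
def scalEnd (X : Scheme.{u}) (r : Γ(X, ⊤)) : unitMod X ⟶ unitMod X :=
  homOfMaps
    (fun V =>
      { toFun := fun x => uIn X V (X.presheaf.map (homOfLE le_top).op r * uOut X V x)
        map_add' := fun x y => by rw [map_add, mul_add, map_add]
        map_smul' := fun a x => congrArg (uIn X V)
          (mul_left_comm (X.presheaf.map (homOfLE le_top).op r) a (uOut X V x)) })
    (fun {V W} h x => by
      show X.presheaf.map (homOfLE h).op (X.presheaf.map _ r * uOut X W x) =
        X.presheaf.map _ r * X.presheaf.map (homOfLE h).op (uOut X W x)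
      rw [map_mul, ← ConcreteCategory.comp_apply, ← X.presheaf.map_comp]
      rfl)

theorem scalEnd_app (r : Γ(X, ⊤)) (V : X.Opens) (x : Γ(X, V)) :
    uOut X V ((scalEnd X r).app V (uIn X V x)) = X.presheaf.map (homOfLE le_top).op r * x := rfl

/-- The value at one. -/
def evOne (X : Scheme.{u}) (f : unitMod X ⟶ unitMod X) : Γ(X, ⊤) :=
  uOut X ⊤ (f.app ⊤ (uIn X ⊤ 1))

theorem end_app (f : unitMod X ⟶ unitMod X) (V : X.Opens) (x : Γ(X, V)) :
    uOut X V (f.app V (uIn X V x)) = x * X.presheaf.map (homOfLE le_top).op (evOne X f) := by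
  have h1 : f.app V (uIn X V (X.presheaf.map (homOfLE (le_top : V ≤ ⊤)).op (1 : Γ(X, ⊤)))) =
      uIn X V (X.presheaf.map (homOfLE (le_top : V ≤ ⊤)).op (evOne X f)) :=
    ConcreteCategory.congr_hom (f.mapPresheaf.naturality (homOfLE (le_top : V ≤ ⊤)).op)
      (uIn X ⊤ 1)
  rw [map_one] at h1
  have h2 := f.app_smul (U := V) x (uIn X V (1 : Γ(X, V)))
  refine (congrArg (fun v => uOut X V (f.app V v)) ?_).trans
    ((congrArg (uOut X V) (h2.trans (congrArg (x • ·) h1))).trans rfl)
  exact (congrArg (uIn X V) (mul_one x)).symm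

theorem evOne_scalEnd (r : Γ(X, ⊤)) : evOne X (scalEnd X r) = r := by
  show X.presheaf.map (homOfLE le_top).op r * 1 = r
  rw [mul_one, Subsingleton.elim (homOfLE _).op (𝟙 _), X.presheaf.map_id]
  rfl

theorem scalEnd_evOne (f : unitMod X ⟶ unitMod X) : scalEnd X (evOne X f) = f := by
  ext V x
  exact congrArg (uIn X V) ((mul_comm _ _).trans (end_app f V (uOut X V x)).symm)

theorem evOne_id : evOne X (𝟙 (unitMod X)) = 1 := rfl

theorem evOne_comp (f g : unitMod X ⟶ unitMod X) : evOne X (f ≫ g) = evOne X f * evOne X g := by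
  show uOut X ⊤ (g.app ⊤ (uIn X ⊤ (evOne X f))) = _
  rw [end_app g ⊤, Subsingleton.elim (homOfLE _).op (𝟙 _), X.presheaf.map_id]
  rfl

theorem evOne_add (f g : unitMod X ⟶ unitMod X) : evOne X (f + g) = evOne X f + evOne X g := rfl

theorem evOne_sum {ι : Type*} (s : Finset ι) (f : ι → (unitMod X ⟶ unitMod X)) :
    evOne X (∑ i ∈ s, f i) = ∑ i ∈ s, evOne X (f i) :=
  map_sum (AddMonoidHom.mk' (evOne X) evOne_add) f s

theorem evOne_injective : Function.Injective (evOne X) :=
  Function.LeftInverse.injective scalEnd_evOne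

theorem scalEnd_one : scalEnd X 1 = 𝟙 _ := by rw [← evOne_id, scalEnd_evOne]

theorem scalEnd_mul (a b : Γ(X, ⊤)) : scalEnd X (a * b) = scalEnd X a ≫ scalEnd X b :=
  evOne_injective (by rw [evOne_comp, evOne_scalEnd, evOne_scalEnd, evOne_scalEnd])

/-- A frame. -/
structure MFrame (M : X.Modules) (n : ℕ) where
  /-- The sections. -/
  s : Fin n → (unitMod X ⟶ M)
  /-- The functionals. -/
  t : Fin n → (M ⟶ unitMod X)
  sum_eq : ∑ j, t j ≫ s j = 𝟙 M

namespace MFrame

variable {M M' M'' : X.Modules} {n n' n'' : ℕ}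

/-- The matrix of a frame. -/
def mat (F : MFrame M n) : Matrix (Fin n) (Fin n) Γ(X, ⊤) := fun i j => evOne X (F.s j ≫ F.t i)

/-- The matrix of a morphism. -/
def matHom (F : MFrame M n) (F' : MFrame M' n') (φ : M ⟶ M') :
    Matrix (Fin n') (Fin n) Γ(X, ⊤) := fun i j => evOne X (F.s j ≫ φ ≫ F'.t i)

/-- The morphism of a matrix. -/
def homMat (F : MFrame M n) (F' : MFrame M' n') (a : Matrix (Fin n') (Fin n) Γ(X, ⊤)) : M ⟶ M' :=
  ∑ i, ∑ j, F.t j ≫ scalEnd X (a i j) ≫ F'.s i

theorem matHom_id (F : MFrame M n) : F.matHom F (𝟙 M) = F.mat :=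
  Matrix.ext fun i j => congrArg (evOne X) (congrArg (F.s j ≫ ·) (Category.id_comp _))

theorem matHom_comp (F : MFrame M n) (F' : MFrame M' n') (F'' : MFrame M'' n'') (φ : M ⟶ M')
    (ψ : M' ⟶ M'') : F.matHom F'' (φ ≫ ψ) = F'.matHom F'' ψ * F.matHom F' φ := by
  refine Matrix.ext fun i j => ?_
  rw [Matrix.mul_apply]
  show evOne X (F.s j ≫ (φ ≫ ψ) ≫ F''.t i) = _
  rw [show (φ ≫ ψ) ≫ F''.t i = φ ≫ (∑ l, F'.t l ≫ F'.s l) ≫ ψ ≫ F''.t i by
      rw [F'.sum_eq, Category.id_comp, Category.assoc],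
    Preadditive.sum_comp, Preadditive.comp_sum, Preadditive.comp_sum, evOne_sum]
  refine Finset.sum_congr rfl fun l _ => ?_
  show _ = evOne X (F'.s l ≫ ψ ≫ F''.t i) * evOne X (F.s j ≫ φ ≫ F'.t l)
  rw [mul_comm, ← evOne_comp, Category.assoc, Category.assoc, Category.assoc]

theorem mat_idem (F : MFrame M n) : F.mat * F.mat = F.mat := by
  rw [← F.matHom_id, ← F.matHom_comp F F, Category.id_comp]

theorem matHom_mul_mat (F : MFrame M n) (F' : MFrame M' n') (φ : M ⟶ M') :
    F.matHom F' φ * F.mat = F.matHom F' φ := by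
  rw [← F.matHom_id, ← F.matHom_comp F F', Category.id_comp]

theorem mat_mul_matHom (F : MFrame M n) (F' : MFrame M' n') (φ : M ⟶ M') :
    F'.mat * F.matHom F' φ = F.matHom F' φ := by
  rw [← F'.matHom_id, ← F.matHom_comp F' F', Category.comp_id]

theorem homMat_matHom (F : MFrame M n) (F' : MFrame M' n') (φ : M ⟶ M') :
    F.homMat F' (F.matHom F' φ) = φ := by
  conv_rhs => rw [← Category.id_comp φ, ← Category.comp_id φ, ← F.sum_eq, ← F'.sum_eq]
  rw [Preadditive.comp_sum, Preadditive.comp_sum]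
  refine Finset.sum_congr rfl fun i _ => ?_
  rw [Preadditive.sum_comp]
  refine Finset.sum_congr rfl fun j _ => ?_
  show F.t j ≫ scalEnd X (evOne X _) ≫ F'.s i = _
  rw [scalEnd_evOne]
  simp [Category.assoc]

theorem matHom_injective (F : MFrame M n) (F' : MFrame M' n') :
    Function.Injective (F.matHom F') :=
  Function.LeftInverse.injective (F.homMat_matHom F')

theorem matHom_homMat (F : MFrame M n) (F' : MFrame M' n')
    (a : Matrix (Fin n') (Fin n) Γ(X, ⊤)) : F.matHom F' (F.homMat F' a) = F'.mat * a * F.mat := by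
  refine Matrix.ext fun i j => ?_
  rw [Matrix.mul_assoc, Matrix.mul_apply]
  show evOne X (F.s j ≫ (∑ l, ∑ m, F.t m ≫ scalEnd X (a l m) ≫ F'.s l) ≫ F'.t i) = _
  rw [Preadditive.sum_comp, Preadditive.comp_sum, evOne_sum]
  refine Finset.sum_congr rfl fun l _ => ?_
  rw [Preadditive.sum_comp, Preadditive.comp_sum, evOne_sum, Matrix.mul_apply, Finset.mul_sum]
  refine Finset.sum_congr rfl fun m _ => ?_
  show _ = evOne X (F'.s l ≫ F'.t i) * (a l m * evOne X (F.s j ≫ F.t m))
  rw [show F.s j ≫ (F.t m ≫ scalEnd X (a l m) ≫ F'.s l) ≫ F'.t i =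
      (F.s j ≫ F.t m) ≫ scalEnd X (a l m) ≫ (F'.s l ≫ F'.t i) by simp [Category.assoc],
    evOne_comp, evOne_comp, evOne_scalEnd]
  ring

/-- An isomorphism from a pair of matrices. -/
def isoOfMatrices (F : MFrame M n) (F' : MFrame M' n') (a : Matrix (Fin n') (Fin n) Γ(X, ⊤))
    (b : Matrix (Fin n) (Fin n') Γ(X, ⊤)) (hab : a * b = F'.mat) (hba : b * a = F.mat) :
    M ≅ M' where
  hom := F.homMat F' a
  inv := F'.homMat F b
  hom_inv_id := F.matHom_injective F (by
    rw [F.matHom_comp F' F, matHom_homMat, matHom_homMat, F.matHom_id]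
    calc F.mat * b * F'.mat * (F'.mat * a * F.mat)
        = F.mat * b * (F'.mat * F'.mat) * a * F.mat := by simp only [Matrix.mul_assoc]
      _ = F.mat * (b * a) * (b * a) * F.mat := by rw [F'.mat_idem, ← hab]; simp only [Matrix.mul_assoc]
      _ = F.mat := by rw [hba, F.mat_idem, F.mat_idem, F.mat_idem])
  inv_hom_id := F'.matHom_injective F' (by
    rw [F'.matHom_comp F F', matHom_homMat, matHom_homMat, F'.matHom_id]
    calc F'.mat * a * F.mat * (F.mat * b * F'.mat)
        = F'.mat * a * (F.mat * F.mat) * b * F'.mat := by simp only [Matrix.mul_assoc]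
      _ = F'.mat * (a * b) * (a * b) * F'.mat := by rw [F.mat_idem, ← hba]; simp only [Matrix.mul_assoc]
      _ = F'.mat := by rw [hab, F'.mat_idem, F'.mat_idem, F'.mat_idem])

/-- Transport of a frame along an isomorphism. -/
def ofIso (F : MFrame M n) (e : M ≅ M') : MFrame M' n where
  s j := F.s j ≫ e.hom
  t j := e.inv ≫ F.t j
  sum_eq := by
    rw [show (∑ j, (e.inv ≫ F.t j) ≫ F.s j ≫ e.hom) = e.inv ≫ (∑ j, F.t j ≫ F.s j) ≫ e.hom by
      rw [Preadditive.sum_comp, Preadditive.comp_sum]; simp [Category.assoc], F.sum_eq]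
    simp

theorem ofIso_mat (F : MFrame M n) (e : M ≅ M') : (F.ofIso e).mat = F.mat :=
  Matrix.ext fun i j => congrArg (evOne X) (by simp [ofIso, Category.assoc])

theorem matHom_ofIso (F : MFrame M n) (F' : MFrame M' n') {N N' : X.Modules} (e : M ≅ N)
    (e' : M' ≅ N') (φ : N ⟶ N') :
    (F.ofIso e).matHom (F'.ofIso e') φ = F.matHom F' (e.hom ≫ φ ≫ e'.inv) :=
  Matrix.ext fun i j => congrArg (evOne X) (by simp [ofIso, Category.assoc])

/-- The inverse image of a frame. -/
def pull (F : MFrame M n) (f : Y ⟶ X) : MFrame ((Scheme.Modules.pullback f).obj M) n where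
  s j := (pUnit f).inv ≫ (Scheme.Modules.pullback f).map (F.s j)
  t j := (Scheme.Modules.pullback f).map (F.t j) ≫ (pUnit f).hom
  sum_eq := by
    rw [← CategoryTheory.Functor.map_id, ← F.sum_eq, Functor.map_sum]
    refine Finset.sum_congr rfl fun j _ => ?_
    simp

theorem pullback_scalEnd (f : Y ⟶ X) (r : Γ(X, ⊤)) :
    (Scheme.Modules.pullback f).map (scalEnd X r) ≫ (pUnit f).hom =
      (pUnit f).hom ≫ scalEnd Y (f.appTop r) := by
  have e : (pUnit f).hom =
      ((Scheme.Modules.pullbackPushforwardAdjunction f).homEquiv _ _).symm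
        (SheafOfModules.unitToPushforwardObjUnit f.toRingCatSheafHom) := rfl
  rw [e]
  refine ((Scheme.Modules.pullbackPushforwardAdjunction f).homEquiv_naturality_left_symm
      (scalEnd X r) _).symm.trans (Eq.trans (congrArg _ ?_)
    ((Scheme.Modules.pullbackPushforwardAdjunction f).homEquiv_naturality_right_symm _
      (scalEnd Y (f.appTop r))))
  ext V x
  show f.app V (X.presheaf.map (homOfLE le_top).op r * uOut X V x) =
    Y.presheaf.map (homOfLE le_top).op (f.appTop r) * f.app V (uOut X V x)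
  rw [map_mul]
  congr 1
  exact ConcreteCategory.congr_hom (f.naturality (homOfLE (le_top : V ≤ ⊤)).op) r

theorem pull_end (f : Y ⟶ X) (g : unitMod X ⟶ unitMod X) :
    evOne Y ((pUnit f).inv ≫ (Scheme.Modules.pullback f).map g ≫
      (pUnit f).hom) = f.appTop (evOne X g) := by
  conv_lhs => rw [← scalEnd_evOne g, pullback_scalEnd, Iso.inv_hom_id_assoc]
  exact evOne_scalEnd _

theorem pull_mat (F : MFrame M n) (f : Y ⟶ X) : (F.pull f).mat = F.mat.map f.appTop :=
  Matrix.ext fun i j => by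
    show evOne Y _ = f.appTop (evOne X (F.s j ≫ F.t i))
    rw [← pull_end f]
    refine congrArg (evOne Y) ?_
    show ((pUnit f).inv ≫ _) ≫ _ ≫ _ = _
    rw [Category.assoc, ← Category.assoc ((Scheme.Modules.pullback f).map (F.s j))]
    exact congrArg (_ ≫ ·) (congrArg (· ≫ _) ((Scheme.Modules.pullback f).map_comp _ _).symm)

theorem pull_matHom (F : MFrame M n) (F' : MFrame M' n') (f : Y ⟶ X) (φ : M ⟶ M') :
    (F.pull f).matHom (F'.pull f) ((Scheme.Modules.pullback f).map φ) =
      (F.matHom F' φ).map f.appTop :=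
  Matrix.ext fun i j => by
    show evOne Y _ = f.appTop (evOne X (F.s j ≫ φ ≫ F'.t i))
    rw [← pull_end f]
    refine congrArg (evOne Y) ?_
    show ((pUnit f).inv ≫ _) ≫ _ ≫ _ ≫ _ = _
    rw [Category.assoc, ← Category.assoc ((Scheme.Modules.pullback f).map φ),
      ← Category.assoc ((Scheme.Modules.pullback f).map (F.s j))]
    exact congrArg (_ ≫ ·) (congrArg (· ≫ _) (((Scheme.Modules.pullback f).map_comp _ _).trans
      (congrArg (_ ≫ ·) ((Scheme.Modules.pullback f).map_comp _ _))).symm)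

/-- The one element frame of the unit. -/
def unit (X : Scheme.{u}) : MFrame (unitMod X) 1 where
  s _ := 𝟙 _
  t _ := 𝟙 _
  sum_eq := by simp

theorem unit_mat : (unit X).mat = 1 :=
  Matrix.ext fun i j => by
    rw [Subsingleton.elim i j, Matrix.one_apply_eq]
    show evOne X (𝟙 _ ≫ 𝟙 _) = 1
    rw [Category.comp_id, evOne_id]

/-- A module trivial on a cover has frames of rank one. -/
theorem isRankOne_mat (F : MFrame M n) (h : Scheme.Modules.IsInvertible M) : IsRankOne F.mat := by
  choose U hxU he using h.1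
  have hloc : ∀ a b : Γ(X, ⊤), (∀ x, (U x).ι.appTop a = (U x).ι.appTop b) → a = b := fun a b hab =>
    X.sheaf.eq_of_locally_eq' U ⊤ (fun x => homOfLE le_top)
      (fun x _ => Opens.mem_iSup.2 ⟨x, hxU x⟩) a b fun x => by
        have h2 := congrArg ((U x).topIso.hom) (hab x)
        have e : (U x).ι.appTop ≫ (U x).topIso.hom = X.presheaf.map (homOfLE le_top).op := by
          exact (X.presheaf.map_comp _ _).symm.trans (congrArg _ (Subsingleton.elim _ _))
        rw [← ConcreteCategory.comp_apply, ← ConcreteCategory.comp_apply, e] at h2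
        exact h2
  -- on a member of the cover
  have hst : ∀ x, ∃ σ τ : Fin n → Γ((U x).toScheme, ⊤), ∑ l, τ l * σ l = 1 ∧
      ∀ i j, (U x).ι.appTop (F.mat i j) = σ j * τ i := fun x => by
    obtain ⟨(e : (Scheme.Modules.pullback (U x).ι).obj M ≅ unitMod (U x).toScheme)⟩ := he x
    refine ⟨fun j => evOne _ ((F.pull (U x).ι).s j ≫ e.hom),
      fun i => evOne _ (e.inv ≫ (F.pull (U x).ι).t i), ?_, fun i j => ?_⟩
    · simp only [← evOne_comp]
      rw [← evOne_sum, ← evOne_id]
      refine congrArg (evOne _) ?_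
      rw [show (∑ l, (e.inv ≫ (F.pull (U x).ι).t l) ≫ (F.pull (U x).ι).s l ≫ e.hom) =
          e.inv ≫ (∑ l, (F.pull (U x).ι).t l ≫ (F.pull (U x).ι).s l) ≫ e.hom by
        rw [Preadditive.sum_comp, Preadditive.comp_sum]; simp [Category.assoc],
        (F.pull (U x).ι).sum_eq]
      simp
    · rw [← evOne_comp]
      refine (congrFun (congrFun (F.pull_mat (U x).ι) i) j).symm.trans ?_
      exact congrArg (evOne _) (by simp [Category.assoc])
  refine ⟨F.mat_idem, hloc _ _ fun x => ?_, fun i j l m => hloc _ _ fun x => ?_⟩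
  · obtain ⟨σ, τ, h1, h2⟩ := hst x
    rw [map_one, Matrix.trace, map_sum, ← h1]
    exact Finset.sum_congr rfl fun i _ => (h2 i i).trans (mul_comm _ _)
  · obtain ⟨σ, τ, -, h2⟩ := hst x
    rw [map_mul, map_mul, h2, h2, h2, h2]
    ring

/-- A module with a frame of rank one is invertible. -/
theorem isInvertible (F : MFrame M n) (h : IsRankOne F.mat) : Scheme.Modules.IsInvertible M := by
  refine ⟨fun x => ?_⟩
  obtain ⟨i, hi⟩ : ∃ i, x ∈ X.basicOpen (F.mat i i) := by
    by_contra hne
    push Not at hne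
    have h1 : ∀ i, ¬ IsUnit (X.presheaf.germ ⊤ x trivial (F.mat i i)) := fun i hu =>
      hne i ((X.mem_basicOpen (F.mat i i) x trivial).2 hu)
    refine one_notMem_nonunits (α := X.presheaf.stalk x) ?_
    show (1 : X.presheaf.stalk x) ∈ IsLocalRing.maximalIdeal _
    rw [← map_one (X.presheaf.germ ⊤ x trivial).hom, ← h.trace, Matrix.trace, map_sum]
    exact sum_mem fun i _ => h1 i
  obtain ⟨c, hc⟩ : IsUnit ((X.basicOpen (F.mat i i)).ι.appTop (F.mat i i)) := by
    have hb : (X.basicOpen (F.mat i i)).toScheme.basicOpen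
        ((X.basicOpen (F.mat i i)).ι.appTop (F.mat i i)) = ⊤ :=
      ((X.basicOpen (F.mat i i)).ι.preimage_basicOpen (F.mat i i)).symm.trans
        (X.basicOpen (F.mat i i)).ι_preimage_self
    exact RingedSpace.isUnit_of_isUnit_germ _ ⊤ _ fun y hy =>
      ((X.basicOpen (F.mat i i)).toScheme.mem_basicOpen _ y hy).1 (by rw [hb]; trivial)
  let G := F.pull (X.basicOpen (F.mat i i)).ι
  have hr : IsRankOne G.mat := by rw [F.pull_mat]; exact Datum.IsRankOne.map (X.basicOpen (F.mat i i)).ι.appTop.hom h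
  have hii : G.mat i i = c := by
    rw [F.pull_mat]
    exact hc.symm
  refine ⟨(X.basicOpen (F.mat i i)), hi, ⟨?_⟩⟩
  refine G.isoOfMatrices (MFrame.unit _) (Matrix.of fun _ l => (↑c⁻¹ : Γ((X.basicOpen (F.mat i i)).toScheme, ⊤)) * G.mat i l)
    (Matrix.of fun l _ => G.mat l i) ?_ ?_
  · rw [unit_mat]
    refine Matrix.ext fun a b => ?_
    rw [Subsingleton.elim b a, Matrix.mul_apply, Matrix.one_apply_eq]
    simp only [Matrix.of_apply, mul_assoc]
    rw [← Finset.mul_sum, ← Matrix.mul_apply, G.mat_idem, hii, Units.inv_mul]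
  · refine Matrix.ext fun a b => ?_
    rw [Matrix.mul_apply, Fin.sum_univ_one, Matrix.of_apply, Matrix.of_apply]
    rw [show G.mat a i * ((↑c⁻¹ : Γ((X.basicOpen (F.mat i i)).toScheme, ⊤)) * G.mat i b) =
      ↑c⁻¹ * (G.mat a i * G.mat i b) by ring, hr.minors a i i b, hii,
      mul_comm (G.mat a b), ← mul_assoc, Units.inv_mul, one_mul]

end MFrame

/-- **Every idempotent matrix is the matrix of a frame.** -/
theorem exists_mframe {n : ℕ} (e : Matrix (Fin n) (Fin n) Γ(X, ⊤)) (he : e * e = e) :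
    ∃ (M : X.Modules) (F : MFrame M n), F.mat = e := by
  have : HasFiniteBiproducts X.Modules := Abelian.hasFiniteBiproducts
  let F₀ : MFrame (⨁ fun _ : Fin n => unitMod X) n :=
    ⟨fun j => biproduct.ι (fun _ : Fin n => unitMod X) j,
      fun j => biproduct.π (fun _ : Fin n => unitMod X) j, biproduct.total⟩
  have h0 : F₀.mat = 1 := Matrix.ext fun i j => by
    show evOne X (biproduct.ι (fun _ : Fin n => unitMod X) j ≫ biproduct.π _ i) = _
    by_cases hij : j = i
    · subst hij
      rw [biproduct.ι_π_self, Matrix.one_apply_eq, evOne_id]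
    · rw [biproduct.ι_π_ne _ hij, Matrix.one_apply_ne (Ne.symm hij)]
      rfl
  set E := F₀.homMat F₀ e
  have hE : E ≫ E = E := F₀.matHom_injective F₀ (by
    rw [F₀.matHom_comp F₀ F₀, F₀.matHom_homMat, h0, one_mul, mul_one, he])
  obtain ⟨P, inc, prj, h1, h2⟩ := IsIdempotentComplete.idempotents_split _ E hE
  refine ⟨P, ⟨fun j => F₀.s j ≫ prj, fun j => inc ≫ F₀.t j, ?_⟩, ?_⟩
  · rw [show (∑ j, (inc ≫ F₀.t j) ≫ F₀.s j ≫ prj) = inc ≫ (∑ j, F₀.t j ≫ F₀.s j) ≫ prj by
      rw [Preadditive.sum_comp, Preadditive.comp_sum]; simp [Category.assoc], F₀.sum_eq,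
      Category.id_comp, h1]
  · refine Matrix.ext fun i j => ?_
    show evOne X ((F₀.s j ≫ prj) ≫ inc ≫ F₀.t i) = _
    rw [Category.assoc, ← Category.assoc prj, h2]
    have h3 := congrFun (congrFun (F₀.matHom_homMat F₀ e) i) j
    rw [h0, one_mul, mul_one] at h3
    exact h3

end FLTAgent.PicScheme

end
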