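import Fermat.Agent.PicScheme.Modules.Bridge

/-!
# Gluing modules along a cocycle

Given modules indexed by a cover and isomorphisms on the overlaps satisfying the cocycle
condition, the compatible families of sections form a module isomorphic on each member of the
cover to the given one.
-/

set_option autoImplicit false

noncomputable section

universe u

open CategoryTheory AlgebraicGeometry TopologicalSpace

namespace FLTAgent.PicScheme

variable {X : Scheme.{u}}

theorem map_res (X : Scheme.{u}) {A B C : X.Opens} (h : A ≤ B) (h' : B ≤ C) (r : Γ(X, C)) :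
    X.presheaf.map (homOfLE h).op (X.presheaf.map (homOfLE h').op r) =
      X.presheaf.map (homOfLE (h.trans h')).op r := by
  rw [← ConcreteCategory.comp_apply, ← X.presheaf.map_comp]
  rfl

/-- Modules on the members of a cover with a cocycle of isomorphisms on overlaps. -/
structure GlueData (X : Scheme.{u}) where
  /-- The index. -/
  J : Type u
  /-- The cover. -/
  U : J → X.Opens
  cover : iSup U = ⊤
  /-- The modules. -/
  N : J → X.Modules
  /-- The transition isomorphisms. -/
  φ : ∀ i j, IsoOn (U i ⊓ U j) (N j) (N i)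
  φ_self : ∀ i (V : X.Opens) (hV : V ≤ U i ⊓ U i) (x : Γ(N i, V)), (φ i i).hom.app V hV x = x
  φ_comp : ∀ i j l (V : X.Opens) (hij : V ≤ U i ⊓ U j) (hjl : V ≤ U j ⊓ U l) (hil : V ≤ U i ⊓ U l)
    (x : Γ(N l, V)),
    (φ i j).hom.app V hij ((φ j l).hom.app V hjl x) = (φ i l).hom.app V hil x

namespace GlueData

variable (D : GlueData X)

/-- The overlap inside a part. -/
abbrev ov (V : X.Opens) (i j : D.J) : X.Opens := V ⊓ (D.U i ⊓ D.U j)

theorem ov_le₁ (V : X.Opens) (i j : D.J) : D.ov V i j ≤ V ⊓ D.U i :=
  inf_le_inf_left V inf_le_left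

theorem ov_le₂ (V : X.Opens) (i j : D.J) : D.ov V i j ≤ V ⊓ D.U j :=
  inf_le_inf_left V inf_le_right

/-- Compatibility of a family of sections. -/
def Compat (V : X.Opens) (s : ∀ i, Γ(D.N i, V ⊓ D.U i)) : Prop :=
  ∀ i j, mres (D.N i) (D.ov_le₁ V i j) (s i) =
    (D.φ i j).hom.app (D.ov V i j) inf_le_right (mres (D.N j) (D.ov_le₂ V i j) (s j))

/-- The compatible families. -/
def sec (V : X.Opens) : AddSubgroup (∀ i, Γ(D.N i, V ⊓ D.U i)) where
  carrier := {s | D.Compat V s}
  zero_mem' i j := by
    show mres _ _ (0 : Γ(D.N i, V ⊓ D.U i)) = (D.φ i j).hom.app _ _ (mres _ _ (0 : Γ(D.N j, V ⊓ D.U j)))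
    unfold mres
    rw [map_zero, map_zero, map_zero]
  add_mem' {a b} ha hb i j := by
    show mres _ _ (a i + b i) = (D.φ i j).hom.app _ _ (mres _ _ (a j + b j))
    rw [mres_add, mres_add, map_add, ha i j, hb i j]
  neg_mem' {a} ha i j := by
    show mres _ _ (-a i) = (D.φ i j).hom.app _ _ (mres _ _ (-a j))
    unfold mres
    rw [map_neg, map_neg, map_neg]
    exact congrArg Neg.neg (ha i j)

instance secSMul (V : X.Opens) : SMul Γ(X, V) (D.sec V) where
  smul r s := ⟨fun i => X.presheaf.map (homOfLE (inf_le_left : V ⊓ D.U i ≤ V)).op r • s.1 i,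
    fun i j => by
      rw [mres_smul, mres_smul, map_smul, s.2 i j, map_res, map_res]⟩

theorem smul_coe {V : X.Opens} (r : Γ(X, V)) (s : D.sec V) (i : D.J) :
    (r • s).1 i = X.presheaf.map (homOfLE (inf_le_left : V ⊓ D.U i ≤ V)).op r • s.1 i := rfl

instance secModule (V : X.Opens) : Module Γ(X, V) (D.sec V) where
  one_smul s := Subtype.ext (funext fun i => by rw [smul_coe, map_one, one_smul])
  mul_smul a b s := Subtype.ext (funext fun i => by
    rw [smul_coe, smul_coe, smul_coe, map_mul, mul_smul])
  smul_zero a := Subtype.ext (funext fun i => by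
    rw [smul_coe]; exact smul_zero _)
  smul_add a s t := Subtype.ext (funext fun i => by
    rw [smul_coe]; exact smul_add _ _ _)
  add_smul a b s := Subtype.ext (funext fun i => by
    rw [smul_coe, map_add, add_smul]; rfl)
  zero_smul s := Subtype.ext (funext fun i => by
    rw [smul_coe, map_zero, zero_smul]; rfl)

/-- Restriction of compatible families. -/
def secRes {V W : X.Opens} (h : V ≤ W) : D.sec W →+ D.sec V where
  toFun s := ⟨fun i => mres (D.N i) (inf_le_inf_right (D.U i) h) (s.1 i), fun i j => by
    rw [mres_mres, mres_mres,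
      ← mres_mres (D.N i) (inf_le_inf_right _ h : D.ov V i j ≤ D.ov W i j) (D.ov_le₁ W i j),
      s.2 i j, (D.φ i j).hom.natural, mres_mres]⟩
  map_zero' := Subtype.ext (funext fun i => map_zero _)
  map_add' s t := Subtype.ext (funext fun i => mres_add _ _ _ _)

theorem secRes_coe {V W : X.Opens} (h : V ≤ W) (s : D.sec W) (i : D.J) :
    (D.secRes h s).1 i = mres (D.N i) (inf_le_inf_right (D.U i) h) (s.1 i) := rfl

theorem secRes_smul {V W : X.Opens} (h : V ≤ W) (r : Γ(X, W)) (s : D.sec W) :
    D.secRes h (r • s) = X.presheaf.map (homOfLE h).op r • D.secRes h s :=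
  Subtype.ext (funext fun i => by
    rw [secRes_coe, smul_coe, smul_coe, mres_smul, map_res, map_res, secRes_coe])

/-- The underlying presheaf of groups. -/
def presheafAb : X.Opensᵒᵖ ⥤ Ab where
  obj V := AddCommGrpCat.of (D.sec V.unop)
  map f := AddCommGrpCat.ofHom (D.secRes (leOfHom f.unop))
  map_id V := by
    refine AddCommGrpCat.hom_ext (AddMonoidHom.ext fun (s : D.sec V.unop) => ?_)
    show D.secRes (le_refl V.unop) s = s
    exact Subtype.ext (funext fun i => mres_self (D.N i) (s.1 i))
  map_comp {A B C} f g := by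
    refine AddCommGrpCat.hom_ext (AddMonoidHom.ext fun (s : D.sec A.unop) => ?_)
    show D.secRes ((leOfHom g.unop).trans (leOfHom f.unop)) s =
      D.secRes (leOfHom g.unop) (D.secRes (leOfHom f.unop) s)
    exact Subtype.ext (funext fun i => (mres_mres (D.N i)
      (inf_le_inf_right (D.U i) (leOfHom g.unop)) (inf_le_inf_right (D.U i) (leOfHom f.unop))
      (s.1 i)).symm)

/-- The presheaf of modules. -/
def presheafMod : X.PresheafOfModules :=
  letI : ∀ V : X.Opensᵒᵖ, Module (X.ringCatSheaf.obj.obj V) (D.presheafAb.obj V) :=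
    fun V => D.secModule V.unop
  PresheafOfModules.ofPresheaf D.presheafAb fun _ _ f r s =>
    D.secRes_smul (leOfHom f.unop) r s

theorem isSheaf_presheafAb : TopCat.Presheaf.IsSheaf (X := X.toTopCat) D.presheafAb := by
  rw [TopCat.Presheaf.isSheaf_iff_isSheafUniqueGluing]
  intro ι W sf hsf
  have hij : ∀ (a b : ι) (i : D.J),
      mres (D.N i) (inf_le_inf_right (D.U i) (inf_le_left : W a ⊓ W b ≤ W a))
        ((show D.sec (W a) from sf a).1 i) =
      mres (D.N i) (inf_le_inf_right (D.U i) (inf_le_right : W a ⊓ W b ≤ W b))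
        ((show D.sec (W b) from sf b).1 i) :=
    fun a b i => congrArg (fun v : D.sec (W a ⊓ W b) => v.1 i) (hsf a b)
  have hcov : ∀ i, iSup W ⊓ D.U i ≤ ⨆ a, W a ⊓ D.U i := fun i => (iSup_inf_eq W (D.U i)).le
  have hex : ∀ i, ∃! x : Γ(D.N i, iSup W ⊓ D.U i), ∀ a,
      mres (D.N i) (inf_le_inf_right (D.U i) (le_iSup W a)) x =
        (show D.sec (W a) from sf a).1 i := fun i =>
    existsUnique_mres (D.N i) _ (hcov i) _ fun a b => by
      have h1 := congrArg (mres (D.N i)
        (le_inf (le_inf (inf_le_left.trans inf_le_left) (inf_le_right.trans inf_le_left))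
          (inf_le_left.trans inf_le_right) :
          (W a ⊓ D.U i) ⊓ (W b ⊓ D.U i) ≤ (W a ⊓ W b) ⊓ D.U i)) (hij a b i)
      rwa [mres_mres, mres_mres] at h1
  choose x hx huniq using hex
  refine ⟨⟨x, fun i j => ?_⟩, fun a => Subtype.ext (funext fun i => hx i a), fun y hy => ?_⟩
  · refine eq_of_mres (D.N i) (U := fun a => D.ov (W a) i j)
      (fun a => inf_le_inf_right _ (le_iSup W a))
      (iSup_inf_eq W _).le fun a => ?_
    rw [mres_mres, (D.φ i j).hom.natural, mres_mres,
      ← mres_mres (D.N i) (D.ov_le₁ (W a) i j) (inf_le_inf_right (D.U i) (le_iSup W a)), hx i a,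
      ← mres_mres (D.N j) (D.ov_le₂ (W a) i j) (inf_le_inf_right (D.U j) (le_iSup W a)), hx j a]
    exact (show D.sec (W a) from sf a).2 i j
  · exact Subtype.ext (funext fun i => huniq i _ fun a =>
      congrArg (fun v : D.sec (W a) => v.1 i) (hy a))

/-- **The glued module.** -/
def glued : X.Modules := ⟨D.presheafMod, D.isSheaf_presheafAb⟩

theorem mres_glued {V W : X.Opens} (h : V ≤ W) (s : Γ(D.glued, W)) (i : D.J) :
    (show D.sec V from mres D.glued h s).1 i =
      mres (D.N i) (inf_le_inf_right (D.U i) h) ((show D.sec W from s).1 i) := rfl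

theorem le_inf_self {V : X.Opens} {i : D.J} (hV : V ≤ D.U i) : V ≤ V ⊓ D.U i := le_inf le_rfl hV

/-- A section on the member `i` as a compatible family. -/
def ofComponent {i : D.J} {V : X.Opens} (hV : V ≤ D.U i) (y : Γ(D.N i, V)) : D.sec V :=
  ⟨fun j => (D.φ j i).hom.app (V ⊓ D.U j) (le_inf inf_le_right (inf_le_left.trans hV))
      (mres (D.N i) inf_le_left y),
    fun j l => by
      rw [(D.φ j i).hom.natural, (D.φ l i).hom.natural, mres_mres, mres_mres]
      exact (D.φ_comp j l i _ inf_le_right
        (le_inf (inf_le_right.trans inf_le_right) (inf_le_left.trans hV))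
        (le_inf (inf_le_right.trans inf_le_left) (inf_le_left.trans hV)) _).symm⟩

/-- The projection to the member `i`. -/
def projHom (i : D.J) : HomOn (D.U i) D.glued (D.N i) where
  app V hV :=
    { toFun := fun s => mres (D.N i) (D.le_inf_self hV) ((show D.sec V from s).1 i)
      map_add' := fun s t => mres_add _ _ _ _
      map_smul' := fun r s => by
        show mres (D.N i) _ ((r • (show D.sec V from s)).1 i) = _
        rw [smul_coe, mres_smul, map_res, RingHom.id_apply,
          Subsingleton.elim (homOfLE _).op (𝟙 _), X.presheaf.map_id]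
        rfl }
  natural {V W} h hW s := by
    show mres (D.N i) h (mres (D.N i) _ _) = mres (D.N i) _ _
    rw [mres_glued, mres_mres, mres_mres]

/-- The inclusion of the member `i`. -/
def inclHom (i : D.J) : HomOn (D.U i) (D.N i) D.glued where
  app V hV :=
    { toFun := fun y => (D.ofComponent hV y : D.sec V)
      map_add' := fun y z => Subtype.ext (funext fun j => by
        show (D.φ j i).hom.app _ _ (mres _ _ (y + z)) = _
        rw [mres_add, map_add]
        rfl)
      map_smul' := fun r y => Subtype.ext (funext fun j => by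
        show (D.φ j i).hom.app _ _ (mres _ _ (r • y)) = (r • D.ofComponent hV y).1 j
        rw [mres_smul, map_smul, smul_coe]
        rfl) }
  natural {V W} h hW y := Subtype.ext (funext fun j => by
    show mres (D.N j) _ ((D.φ j i).hom.app _ _ (mres _ _ y)) =
      (D.φ j i).hom.app _ _ (mres _ _ (mres _ _ y))
    rw [(D.φ j i).hom.natural, mres_mres, mres_mres])

/-- The glued module is the given one on each member of the cover. -/
def proj (i : D.J) : IsoOn (D.U i) D.glued (D.N i) where
  hom := D.projHom i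
  inv := D.inclHom i
  hom_inv {V} hV s := Subtype.ext (funext fun j => by
    show (D.φ j i).hom.app _ _ (mres _ _ (mres _ _ ((show D.sec V from s).1 i))) =
      (show D.sec V from s).1 j
    have h0 : V ⊓ D.U j ≤ D.ov V j i := le_inf inf_le_left (le_inf inf_le_right
      (inf_le_left.trans hV))
    have h1 := congrArg (mres (D.N j) h0) ((show D.sec V from s).2 j i)
    rw [mres_mres, (D.φ j i).hom.natural, mres_mres, mres_self] at h1
    rw [mres_mres]
    exact h1.symm)
  inv_hom {V} hV y := by
    show mres (D.N i) _ ((D.φ i i).hom.app _ _ (mres _ _ y)) = y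
    rw [D.φ_self, mres_mres, mres_self]

theorem proj_compat (i j : D.J) {V : X.Opens} (hi : V ≤ D.U i) (hj : V ≤ D.U j)
    (s : Γ(D.glued, V)) :
    (D.φ i j).hom.app V (le_inf hi hj) ((D.proj j).hom.app V hj s) =
      (D.proj i).hom.app V hi s := by
  have h0 : V ≤ D.ov V i j := le_inf le_rfl (le_inf hi hj)
  have h1 := congrArg (mres (D.N i) h0) ((show D.sec V from s).2 i j)
  rw [mres_mres, (D.φ i j).hom.natural, mres_mres] at h1
  exact h1.symm

/-- The glued module is invertible when the given ones are trivial on the cover. -/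
theorem isInvertible_glued (h : ∀ i, Nonempty (IsoOn (D.U i) (unitMod X) (D.N i))) :
    Scheme.Modules.IsInvertible D.glued := by
  rw [isInvertible_iff_isoOn]
  intro x
  obtain ⟨i, hi⟩ := Opens.mem_iSup.1 (show x ∈ iSup D.U by rw [D.cover]; trivial)
  obtain ⟨e⟩ := h i
  exact ⟨D.U i, hi, ⟨e.trans (D.proj i).symm⟩⟩

/-- A module with projections compatible with the cocycle is the glued module. -/
def gluedIso (M : X.Modules) (q : ∀ i, IsoOn (D.U i) M (D.N i))
    (hq : ∀ i j (V : X.Opens) (hi : V ≤ D.U i) (hj : V ≤ D.U j) (x : Γ(M, V)),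
      (D.φ i j).hom.app V (le_inf hi hj) ((q j).hom.app V hj x) = (q i).hom.app V hi x) :
    M ≅ D.glued :=
  IsoOn.glue (fun i => (q i).trans (D.proj i).symm) D.cover fun i j V hi hj x => by
    show (D.proj i).inv.app V hi ((q i).hom.app V hi x) =
      (D.proj j).inv.app V hj ((q j).hom.app V hj x)
    rw [← hq i j V hi hj x]
    conv_lhs => rw [← (D.proj j).inv_hom hj ((q j).hom.app V hj x)]
    rw [D.proj_compat i j hi hj, (D.proj i).hom_inv]

end GlueData

end FLTAgent.PicScheme

end
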