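import Mathlib

/-!
# Morphisms of modules on a part of a scheme and their gluing

A morphism between two modules on a part `U` of a scheme is a compatible family of linear maps
between the sections over the smaller parts.  Such morphisms glue over a cover.
-/

set_option autoImplicit false

noncomputable section

universe u

open CategoryTheory AlgebraicGeometry TopologicalSpace

namespace FLTAgent.PicScheme

variable {X : Scheme.{u}}

/-- Restriction of sections of a module. -/
def mres (M : X.Modules) {V W : X.Opens} (h : V ≤ W) (x : Γ(M, W)) : Γ(M, V) :=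
  M.presheaf.map (homOfLE h).op x

theorem mres_self (M : X.Modules) {V : X.Opens} (x : Γ(M, V)) : mres M le_rfl x = x := by
  rw [mres, show (homOfLE (le_refl V)).op = 𝟙 _ from Subsingleton.elim _ _, M.presheaf.map_id]
  rfl

@[simp]
theorem mres_mres (M : X.Modules) {V W Z : X.Opens} (h : V ≤ W) (h' : W ≤ Z) (x : Γ(M, Z)) :
    mres M h (mres M h' x) = mres M (h.trans h') x := by
  rw [mres, mres, mres, ← ConcreteCategory.comp_apply, ← M.presheaf.map_comp]
  rfl

theorem mres_add (M : X.Modules) {V W : X.Opens} (h : V ≤ W) (x y : Γ(M, W)) :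
    mres M h (x + y) = mres M h x + mres M h y := map_add _ x y

theorem mres_smul (M : X.Modules) {V W : X.Opens} (h : V ≤ W) (r : Γ(X, W)) (x : Γ(M, W)) :
    mres M h (r • x) = X.presheaf.map (homOfLE h).op r • mres M h x :=
  M.map_smul (homOfLE h) r x

theorem eq_of_mres (M : X.Modules) {ι : Type u} {U : ι → X.Opens} {V : X.Opens}
    (hUV : ∀ i, U i ≤ V) (hV : V ≤ iSup U) {x y : Γ(M, V)}
    (h : ∀ i, mres M (hUV i) x = mres M (hUV i) y) : x = y :=
  TopCat.Sheaf.eq_of_locally_eq' ⟨M.presheaf, M.isSheaf⟩ U V (fun i => homOfLE (hUV i)) hV x y h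

theorem existsUnique_mres (M : X.Modules) {ι : Type u} {U : ι → X.Opens} {V : X.Opens}
    (hUV : ∀ i, U i ≤ V) (hV : V ≤ iSup U) (s : ∀ i, Γ(M, U i))
    (h : ∀ i j, mres M (inf_le_left : U i ⊓ U j ≤ U i) (s i) =
      mres M (inf_le_right : U i ⊓ U j ≤ U j) (s j)) :
    ∃! x : Γ(M, V), ∀ i, mres M (hUV i) x = s i :=
  TopCat.Sheaf.existsUnique_gluing' ⟨M.presheaf, M.isSheaf⟩ U V (fun i => homOfLE (hUV i)) hV s h

/-- A morphism of modules on the part `U`. -/
@[ext]
structure HomOn (U : X.Opens) (M N : X.Modules) where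
  /-- The maps on sections. -/
  app : ∀ V : X.Opens, V ≤ U → Γ(M, V) →ₗ[Γ(X, V)] Γ(N, V)
  natural : ∀ {V W : X.Opens} (h : V ≤ W) (hW : W ≤ U) (x : Γ(M, W)),
    mres N h (app W hW x) = app V (h.trans hW) (mres M h x)

namespace HomOn

variable {U U' : X.Opens} {M N K : X.Modules}

/-- The identity. -/
protected def id (U : X.Opens) (M : X.Modules) : HomOn U M M where
  app _ _ := LinearMap.id
  natural _ _ _ := rfl

/-- Composition. -/
def comp (f : HomOn U M N) (g : HomOn U N K) : HomOn U M K where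
  app V hV := (g.app V hV).comp (f.app V hV)
  natural h hW x := by
    rw [LinearMap.comp_apply, g.natural h hW, f.natural h hW]
    rfl

/-- Restriction to a smaller part. -/
def res (h : U' ≤ U) (f : HomOn U M N) : HomOn U' M N where
  app V hV := f.app V (hV.trans h)
  natural h' hW x := f.natural h' (hW.trans h) x

@[simp] theorem id_app {V : X.Opens} (hV : V ≤ U) (x : Γ(M, V)) :
    (HomOn.id U M).app V hV x = x := rfl

@[simp] theorem comp_app (f : HomOn U M N) (g : HomOn U N K) {V : X.Opens} (hV : V ≤ U)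
    (x : Γ(M, V)) : (f.comp g).app V hV x = g.app V hV (f.app V hV x) := rfl

@[simp] theorem res_app (h : U' ≤ U) (f : HomOn U M N) {V : X.Opens} (hV : V ≤ U')
    (x : Γ(M, V)) : (f.res h).app V hV x = f.app V (hV.trans h) x := rfl

/-- A morphism restricted to a part. -/
def ofHom (U : X.Opens) (φ : M ⟶ N) : HomOn U M N where
  app V _ := (φ.val.app (.op V)).hom
  natural h _ x := (ConcreteCategory.congr_hom (φ.mapPresheaf.naturality (homOfLE h).op) x).symm

theorem ofHom_app (φ : M ⟶ N) {V : X.Opens} (hV : V ≤ U) (x : Γ(M, V)) :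
    (ofHom U φ).app V hV x = φ.app V x := rfl

end HomOn

/-- A global morphism from linear maps on all sections. -/
def homOfMaps {M N : X.Modules} (f : ∀ V : X.Opens, Γ(M, V) →ₗ[Γ(X, V)] Γ(N, V))
    (hf : ∀ {V W : X.Opens} (h : V ≤ W) (x : Γ(M, W)), mres N h (f W x) = f V (mres M h x)) :
    M ⟶ N :=
  ⟨{ app := fun V => ModuleCat.ofHom (X := M.val.obj V) (Y := N.val.obj V) (f V.unop)
     naturality := fun {V W} i => by
      ext x
      exact (hf (leOfHom i.unop) x).symm }⟩

theorem homOfMaps_app {M N : X.Modules} (f : ∀ V : X.Opens, Γ(M, V) →ₗ[Γ(X, V)] Γ(N, V))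
    (hf : ∀ {V W : X.Opens} (h : V ≤ W) (x : Γ(M, W)), mres N h (f W x) = f V (mres M h x))
    (V : X.Opens) (x : Γ(M, V)) : (homOfMaps f hf).app V x = f V x := rfl

section Glue

variable {M N : X.Modules} {ι : Type u} {U : ι → X.Opens} (f : ∀ i, HomOn (U i) M N)

/-- The morphisms agree on overlaps. -/
def Agree : Prop :=
  ∀ i j (V : X.Opens) (hi : V ≤ U i) (hj : V ≤ U j) (x : Γ(M, V)),
    (f i).app V hi x = (f j).app V hj x

variable (hU : iSup U = ⊤) (hf : Agree f)

include hU in
theorem le_iSup_inf (V : X.Opens) : V ≤ iSup fun i => V ⊓ U i := by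
  rw [← inf_iSup_eq, hU, inf_top_eq]

include hU hf in
theorem existsUnique_glueApp (V : X.Opens) (x : Γ(M, V)) :
    ∃! y : Γ(N, V), ∀ i, mres N (inf_le_left : V ⊓ U i ≤ V) y =
      (f i).app (V ⊓ U i) inf_le_right (mres M inf_le_left x) := by
  refine existsUnique_mres N _ (le_iSup_inf hU V) _ fun i j => ?_
  rw [(f i).natural, (f j).natural, mres_mres, mres_mres]
  exact hf i j _ _ _ _

/-- The glued map on sections. -/
def glueApp (V : X.Opens) (x : Γ(M, V)) : Γ(N, V) := (existsUnique_glueApp f hU hf V x).exists.choose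

theorem glueApp_spec (V : X.Opens) (x : Γ(M, V)) (i : ι) :
    mres N (inf_le_left : V ⊓ U i ≤ V) (glueApp f hU hf V x) =
      (f i).app (V ⊓ U i) inf_le_right (mres M inf_le_left x) :=
  (existsUnique_glueApp f hU hf V x).exists.choose_spec i

theorem glueApp_eq {V : X.Opens} {x : Γ(M, V)} {y : Γ(N, V)}
    (h : ∀ i, mres N (inf_le_left : V ⊓ U i ≤ V) y =
      (f i).app (V ⊓ U i) inf_le_right (mres M inf_le_left x)) : glueApp f hU hf V x = y :=
  (existsUnique_glueApp f hU hf V x).unique (glueApp_spec f hU hf V x) h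

/-- **Morphisms glue over a cover.** -/
def glueHom : M ⟶ N :=
  homOfMaps (fun V =>
    { toFun := glueApp f hU hf V
      map_add' := fun x y => glueApp_eq f hU hf fun i => by
        rw [mres_add, mres_add, glueApp_spec, glueApp_spec, map_add]
      map_smul' := fun r x => glueApp_eq f hU hf fun i => by
        rw [RingHom.id_apply, mres_smul, mres_smul, glueApp_spec, map_smul] })
    (fun {V W} h x => (glueApp_eq f hU hf fun i => by
      show mres N _ (mres N h (glueApp f hU hf W x)) = _
      rw [mres_mres, mres_mres,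
        ← mres_mres N (inf_le_inf_right (U i) h) (inf_le_left : W ⊓ U i ≤ W), glueApp_spec,
        (f i).natural, mres_mres]).symm)

theorem glueHom_app {i : ι} {V : X.Opens} (hi : V ≤ U i) (x : Γ(M, V)) :
    (glueHom f hU hf).app V x = (f i).app V hi x :=
  glueApp_eq f hU hf fun j => by
    rw [(f i).natural]
    exact hf i j _ _ _ _

theorem glueHom_unique {φ : M ⟶ N}
    (h : ∀ i (V : X.Opens) (hi : V ≤ U i) (x : Γ(M, V)), φ.app V x = (f i).app V hi x) :
    φ = glueHom f hU hf := by
  ext V x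
  refine (glueApp_eq f hU hf fun i => ?_).symm
  show mres N _ ((HomOn.ofHom V φ).app V le_rfl x) = _
  rw [(HomOn.ofHom V φ).natural inf_le_left le_rfl, HomOn.ofHom_app]
  exact h i _ _ _

end Glue

/-- Morphisms equal on the members of a cover are equal. -/
theorem hom_eq_of_cover {M N : X.Modules} {ι : Type u} {U : ι → X.Opens} (hU : iSup U = ⊤)
    {φ ψ : M ⟶ N} (h : ∀ i (V : X.Opens), V ≤ U i → ∀ x, φ.app V x = ψ.app V x) : φ = ψ := by
  have ha : Agree fun i => HomOn.ofHom (U i) φ := fun _ _ _ _ _ _ => rfl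
  rw [glueHom_unique _ hU ha (φ := φ) fun i V hi x => rfl,
    glueHom_unique _ hU ha (φ := ψ) fun i V hi x => (h i V hi x).symm]

/-- An isomorphism of modules on the part `U`. -/
@[ext]
structure IsoOn (U : X.Opens) (M N : X.Modules) where
  /-- The direct map. -/
  hom : HomOn U M N
  /-- The inverse map. -/
  inv : HomOn U N M
  hom_inv : ∀ {V : X.Opens} (hV : V ≤ U) (x : Γ(M, V)), inv.app V hV (hom.app V hV x) = x
  inv_hom : ∀ {V : X.Opens} (hV : V ≤ U) (y : Γ(N, V)), hom.app V hV (inv.app V hV y) = y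

namespace IsoOn

variable {U U' : X.Opens} {M N K : X.Modules}

/-- The identity. -/
protected def refl (U : X.Opens) (M : X.Modules) : IsoOn U M M :=
  ⟨HomOn.id U M, HomOn.id U M, fun _ _ => rfl, fun _ _ => rfl⟩

/-- The inverse. -/
def symm (e : IsoOn U M N) : IsoOn U N M := ⟨e.inv, e.hom, e.inv_hom, e.hom_inv⟩

/-- Composition. -/
def trans (e : IsoOn U M N) (e' : IsoOn U N K) : IsoOn U M K :=
  ⟨e.hom.comp e'.hom, e'.inv.comp e.inv,
    fun hV x => (congrArg (e.inv.app _ hV) (e'.hom_inv hV _)).trans (e.hom_inv hV x),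
    fun hV y => (congrArg (e'.hom.app _ hV) (e.inv_hom hV _)).trans (e'.inv_hom hV y)⟩

/-- Restriction to a smaller part. -/
def res (h : U' ≤ U) (e : IsoOn U M N) : IsoOn U' M N :=
  ⟨e.hom.res h, e.inv.res h, fun hV x => e.hom_inv (hV.trans h) x,
    fun hV x => e.inv_hom (hV.trans h) x⟩

/-- A global isomorphism restricted to a part. -/
def ofIso (U : X.Opens) (e : M ≅ N) : IsoOn U M N :=
  ⟨HomOn.ofHom U e.hom, HomOn.ofHom U e.inv,
    fun {V} _ x => show (e.hom ≫ e.inv).app V x = x by rw [e.hom_inv_id]; rfl,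
    fun {V} _ x => show (e.inv ≫ e.hom).app V x = x by rw [e.inv_hom_id]; rfl⟩

theorem symm_agree {ι : Type u} {U : ι → X.Opens} {e : ∀ i, IsoOn (U i) M N}
    (h : Agree fun i => (e i).hom) : Agree fun i => (e i).inv := fun i j V hi hj y => by
  have h1 := h i j V hi hj ((e j).inv.app V hj y)
  rw [(e j).inv_hom hj] at h1
  exact (congrArg ((e i).inv.app V hi) h1).symm.trans ((e i).hom_inv hi _)

/-- **Isomorphisms glue over a cover.** -/
def glue {ι : Type u} {U : ι → X.Opens} (e : ∀ i, IsoOn (U i) M N) (hU : iSup U = ⊤)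
    (h : Agree fun i => (e i).hom) : M ≅ N where
  hom := glueHom _ hU h
  inv := glueHom _ hU (symm_agree h)
  hom_inv_id := hom_eq_of_cover hU fun i V hi x => by
    show (glueHom _ hU (symm_agree h)).app V ((glueHom _ hU h).app V x) = x
    rw [glueHom_app _ hU h hi, glueHom_app _ hU (symm_agree h) hi]
    exact (e i).hom_inv hi x
  inv_hom_id := hom_eq_of_cover hU fun i V hi x => by
    show (glueHom _ hU h).app V ((glueHom _ hU (symm_agree h)).app V x) = x
    rw [glueHom_app _ hU (symm_agree h) hi, glueHom_app _ hU h hi]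
    exact (e i).inv_hom hi x

end IsoOn

end FLTAgent.PicScheme

end
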