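import Fermat.Agent.PicScheme.Modules.Pieces
import Fermat.Agent.PicScheme.Modules.Affine
import Fermat.Agent.PicScheme.Basic

/-!
# Modules on two affine parts as matrices

For a scheme covered by two affine open subschemes with affine intersection, frames on the two
parts describe a module by two idempotents and the transition matrices.
-/

set_option autoImplicit false

noncomputable section

universe u

open CategoryTheory CategoryTheory.Limits AlgebraicGeometry TopologicalSpace Matrix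

namespace FLTAgent.PicScheme

/-- The global functions of an affine scheme. -/
def gR (R : Type u) [CommRing R] : Γ(Spec (CommRingCat.of R), ⊤) ≃+* R :=
  (Scheme.ΓSpecIso (CommRingCat.of R)).commRingCatIsoToRingEquiv

theorem gR_appTop {R S : Type u} [CommRing R] [CommRing S] (f : R →+* S)
    (x : Γ(Spec (CommRingCat.of R), ⊤)) : gR S ((specMap f).appTop x) = f (gR R x) :=
  ConcreteCategory.congr_hom (Scheme.ΓSpecIso_naturality (CommRingCat.ofHom f)) x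

namespace MFrame

theorem matHom_pullTo_conj {Z Y X : Scheme.{u}} {M M' : X.Modules} {n n' : ℕ} {f : Y ⟶ X}
    (F : MFrame ((Scheme.Modules.pullback f).obj M) n)
    (F' : MFrame ((Scheme.Modules.pullback f).obj M') n') (g : Z ⟶ Y) (h : Z ⟶ X) (e : g ≫ f = h)
    (φ : (Scheme.Modules.pullback f).obj M ⟶ (Scheme.Modules.pullback f).obj M') :
    (F.pullTo g h e).matHom (F'.pullTo g h e)
        ((pullIso g f h e M).inv ≫ (Scheme.Modules.pullback g).map φ ≫ (pullIso g f h e M').hom) =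
      (F.matHom F' φ).map g.appTop := by
  rw [pullTo, pullTo, matHom_ofIso, ← pull_matHom]
  simp

variable {R S : Type u} [CommRing R] [CommRing S] {M M' M'' : (Spec (CommRingCat.of R)).Modules}
  {n n' n'' : ℕ}

/-- The matrix of a morphism over the ring. -/
def rHom (F : MFrame M n) (F' : MFrame M' n') (φ : M ⟶ M') : Matrix (Fin n') (Fin n) R :=
  (F.matHom F' φ).map (gR R)

/-- The matrix of a frame over the ring. -/
def rMat (F : MFrame M n) : Matrix (Fin n) (Fin n) R := F.mat.map (gR R)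

theorem rHom_id (F : MFrame M n) : F.rHom F (𝟙 M) = F.rMat := by rw [rHom, matHom_id, rMat]

theorem rHom_comp (F : MFrame M n) (F' : MFrame M' n') (F'' : MFrame M'' n'') (φ : M ⟶ M')
    (ψ : M' ⟶ M'') : F.rHom F'' (φ ≫ ψ) = F'.rHom F'' ψ * F.rHom F' φ := by
  rw [rHom, rHom, rHom, F.matHom_comp F' F'', Matrix.map_mul]

theorem rHom_injective (F : MFrame M n) (F' : MFrame M' n') : Function.Injective (F.rHom F') :=
  (Matrix.map_injective (gR R).injective).comp (F.matHom_injective F')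

theorem rHom_mul_rMat (F : MFrame M n) (F' : MFrame M' n') (φ : M ⟶ M') :
    F.rHom F' φ * F.rMat = F.rHom F' φ := by
  rw [← F.rHom_id, ← F.rHom_comp F F', Category.id_comp]

theorem rMat_mul_rHom (F : MFrame M n) (F' : MFrame M' n') (φ : M ⟶ M') :
    F'.rMat * F.rHom F' φ = F.rHom F' φ := by
  rw [← F'.rHom_id, ← F.rHom_comp F' F', Category.comp_id]

theorem rMat_rankOne (F : MFrame M n) (h : Scheme.Modules.IsInvertible M) : IsRankOne F.rMat :=
  Datum.IsRankOne.map (gR R).toRingHom (F.isRankOne_mat h)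

theorem exists_iso_of_matrices (F : MFrame M n) (F' : MFrame M' n') (a : Matrix (Fin n') (Fin n) R)
    (b : Matrix (Fin n) (Fin n') R) (hab : a * b = F'.rMat) (hba : b * a = F.rMat) :
    ∃ φ : M ≅ M', F.rHom F' φ.hom = F'.rMat * a * F.rMat ∧
      F'.rHom F φ.inv = F.rMat * b * F'.rMat := by
  have key : ∀ {l m : ℕ} (x : Matrix (Fin l) (Fin m) R), (x.map (gR R).symm).map (gR R) = x :=
    fun x => Matrix.ext fun i j => (gR R).apply_symm_apply _
  have inv : ∀ {l m : ℕ} {x : Matrix (Fin l) (Fin m) Γ(Spec (CommRingCat.of R), ⊤)}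
      {y : Matrix (Fin l) (Fin m) R}, x.map (gR R) = y → y.map (gR R).symm = x :=
    fun h => by subst h; exact Matrix.ext fun i j => (gR R).symm_apply_apply _
  refine ⟨F.isoOfMatrices F' (a.map (gR R).symm) (b.map (gR R).symm) ?_ ?_, ?_, ?_⟩
  · rw [← Matrix.map_mul, hab]; exact inv rfl
  · rw [← Matrix.map_mul, hba]; exact inv rfl
  · show (F.matHom F' (F.homMat F' _)).map (gR R) = _
    rw [matHom_homMat, Matrix.map_mul, Matrix.map_mul, key]
    rfl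
  · show (F'.matHom F (F'.homMat F _)).map (gR R) = _
    rw [matHom_homMat, Matrix.map_mul, Matrix.map_mul, key]
    rfl

end MFrame

theorem exists_mframe_rMat {R : Type u} [CommRing R] {n : ℕ} (e : Matrix (Fin n) (Fin n) R)
    (he : e * e = e) :
    ∃ (M : (Spec (CommRingCat.of R)).Modules) (F : MFrame M n), F.rMat = e := by
  obtain ⟨M, F, hF⟩ := exists_mframe (e.map (gR R).symm) (by rw [← Matrix.map_mul, he])
  exact ⟨M, F, by rw [MFrame.rMat, hF]; exact Matrix.ext fun i j => (gR R).apply_symm_apply _⟩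

theorem MFrame.rMat_ofIso {R : Type u} [CommRing R] {M M' : (Spec (CommRingCat.of R)).Modules}
    {n : ℕ} (F : MFrame M n) (e : M ≅ M') : (F.ofIso e).rMat = F.rMat := by
  rw [MFrame.rMat, MFrame.rMat, MFrame.ofIso_mat]

theorem MFrame.rMat_pull {R S : Type u} [CommRing R] [CommRing S]
    {M : (Spec (CommRingCat.of R)).Modules} {n : ℕ} (F : MFrame M n) (f : R →+* S) :
    (F.pull (specMap f)).rMat = F.rMat.map f := by
  rw [MFrame.rMat, MFrame.rMat, MFrame.pull_mat]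
  exact Matrix.ext fun i j => gR_appTop _ _

theorem MFrame.rMat_pullTo {R S : Type u} [CommRing R] [CommRing S] {X : Scheme.{u}} {M : X.Modules}
    {f : Spec (CommRingCat.of R) ⟶ X} {n : ℕ}
    (F : MFrame ((Scheme.Modules.pullback f).obj M) n) (g : R →+* S)
    (h : Spec (CommRingCat.of S) ⟶ X) (e : specMap g ≫ f = h) :
    (F.pullTo (specMap g) h e).rMat = F.rMat.map g := by
  rw [MFrame.rMat, MFrame.rMat, MFrame.pullTo_mat]
  exact Matrix.ext fun i j => gR_appTop _ _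

theorem MFrame.rHom_pullTo {R S : Type u} [CommRing R] [CommRing S] {X : Scheme.{u}}
    {M M' : X.Modules} {f : Spec (CommRingCat.of R) ⟶ X} {n n' : ℕ}
    (F : MFrame ((Scheme.Modules.pullback f).obj M) n)
    (F' : MFrame ((Scheme.Modules.pullback f).obj M') n') (g : R →+* S)
    (h : Spec (CommRingCat.of S) ⟶ X) (e : specMap g ≫ f = h) (φ : M ⟶ M') :
    (F.pullTo (specMap g) h e).rHom (F'.pullTo (specMap g) h e)
        ((Scheme.Modules.pullback h).map φ) =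
      (F.rHom F' ((Scheme.Modules.pullback f).map φ)).map g := by
  rw [MFrame.rHom, MFrame.rHom, MFrame.matHom_pullTo]
  exact Matrix.ext fun i j => gR_appTop _ _

theorem MFrame.rHom_pullTo_conj {R S : Type u} [CommRing R] [CommRing S] {X : Scheme.{u}}
    {M M' : X.Modules} {f : Spec (CommRingCat.of R) ⟶ X} {n n' : ℕ}
    (F : MFrame ((Scheme.Modules.pullback f).obj M) n)
    (F' : MFrame ((Scheme.Modules.pullback f).obj M') n') (g : R →+* S)
    (h : Spec (CommRingCat.of S) ⟶ X) (e : specMap g ≫ f = h)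
    (φ : (Scheme.Modules.pullback f).obj M ⟶ (Scheme.Modules.pullback f).obj M') :
    (F.pullTo (specMap g) h e).rHom (F'.pullTo (specMap g) h e)
        ((pullIso (specMap g) f h e M).inv ≫ (Scheme.Modules.pullback (specMap g)).map φ ≫
          (pullIso (specMap g) f h e M').hom) =
      (F.rHom F' φ).map g := by
  rw [MFrame.rHom, MFrame.rHom, MFrame.matHom_pullTo_conj]
  exact Matrix.ext fun i j => gR_appTop _ _

/-- A framed module on an affine scheme is trivial when its matrix is a product of vectors. -/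
theorem MFrame.nonempty_iso_unit_iff {R : Type u} [CommRing R]
    {M : (Spec (CommRingCat.of R)).Modules} {n : ℕ} (G : MFrame M n) :
    Nonempty (M ≅ unitMod (Spec (CommRingCat.of R))) ↔
      ∃ a b : Fin n → R, b ⬝ᵥ a = 1 ∧ G.rMat = Matrix.vecMulVec a b := by
  constructor
  · rintro ⟨e⟩
    refine ⟨fun i => gR R (evOne _ (e.inv ≫ G.t i)), fun j => gR R (evOne _ (G.s j ≫ e.hom)), ?_, ?_⟩
    · show ∑ i, gR R (evOne _ (G.s i ≫ e.hom)) * gR R (evOne _ (e.inv ≫ G.t i)) = 1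
      simp only [← map_mul]
      rw [← map_sum, ← map_one (gR R)]
      refine congrArg _ ?_
      simp only [mul_comm (evOne _ (G.s _ ≫ e.hom)), ← evOne_comp]
      rw [← evOne_sum, ← evOne_id]
      refine congrArg _ ?_
      rw [show (∑ l, (e.inv ≫ G.t l) ≫ G.s l ≫ e.hom) = e.inv ≫ (∑ l, G.t l ≫ G.s l) ≫ e.hom by
        rw [Preadditive.sum_comp, Preadditive.comp_sum]; simp [Category.assoc], G.sum_eq]
      simp
    · refine Matrix.ext fun i j => ?_
      show gR R (evOne _ (G.s j ≫ G.t i)) =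
        gR R (evOne _ (e.inv ≫ G.t i)) * gR R (evOne _ (G.s j ≫ e.hom))
      rw [← map_mul, mul_comm, ← evOne_comp]
      simp
  · rintro ⟨a, b, hab, he⟩
    obtain ⟨φ, -⟩ := G.exists_iso_of_matrices (MFrame.unit _) (Matrix.of fun _ j => b j)
      (Matrix.of fun i _ => a i) (by
        rw [MFrame.rMat, MFrame.unit_mat, Matrix.map_one _ (map_zero _) (map_one _)]
        refine Matrix.ext fun i j => ?_
        rw [Subsingleton.elim i j, Matrix.one_apply_eq, Matrix.mul_apply]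
        exact hab) (by
        rw [he]
        refine Matrix.ext fun i j => ?_
        rw [Matrix.mul_apply, Fin.sum_univ_one]
        rfl)
    exact ⟨φ⟩

theorem MFrame.isInvertible_of_rMat {R : Type u} [CommRing R]
    {M : (Spec (CommRingCat.of R)).Modules} {n : ℕ} (H : MFrame M n) (h : IsRankOne H.rMat) :
    Scheme.Modules.IsInvertible M := by
  refine H.isInvertible ?_
  have h' := Datum.IsRankOne.map (gR R).symm.toRingHom h
  convert h'
  exact Matrix.ext fun i j => ((gR R).symm_apply_apply _).symm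

/-- Inverse images of transported frames. -/
theorem MFrame.pullTo_ofIso {W Z Y X : Scheme.{u}} {f' : Z ⟶ Y} {b : Y ⟶ X} {M : X.Modules} {n : ℕ}
    (G : MFrame ((Scheme.Modules.pullback (f' ≫ b)).obj M) n) (g : W ⟶ Z) (k₀ : W ⟶ Y)
    (hk : g ≫ f' = k₀) :
    (G.ofIso (pullIso f' b (f' ≫ b) rfl M).symm).pullTo g k₀ hk =
      (G.pullTo g (k₀ ≫ b) (by rw [← hk, Category.assoc])).ofIso
        (pullIso k₀ b (k₀ ≫ b) rfl M).symm := by
  rw [MFrame.pullTo, MFrame.pullTo, MFrame.ofIso_pull, MFrame.ofIso_ofIso, MFrame.ofIso_ofIso]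
  congr 1
  ext : 1
  simp only [Iso.trans_hom, Functor.mapIso_hom, Iso.symm_hom]
  have h := pullIso_assoc g f' b (f' ≫ b) rfl k₀ hk (k₀ ≫ b) (by rw [← hk, Category.assoc]) M
  rw [← cancel_mono (pullIso k₀ b (k₀ ≫ b) rfl M).hom, Category.assoc, Category.assoc,
    Iso.inv_hom_id, Category.comp_id, ← h, ← Functor.map_comp_assoc, Iso.inv_hom_id,
    CategoryTheory.Functor.map_id, Category.id_comp]

/-- A cover by two affine parts with affine intersection. -/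
structure AffCover (X : Scheme.{u}) (R₁ R₂ R₀ : Type u) [CommRing R₁] [CommRing R₂]
    [CommRing R₀] where
  /-- The first immersion. -/
  f₁ : Spec (CommRingCat.of R₁) ⟶ X
  /-- The second immersion. -/
  f₂ : Spec (CommRingCat.of R₂) ⟶ X
  /-- The immersion of the intersection. -/
  f₀ : Spec (CommRingCat.of R₀) ⟶ X
  /-- The first restriction. -/
  r₁ : R₁ →+* R₀
  /-- The second restriction. -/
  r₂ : R₂ →+* R₀
  open₁ : IsOpenImmersion f₁
  open₂ : IsOpenImmersion f₂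
  open₀ : IsOpenImmersion f₀
  comp₁ : specMap r₁ ≫ f₁ = f₀
  comp₂ : specMap r₂ ≫ f₂ = f₀
  inter : f₁.opensRange ⊓ f₂.opensRange ≤ f₀.opensRange
  cover : f₁.opensRange ⊔ f₂.opensRange = ⊤

namespace AffCover

variable {X : Scheme.{u}} {R₁ R₂ R₀ : Type u} [CommRing R₁] [CommRing R₂] [CommRing R₀]
  (K : AffCover X R₁ R₂ R₀)

/-- The underlying cover. -/
@[reducible] def twoCover : TwoCover X where
  Y₁ := Spec (CommRingCat.of R₁)
  Y₂ := Spec (CommRingCat.of R₂)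
  Y₀ := Spec (CommRingCat.of R₀)
  f₁ := K.f₁
  f₂ := K.f₂
  f₀ := K.f₀
  g₁ := specMap K.r₁
  g₂ := specMap K.r₂
  open₁ := K.open₁
  open₂ := K.open₂
  open₀ := K.open₀
  comp₁ := K.comp₁
  comp₂ := K.comp₂
  inter := K.inter
  cover := K.cover

variable {L L' : X.Modules} {n₁ n₂ m₁ m₂ : ℕ}
  (F₁ : MFrame ((Scheme.Modules.pullback K.f₁).obj L) n₁)
  (F₂ : MFrame ((Scheme.Modules.pullback K.f₂).obj L) n₂)
  (H₁ : MFrame ((Scheme.Modules.pullback K.f₁).obj L') m₁)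
  (H₂ : MFrame ((Scheme.Modules.pullback K.f₂).obj L') m₂)

/-- The first frame on the intersection. -/
def res₁ : MFrame ((Scheme.Modules.pullback K.f₀).obj L) n₁ :=
  F₁.pullTo (specMap K.r₁) K.f₀ K.comp₁

/-- The second frame on the intersection. -/
def res₂ : MFrame ((Scheme.Modules.pullback K.f₀).obj L) n₂ :=
  F₂.pullTo (specMap K.r₂) K.f₀ K.comp₂

/-- The transition matrix. -/
def trans : Matrix (Fin n₂) (Fin n₁) R₀ := (K.res₁ F₁).rHom (K.res₂ F₂) (𝟙 _)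

/-- The inverse transition matrix. -/
def transInv : Matrix (Fin n₁) (Fin n₂) R₀ := (K.res₂ F₂).rHom (K.res₁ F₁) (𝟙 _)

theorem trans_mul_transInv : K.trans F₁ F₂ * K.transInv F₁ F₂ = F₂.rMat.map K.r₂ := by
  rw [trans, transInv, ← MFrame.rHom_comp, Category.comp_id, MFrame.rHom_id, res₂,
    MFrame.rMat_pullTo]

theorem transInv_mul_trans : K.transInv F₁ F₂ * K.trans F₁ F₂ = F₁.rMat.map K.r₁ := by
  rw [trans, transInv, ← MFrame.rHom_comp, Category.comp_id, MFrame.rHom_id, res₁,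
    MFrame.rMat_pullTo]

theorem trans_cut : K.trans F₁ F₂ * F₁.rMat.map K.r₁ = K.trans F₁ F₂ := by
  rw [← MFrame.rMat_pullTo F₁ K.r₁ K.f₀ K.comp₁]
  exact MFrame.rHom_mul_rMat _ _ _

theorem transInv_cut : K.transInv F₁ F₂ * F₂.rMat.map K.r₂ = K.transInv F₁ F₂ := by
  rw [← MFrame.rMat_pullTo F₂ K.r₂ K.f₀ K.comp₂]
  exact MFrame.rHom_mul_rMat _ _ _

theorem trans_compat (φ : L ⟶ L') :
    K.trans H₁ H₂ * (F₁.rHom H₁ ((Scheme.Modules.pullback K.f₁).map φ)).map K.r₁ *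
        F₁.rMat.map K.r₁ =
      (F₂.rHom H₂ ((Scheme.Modules.pullback K.f₂).map φ)).map K.r₂ * K.trans F₁ F₂ := by
  rw [trans, trans, res₁, res₂, res₁, res₂, ← MFrame.rHom_pullTo F₁ H₁ K.r₁ K.f₀ K.comp₁ φ,
    ← MFrame.rHom_pullTo F₂ H₂ K.r₂ K.f₀ K.comp₂ φ, ← MFrame.rMat_pullTo F₁ K.r₁ K.f₀ K.comp₁,
    ← MFrame.rHom_comp, MFrame.rHom_mul_rMat, ← MFrame.rHom_comp, Category.comp_id,
    Category.id_comp]

theorem nonempty_iso (a₁ : Matrix (Fin m₁) (Fin n₁) R₁) (b₁ : Matrix (Fin n₁) (Fin m₁) R₁)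
    (a₂ : Matrix (Fin m₂) (Fin n₂) R₂) (b₂ : Matrix (Fin n₂) (Fin m₂) R₂)
    (hab₁ : a₁ * b₁ = H₁.rMat) (hba₁ : b₁ * a₁ = F₁.rMat)
    (hab₂ : a₂ * b₂ = H₂.rMat) (hba₂ : b₂ * a₂ = F₂.rMat)
    (hc : K.trans H₁ H₂ * a₁.map K.r₁ * F₁.rMat.map K.r₁ = a₂.map K.r₂ * K.trans F₁ F₂) :
    Nonempty (L ≅ L') := by
  obtain ⟨φ₁, h₁, -⟩ := F₁.exists_iso_of_matrices H₁ a₁ b₁ hab₁ hba₁
  obtain ⟨φ₂, h₂, -⟩ := F₂.exists_iso_of_matrices H₂ a₂ b₂ hab₂ hba₂
  have cut : ∀ {R : Type u} [CommRing R] {p q : ℕ} {e : Matrix (Fin p) (Fin p) R}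
      {e' : Matrix (Fin q) (Fin q) R} {a : Matrix (Fin q) (Fin p) R} {b : Matrix (Fin p) (Fin q) R},
      e * e = e → a * b = e' → b * a = e → e' * a * e = a * e :=
    fun {R} _ {p q} {e e' a b} he h1 h2 => by rw [← h1, Matrix.mul_assoc a, h2, Matrix.mul_assoc, he]
  have idem : ∀ {R : Type u} [CommRing R] {M : (Spec (CommRingCat.of R)).Modules} {p : ℕ}
      (G : MFrame M p), G.rMat * G.rMat = G.rMat := fun {R} _ {M p} G => by
    rw [MFrame.rMat, ← Matrix.map_mul, G.mat_idem]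
  rw [cut (idem F₁) hab₁ hba₁] at h₁
  rw [cut (idem F₂) hab₂ hba₂] at h₂
  let ψ₁ := (pullIso (specMap K.r₁) K.f₁ K.f₀ K.comp₁ L).inv ≫
    (Scheme.Modules.pullback (specMap K.r₁)).map φ₁.hom ≫
      (pullIso (specMap K.r₁) K.f₁ K.f₀ K.comp₁ L').hom
  let ψ₂ := (pullIso (specMap K.r₂) K.f₂ K.f₀ K.comp₂ L).inv ≫
    (Scheme.Modules.pullback (specMap K.r₂)).map φ₂.hom ≫
      (pullIso (specMap K.r₂) K.f₂ K.f₀ K.comp₂ L').hom
  have e1 : (K.res₁ F₁).rHom (K.res₂ H₂) (ψ₁ ≫ 𝟙 _) =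
      K.trans H₁ H₂ * (F₁.rHom H₁ φ₁.hom).map K.r₁ := by
    rw [MFrame.rHom_comp _ (K.res₁ H₁), ← MFrame.rHom_pullTo_conj F₁ H₁ K.r₁ K.f₀ K.comp₁]
    rfl
  have e2 : (K.res₁ F₁).rHom (K.res₂ H₂) (𝟙 _ ≫ ψ₂) =
      (F₂.rHom H₂ φ₂.hom).map K.r₂ * K.trans F₁ F₂ := by
    rw [MFrame.rHom_comp _ (K.res₂ F₂), ← MFrame.rHom_pullTo_conj F₂ H₂ K.r₂ K.f₀ K.comp₂]
    rfl
  rw [Category.comp_id, h₁, Matrix.map_mul, ← Matrix.mul_assoc, hc] at e1
  rw [Category.id_comp, h₂, Matrix.map_mul, Matrix.mul_assoc,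
    show F₂.rMat.map K.r₂ * K.trans F₁ F₂ = K.trans F₁ F₂ by
      rw [← K.trans_mul_transInv F₁ F₂, Matrix.mul_assoc, K.transInv_mul_trans, K.trans_cut]] at e2
  have hψ : ψ₁ = ψ₂ := (K.res₁ F₁).rHom_injective (K.res₂ H₂) (e1.trans e2.symm)
  refine K.twoCover.nonempty_iso φ₁ φ₂ ψ₁ ?_ ?_
  · exact Iso.hom_inv_id_assoc _ _
  · rw [hψ]
    exact Iso.hom_inv_id_assoc _ _

theorem exists_of_matrices (e₁ : Matrix (Fin n₁) (Fin n₁) R₁) (e₂ : Matrix (Fin n₂) (Fin n₂) R₂)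
    (t : Matrix (Fin n₂) (Fin n₁) R₀) (t' : Matrix (Fin n₁) (Fin n₂) R₀)
    (he₁ : IsRankOne e₁) (he₂ : IsRankOne e₂) (htt : t * t' = e₂.map K.r₂)
    (htt' : t' * t = e₁.map K.r₁) (hcut : t * e₁.map K.r₁ = t) (hcut' : t' * e₂.map K.r₂ = t') :
    ∃ (M : X.Modules) (_ : Scheme.Modules.IsInvertible M)
      (G₁ : MFrame ((Scheme.Modules.pullback K.f₁).obj M) n₁)
      (G₂ : MFrame ((Scheme.Modules.pullback K.f₂).obj M) n₂),
      G₁.rMat = e₁ ∧ G₂.rMat = e₂ ∧ K.trans G₁ G₂ = t ∧ K.transInv G₁ G₂ = t' := by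
  obtain ⟨L₁, P₁, hP₁⟩ := exists_mframe_rMat e₁ he₁.idem
  obtain ⟨L₂, P₂, hP₂⟩ := exists_mframe_rMat e₂ he₂.idem
  have hp₁ : (P₁.pull (specMap K.r₁)).rMat = e₁.map K.r₁ := by rw [MFrame.rMat_pull, hP₁]
  have hp₂ : (P₂.pull (specMap K.r₂)).rMat = e₂.map K.r₂ := by rw [MFrame.rMat_pull, hP₂]
  obtain ⟨θ, hθ, hθi⟩ := (P₁.pull (specMap K.r₁)).exists_iso_of_matrices
    (P₂.pull (specMap K.r₂)) t t' (htt.trans hp₂.symm) (htt'.trans hp₁.symm)
  have hgl : ∃ (M : X.Modules) (c₁ : (Scheme.Modules.pullback K.f₁).obj M ≅ L₁)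
      (c₂ : (Scheme.Modules.pullback K.f₂).obj M ≅ L₂),
      (Scheme.Modules.pullback (specMap K.r₁)).map c₁.hom ≫ θ.hom =
        (pullIso (specMap K.r₁) K.f₁ K.f₀ K.comp₁ M).hom ≫
          (pullIso (specMap K.r₂) K.f₂ K.f₀ K.comp₂ M).inv ≫
            (Scheme.Modules.pullback (specMap K.r₂)).map c₂.hom :=
    K.twoCover.exists_glued L₁ L₂ θ
  obtain ⟨M, c₁, c₂, he⟩ := hgl
  let I := pullIso (specMap K.r₁) K.f₁ K.f₀ K.comp₁ M
  let J := pullIso (specMap K.r₂) K.f₂ K.f₀ K.comp₂ M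
  let p₁ := (Scheme.Modules.pullback (specMap K.r₁)).mapIso c₁.symm ≪≫ I
  let p₂ := (Scheme.Modules.pullback (specMap K.r₂)).mapIso c₂.symm ≪≫ J
  have hG₁ : K.res₁ (P₁.ofIso c₁.symm) = (P₁.pull (specMap K.r₁)).ofIso p₁ := by
    rw [res₁, MFrame.pullTo, MFrame.ofIso_pull, MFrame.ofIso_ofIso]
  have hG₂ : K.res₂ (P₂.ofIso c₂.symm) = (P₂.pull (specMap K.r₂)).ofIso p₂ := by
    rw [res₂, MFrame.pullTo, MFrame.ofIso_pull, MFrame.ofIso_ofIso]
  have he' : p₁.hom ≫ 𝟙 _ ≫ p₂.inv = θ.hom := by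
    simp only [p₁, p₂, I, J, Category.id_comp, Iso.trans_hom, Iso.trans_inv, Functor.mapIso_hom,
      Functor.mapIso_inv, Iso.symm_hom, Iso.symm_inv, Category.assoc]
    rw [← he]
    exact ((Scheme.Modules.pullback (specMap K.r₁)).mapIso c₁).inv_hom_id_assoc θ.hom
  have he'' : p₂.hom ≫ 𝟙 _ ≫ p₁.inv = θ.inv := by
    rw [← cancel_epi θ.hom, θ.hom_inv_id, ← he']
    simp
  refine ⟨M, K.twoCover.isInvertible ((P₁.ofIso c₁.symm).isInvertible_of_rMat ?_)
    ((P₂.ofIso c₂.symm).isInvertible_of_rMat ?_), P₁.ofIso c₁.symm, P₂.ofIso c₂.symm,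
    (MFrame.rMat_ofIso P₁ c₁.symm).trans hP₁, (MFrame.rMat_ofIso P₂ c₂.symm).trans hP₂, ?_, ?_⟩
  · rw [MFrame.rMat_ofIso, hP₁]; exact he₁
  · rw [MFrame.rMat_ofIso, hP₂]; exact he₂
  · rw [trans, hG₁, hG₂, MFrame.rHom, MFrame.matHom_ofIso, he']
    show MFrame.rHom _ _ _ = _
    rw [hθ, hp₁, hp₂, Matrix.mul_assoc, hcut, ← htt, Matrix.mul_assoc, htt', hcut]
  · rw [transInv, hG₁, hG₂, MFrame.rHom, MFrame.matHom_ofIso, he'']
    show MFrame.rHom _ _ _ = _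
    rw [hθi, hp₁, hp₂, Matrix.mul_assoc, hcut', ← htt', Matrix.mul_assoc, htt, hcut']

theorem trans_unit :
    K.trans ((MFrame.unit X).pull K.f₁) ((MFrame.unit X).pull K.f₂) = 1 ∧
      K.transInv ((MFrame.unit X).pull K.f₁) ((MFrame.unit X).pull K.f₂) = 1 := by
  have h : ((MFrame.unit X).pull K.f₀).rMat = 1 := by
    rw [MFrame.rMat, MFrame.pull_mat, MFrame.unit_mat, Matrix.map_one _ (map_zero _) (map_one _),
      Matrix.map_one _ (map_zero _) (map_one _)]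
  rw [trans, transInv, res₁, res₂, MFrame.pullTo_pull, MFrame.pullTo_pull, MFrame.rHom_id]
  exact ⟨h, h⟩

theorem unit_rMat {R : Type u} [CommRing R] (f : Spec (CommRingCat.of R) ⟶ X) :
    ((MFrame.unit X).pull f).rMat = 1 := by
  rw [MFrame.rMat, MFrame.pull_mat, MFrame.unit_mat, Matrix.map_one _ (map_zero _) (map_one _),
    Matrix.map_one _ (map_zero _) (map_one _)]

section Map

variable {X' : Scheme.{u}} {S₁ S₂ S₀ : Type u} [CommRing S₁] [CommRing S₂] [CommRing S₀]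
  (K' : AffCover X' S₁ S₂ S₀) (b : X' ⟶ X) (ψ₁ : R₁ →+* S₁) (ψ₂ : R₂ →+* S₂) (ψ₀ : R₀ →+* S₀)
  (sq₁ : specMap ψ₁ ≫ K.f₁ = K'.f₁ ≫ b) (sq₂ : specMap ψ₂ ≫ K.f₂ = K'.f₂ ≫ b)
  (sq₀ : specMap ψ₀ ≫ K.f₀ = K'.f₀ ≫ b)
  (hr₁ : ψ₀.comp K.r₁ = K'.r₁.comp ψ₁) (hr₂ : ψ₀.comp K.r₂ = K'.r₂.comp ψ₂)

/-- The inverse image of a frame. -/
def mapFrame {R S : Type u} [CommRing R] [CommRing S] {f : Spec (CommRingCat.of R) ⟶ X}
    {f' : Spec (CommRingCat.of S) ⟶ X'} (ψ : R →+* S) (sq : specMap ψ ≫ f = f' ≫ b) {n : ℕ}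
    (G : MFrame ((Scheme.Modules.pullback f).obj L) n) :
    MFrame ((Scheme.Modules.pullback f').obj ((Scheme.Modules.pullback b).obj L)) n :=
  (G.pullTo (specMap ψ) (f' ≫ b) sq).ofIso (pullIso f' b (f' ≫ b) rfl L).symm

theorem mapFrame_rMat {R S : Type u} [CommRing R] [CommRing S] {f : Spec (CommRingCat.of R) ⟶ X}
    {f' : Spec (CommRingCat.of S) ⟶ X'} (ψ : R →+* S) (sq : specMap ψ ≫ f = f' ≫ b) {n : ℕ}
    (G : MFrame ((Scheme.Modules.pullback f).obj L) n) :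
    (mapFrame b ψ sq G).rMat = G.rMat.map ψ := by
  rw [mapFrame, MFrame.rMat_ofIso, MFrame.rMat_pullTo]

theorem mapFrame_pullTo {R S T T' : Type u} [CommRing R] [CommRing S] [CommRing T] [CommRing T']
    {f : Spec (CommRingCat.of R) ⟶ X} {f' : Spec (CommRingCat.of S) ⟶ X'}
    {g : Spec (CommRingCat.of T) ⟶ X} {g' : Spec (CommRingCat.of T') ⟶ X'}
    (ψ : R →+* S) (sq : specMap ψ ≫ f = f' ≫ b) (χ : T →+* T') (sq' : specMap χ ≫ g = g' ≫ b)
    (r : R →+* T) (er : specMap r ≫ f = g) (r' : S →+* T') (er' : specMap r' ≫ f' = g')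
    (hr : χ.comp r = r'.comp ψ) {n : ℕ} (G : MFrame ((Scheme.Modules.pullback f).obj L) n) :
    (mapFrame b ψ sq G).pullTo (specMap r') g' er' =
      mapFrame b χ sq' (G.pullTo (specMap r) g er) := by
  rw [mapFrame, mapFrame, MFrame.pullTo_ofIso, MFrame.pullTo_pullTo, MFrame.pullTo_pullTo]
  have e : specMap r' ≫ specMap ψ = specMap χ ≫ specMap r := by
    rw [specMap_comp, specMap_comp, hr]
  simp only [e]

include sq₀ hr₁ hr₂ in
theorem trans_mapFrame :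
    K'.trans (mapFrame b ψ₁ sq₁ F₁) (mapFrame b ψ₂ sq₂ F₂) = (K.trans F₁ F₂).map ψ₀ ∧
      K'.transInv (mapFrame b ψ₁ sq₁ F₁) (mapFrame b ψ₂ sq₂ F₂) =
        (K.transInv F₁ F₂).map ψ₀ := by
  have h1 : K'.res₁ (mapFrame b ψ₁ sq₁ F₁) = mapFrame b ψ₀ sq₀ (K.res₁ F₁) :=
    mapFrame_pullTo b ψ₁ sq₁ ψ₀ sq₀ K.r₁ K.comp₁ K'.r₁ K'.comp₁ hr₁ F₁
  have h2 : K'.res₂ (mapFrame b ψ₂ sq₂ F₂) = mapFrame b ψ₀ sq₀ (K.res₂ F₂) :=
    mapFrame_pullTo b ψ₂ sq₂ ψ₀ sq₀ K.r₂ K.comp₂ K'.r₂ K'.comp₂ hr₂ F₂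
  have hh : ∀ {n n' : ℕ} (G : MFrame ((Scheme.Modules.pullback K.f₀).obj L) n)
      (G' : MFrame ((Scheme.Modules.pullback K.f₀).obj L) n'),
      (mapFrame b ψ₀ sq₀ G).rHom (mapFrame (f' := K'.f₀) b ψ₀ sq₀ G') (𝟙 _) =
        (G.rHom G' (𝟙 _)).map ψ₀ := fun G G' => by
    rw [mapFrame, mapFrame, MFrame.rHom, MFrame.matHom_ofIso, Category.id_comp]
    show MFrame.rHom _ _ _ = _
    rw [Iso.symm_hom, Iso.symm_inv, Iso.inv_hom_id, ← CategoryTheory.Functor.map_id,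
      MFrame.rHom_pullTo, CategoryTheory.Functor.map_id]
  rw [trans, transInv, h1, h2]
  exact ⟨hh _ _, hh _ _⟩

end Map

end AffCover

end FLTAgent.PicScheme

end
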