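import Fermat.Agent.PicScheme.Modules.Open

/-!
# Modules trivialised along a section

For `f : X ⟶ T` with a section `σ`, a trivialisation along `σ` of a module on a part of `X` is a
map to the direct image of the functions of `T` with unit values. Where the functions on the
preimage are functions on the base, isomorphisms respecting trivialisations are unique, and every
isomorphism can be scaled to respect them.
-/

set_option autoImplicit false

noncomputable section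

universe u

open CategoryTheory CategoryTheory.Limits AlgebraicGeometry TopologicalSpace

namespace FLTAgent.PicScheme

variable {X T : Scheme.{u}}

/-- Restriction of functions. -/
def fres (X : Scheme.{u}) {V W : X.Opens} (h : V ≤ W) : Γ(X, W) →+* Γ(X, V) :=
  (X.presheaf.map (homOfLE h).op).hom

theorem fres_fres (X : Scheme.{u}) {V W Z : X.Opens} (h : V ≤ W) (h' : W ≤ Z) (r : Γ(X, Z)) :
    fres X h (fres X h' r) = fres X (h.trans h') r :=
  map_res X h h' r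

theorem fres_self (X : Scheme.{u}) {V : X.Opens} (r : Γ(X, V)) : fres X le_rfl r = r := by
  rw [fres, show (homOfLE (le_refl V)).op = 𝟙 _ from Subsingleton.elim _ _, X.presheaf.map_id]
  rfl

theorem app_fres (σ : T ⟶ X) {V W : X.Opens} (h : V ≤ W) (r : Γ(X, W)) :
    σ.app V (fres X h r) = fres T (σ.preimage_mono h) (σ.app W r) :=
  ConcreteCategory.congr_hom (σ.naturality (homOfLE h).op) r

theorem mres_smul' (M : X.Modules) {V W : X.Opens} (h : V ≤ W) (r : Γ(X, W)) (x : Γ(M, W)) :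
    mres M h (r • x) = fres X h r • mres M h x :=
  mres_smul M h r x

theorem fun_ext {ι : Type u} {U : ι → X.Opens} {V : X.Opens} (hUV : ∀ i, U i ≤ V)
    (hV : V ≤ iSup U) {a b : Γ(X, V)} (h : ∀ i, fres X (hUV i) a = fres X (hUV i) b) : a = b :=
  X.sheaf.eq_of_locally_eq' U V (fun i => homOfLE (hUV i)) hV a b h

theorem fun_glue {ι : Type u} {U : ι → X.Opens} {V : X.Opens} (hUV : ∀ i, U i ≤ V)
    (hV : V ≤ iSup U) (s : ∀ i, Γ(X, U i))
    (h : ∀ i j, fres X (inf_le_left : U i ⊓ U j ≤ U i) (s i) =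
      fres X (inf_le_right : U i ⊓ U j ≤ U j) (s j)) :
    ∃ a : Γ(X, V), ∀ i, fres X (hUV i) a = s i := by
  obtain ⟨a, ha, -⟩ := X.sheaf.existsUnique_gluing' U V (fun i => homOfLE (hUV i)) hV s h
  exact ⟨a, ha⟩

/-- The generator of a part where a module is trivial. -/
def gen {V : X.Opens} {M : X.Modules} (e : IsoOn V (unitMod X) M) {V' : X.Opens} (h : V' ≤ V) :
    Γ(M, V') :=
  e.hom.app V' h (uIn X V' 1)

theorem mres_gen {V : X.Opens} {M : X.Modules} (e : IsoOn V (unitMod X) M) {V' V'' : X.Opens}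
    (h' : V'' ≤ V') (h : V' ≤ V) : mres M h' (gen e h) = gen e (h'.trans h) := by
  rw [gen, e.hom.natural h' h]
  exact congrArg (e.hom.app V'' _) (map_one (X.presheaf.map (homOfLE h').op).hom)

theorem exists_smul_gen {V : X.Opens} {M : X.Modules} (e : IsoOn V (unitMod X) M) {V' : X.Opens}
    (h : V' ≤ V) (y : Γ(M, V')) : ∃ c : Γ(X, V'), y = c • gen e h := by
  refine ⟨uOut X V' (e.inv.app V' h y), ?_⟩
  rw [gen, ← map_smul]
  refine (e.inv_hom h y).symm.trans (congrArg (e.hom.app V' h) ?_)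
  exact (mul_one (uOut X V' (e.inv.app V' h y))).symm

theorem smul_gen_inj {V : X.Opens} {M : X.Modules} (e : IsoOn V (unitMod X) M) {V' : X.Opens}
    (h : V' ≤ V) {c d : Γ(X, V')} (hcd : c • gen e h = d • gen e h) : c = d := by
  have h1 := congrArg (e.inv.app V' h) hcd
  rw [map_smul, map_smul, gen, e.hom_inv] at h1
  exact (mul_one c).symm.trans (h1.trans (mul_one d))

/-- Invertibility on a part. -/
def InvOn (W : X.Opens) (M : X.Modules) : Prop :=
  ∀ x, x ∈ W → ∃ U : X.Opens, x ∈ U ∧ Nonempty (IsoOn U (unitMod X) M)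

theorem invOn_of_isInvertible {M : X.Modules} (h : Scheme.Modules.IsInvertible M) (W : X.Opens) :
    InvOn W M :=
  fun x _ => isInvertible_iff_isoOn.1 h x

/-- Endomorphisms of an invertible module on a part are scalars. -/
theorem exists_scalar {W : X.Opens} {L : X.Modules} (hL : InvOn W L)
    (g : HomOn W L L) :
    ∃ r : Γ(X, W), ∀ (V : X.Opens) (hV : V ≤ W) (y : Γ(L, V)),
      g.app V hV y = fres X hV r • y := by
  choose U hxU he using fun x : {x // x ∈ W} => hL x.1 x.2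
  let e := fun x => (he x).some
  have hcov : W ≤ iSup fun x => W ⊓ U x := fun x hx => Opens.mem_iSup.2 ⟨⟨x, hx⟩, hx, hxU ⟨x, hx⟩⟩
  choose c hc using fun x => exists_smul_gen (e x) (inf_le_right : W ⊓ U x ≤ U x)
    (g.app (W ⊓ U x) inf_le_left (gen (e x) inf_le_right))
  have key : ∀ (x : {x // x ∈ W}) (V : X.Opens) (hV : V ≤ W ⊓ U x) (y : Γ(L, V)),
      g.app V (hV.trans inf_le_left) y = fres X hV (c x) • y := fun x V hV y => by
    obtain ⟨d, rfl⟩ := exists_smul_gen (e x) (hV.trans inf_le_right) y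
    rw [map_smul, ← mres_gen (e x) hV inf_le_right, ← g.natural hV inf_le_left, hc x, mres_smul',
      mres_gen (e x) hV inf_le_right, smul_smul, smul_smul, mul_comm]
  obtain ⟨r, hr⟩ := fun_glue (fun x => (inf_le_left : W ⊓ U x ≤ W)) hcov c fun i j => by
    refine smul_gen_inj (e i) (inf_le_left.trans inf_le_right) ?_
    rw [← key i _ inf_le_left, ← key j _ inf_le_right]
  refine ⟨r, fun V hV y => eq_of_mres L (U := fun x => V ⊓ U x) (fun x => inf_le_left)
    (fun x hx => Opens.mem_iSup.2 ⟨⟨x, hV hx⟩, hx, hxU ⟨x, hV hx⟩⟩) fun x => ?_⟩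
  rw [g.natural, mres_smul', key x _ (le_inf (inf_le_left.trans hV) inf_le_right), ← hr x,
    fres_fres, fres_fres]

section Trv

variable {σ : T ⟶ X}

/-- A map to the functions along `σ`. -/
abbrev Trv (σ : T ⟶ X) (W : X.Opens) (N : X.Modules) :=
  HomOn W N ((Scheme.Modules.pushforward σ).obj (unitMod T))

namespace Trv

variable {W : X.Opens} {N : X.Modules}

/-- The value of a section. -/
def val (η : Trv σ W N) (V : X.Opens) (hV : V ≤ W) (y : Γ(N, V)) : Γ(T, σ ⁻¹ᵁ V) :=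
  uOut T _ (η.app V hV y)

theorem val_smul (η : Trv σ W N) {V : X.Opens} (hV : V ≤ W) (r : Γ(X, V)) (y : Γ(N, V)) :
    η.val V hV (r • y) = σ.app V r * η.val V hV y :=
  congrArg (uOut T _) (map_smul (η.app V hV) r y)

theorem val_mres (η : Trv σ W N) {V' V : X.Opens} (h : V' ≤ V) (hV : V ≤ W) (y : Γ(N, V)) :
    η.val V' (h.trans hV) (mres N h y) = fres T (σ.preimage_mono h) (η.val V hV y) :=
  (congrArg (uOut T _) (η.natural h hV y)).symm

/-- Unit values near every point. -/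
def NonDeg (η : Trv σ W N) : Prop :=
  ∀ x : T, σ x ∈ W → ∃ (V : X.Opens) (hV : V ≤ W) (y : Γ(N, V)),
    σ x ∈ V ∧ IsUnit (η.val V hV y)

theorem NonDeg.res {η : Trv σ W N} (h : η.NonDeg) {W' : X.Opens} (hW : W' ≤ W) :
    Trv.NonDeg (σ := σ) (η.res hW) := fun x hx => by
  obtain ⟨V, hV, y, hxV, hy⟩ := h x (hW hx)
  refine ⟨V ⊓ W', inf_le_right, mres N inf_le_left y, ⟨hxV, hx⟩, ?_⟩
  show IsUnit (η.val _ _ (mres N inf_le_left y))
  rw [η.val_mres inf_le_left hV]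
  exact hy.map _

theorem NonDeg.comp {M : X.Modules} {η : Trv σ W N} (h : η.NonDeg) (ψ : IsoOn W M N) :
    Trv.NonDeg (σ := σ) (ψ.hom.comp η) := fun x hx => by
  obtain ⟨V, hV, y, hxV, hy⟩ := h x hx
  refine ⟨V, hV, ψ.inv.app V hV y, hxV, ?_⟩
  show IsUnit (η.val V hV (ψ.hom.app V hV (ψ.inv.app V hV y)))
  rwa [ψ.inv_hom]

/-- The value of a generator is a unit near each point. -/
theorem NonDeg.exists_unit_gen {η : Trv σ W N} (h : η.NonDeg) {V : X.Opens}
    (e : IsoOn V (unitMod X) N) (hV : V ≤ W) {x : T} (hx : σ x ∈ V) :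
    ∃ (V' : X.Opens) (hV' : V' ≤ V), σ x ∈ V' ∧
      IsUnit (η.val V' (hV'.trans hV) (gen e hV')) := by
  obtain ⟨V₀, hV₀, y, hxV, hy⟩ := h x (hV hx)
  refine ⟨V ⊓ V₀, inf_le_left, ⟨hx, hxV⟩, ?_⟩
  obtain ⟨c, hc⟩ := exists_smul_gen e (inf_le_left : V ⊓ V₀ ≤ V) (mres N inf_le_right y)
  have h1 : IsUnit (η.val (V ⊓ V₀) (inf_le_left.trans hV) (mres N inf_le_right y)) := by
    rw [η.val_mres (inf_le_right : V ⊓ V₀ ≤ V₀) hV₀]
    exact hy.map _
  rw [hc, val_smul] at h1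
  exact isUnit_of_mul_isUnit_right h1

/-- Two trivialisations of an invertible module differ by a function. -/
theorem exists_factor {η η' : Trv σ W N} (hN : InvOn W N) (h : η.NonDeg)
    (h' : η'.NonDeg) :
    ∃ a : Γ(T, σ ⁻¹ᵁ W), ∀ (V : X.Opens) (hV : V ≤ W) (y : Γ(N, V)),
      fres T (σ.preimage_mono hV) a * η'.val V hV y = η.val V hV y := by
  let I := {x : T // σ x ∈ W}
  choose U hxU he using fun i : I => hN (σ i.1) i.2
  let e : ∀ i : I, IsoOn (U i ⊓ W) (unitMod X) N := fun i => (he i).some.res inf_le_left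
  choose P hP hxP hu using fun i : I =>
    h.exists_unit_gen (e i) inf_le_right (x := i.1) ⟨hxU i, i.2⟩
  choose Q hQ hxQ hu' using fun i : I =>
    h'.exists_unit_gen (e i) inf_le_right (x := i.1) ⟨hxU i, i.2⟩
  let O : I → X.Opens := fun i => P i ⊓ Q i
  have hO : ∀ i, O i ≤ U i ⊓ W := fun i => inf_le_left.trans (hP i)
  have hOW : ∀ i, O i ≤ W := fun i => (hO i).trans inf_le_right
  have v : ∀ i (V : X.Opens) (hV : V ≤ O i), IsUnit (η'.val V (hV.trans (hOW i)) (gen (e i) (hV.trans (hO i)))) :=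
    fun i V hV => by
      rw [← mres_gen (e i) (hV.trans inf_le_right : V ≤ Q i) (hQ i),
        η'.val_mres _ ((hQ i).trans inf_le_right)]
      exact (hu' i).map _
  let a : ∀ i, Γ(T, σ ⁻¹ᵁ O i) := fun i =>
    η.val (O i) (hOW i) (gen (e i) (hO i)) * ↑(v i (O i) le_rfl).unit⁻¹
  have key : ∀ i (V : X.Opens) (hV : V ≤ O i) (y : Γ(N, V)),
      fres T (σ.preimage_mono hV) (a i) * η'.val V (hV.trans (hOW i)) y =
        η.val V (hV.trans (hOW i)) y := fun i V hV y => by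
    obtain ⟨c, rfl⟩ := exists_smul_gen (e i) (hV.trans (hO i)) y
    rw [val_smul, val_smul, ← mres_gen (e i) hV (hO i), η.val_mres hV (hOW i),
      η'.val_mres hV (hOW i), mul_left_comm, ← map_mul]
    congr 2
    rw [mul_assoc, IsUnit.val_inv_mul, mul_one]
  have hcov : σ ⁻¹ᵁ W ≤ iSup fun i => σ ⁻¹ᵁ O i := fun x hx =>
    Opens.mem_iSup.2 ⟨⟨x, hx⟩, hxP _, hxQ _⟩
  obtain ⟨r, hr⟩ := fun_glue (fun i => σ.preimage_mono (hOW i)) hcov a fun i j => by
    have h1 := key i (O i ⊓ O j) inf_le_left (gen (e i) (inf_le_left.trans (hO i)))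
    have h2 := key j (O i ⊓ O j) inf_le_right (gen (e i) (inf_le_left.trans (hO i)))
    exact (v i (O i ⊓ O j) inf_le_left).mul_left_inj.1 (h1.trans h2.symm)
  refine ⟨r, fun V hV y => fun_ext (U := fun i : I => σ ⁻¹ᵁ (V ⊓ O i))
    (fun i => σ.preimage_mono inf_le_left) (fun x hx => Opens.mem_iSup.2 ⟨⟨x, hV hx⟩, hx, hxP _, hxQ _⟩)
    fun i => ?_⟩
  rw [map_mul, fres_fres, ← η.val_mres (inf_le_left : V ⊓ O i ≤ V) hV,
    ← η'.val_mres (inf_le_left : V ⊓ O i ≤ V) hV, ← key i _ inf_le_right, ← hr i, fres_fres]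

theorem NonDeg.fun_eq {η : Trv σ W N} (h : η.NonDeg) {a b : Γ(T, σ ⁻¹ᵁ W)}
    (hab : ∀ (V : X.Opens) (hV : V ≤ W) (y : Γ(N, V)),
      fres T (σ.preimage_mono hV) a * η.val V hV y = fres T (σ.preimage_mono hV) b * η.val V hV y) :
    a = b := by
  choose V hV y hxV hy using fun i : {x : T // σ x ∈ W} => h i.1 i.2
  refine fun_ext (U := fun i => σ ⁻¹ᵁ V i) (fun i => σ.preimage_mono (hV i))
    (fun x hx => Opens.mem_iSup.2 ⟨⟨x, hx⟩, hxV _⟩) fun i => ?_
  exact (hy i).mul_left_inj.1 (hab _ (hV i) (y i))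

end Trv

variable {f : X ⟶ T} (hσ : σ ≫ f = 𝟙 T)

include hσ in
theorem preimage_section (U : T.Opens) : σ ⁻¹ᵁ (f ⁻¹ᵁ U) = U := by
  show (σ ≫ f) ⁻¹ᵁ U = U
  rw [hσ]
  rfl

include hσ in
theorem app_section (U : T.Opens) {V : X.Opens} (hV : V ≤ f ⁻¹ᵁ U) (a : Γ(T, U)) :
    σ.app V (fres X hV (f.app U a)) =
      fres T ((σ.preimage_mono hV).trans (preimage_section hσ U).le) a := by
  have h1 : ∀ (g : T ⟶ T) (_ : g = 𝟙 T) (V' : T.Opens) (h : V' ≤ g ⁻¹ᵁ U) (h' : V' ≤ U),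
      fres T h (g.app U a) = fres T h' a := by
    rintro g rfl V' h h'
    rfl
  rw [app_fres]
  exact h1 (σ ≫ f) hσ _ _ _

/-- **Isomorphisms respecting trivialisations are unique.** -/
theorem rigid_unique {U : T.Opens} (hsurj : Function.Surjective (f.app U)) {L L' : X.Modules}
    (hL' : InvOn (f ⁻¹ᵁ U) L') (η : Trv σ (f ⁻¹ᵁ U) L) {η' : Trv σ (f ⁻¹ᵁ U) L'}
    (h' : η'.NonDeg) (ψ ψ' : IsoOn (f ⁻¹ᵁ U) L L')
    (hψ : ∀ V hV y, η'.val V hV (ψ.hom.app V hV y) = η.val V hV y)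
    (hψ' : ∀ V hV y, η'.val V hV (ψ'.hom.app V hV y) = η.val V hV y)
    (hσ : σ ≫ f = 𝟙 T) {V : X.Opens} (hV : V ≤ f ⁻¹ᵁ U) (x : Γ(L, V)) :
    ψ.hom.app V hV x = ψ'.hom.app V hV x := by
  obtain ⟨r, hr⟩ := exists_scalar hL' (ψ.inv.comp ψ'.hom)
  obtain ⟨a, rfl⟩ := hsurj r
  have ha : a = 1 := by
    have h0 : fres T (preimage_section hσ U).le a = fres T (preimage_section hσ U).le 1 :=
      h'.fun_eq fun V hV y => by
        rw [fres_fres, fres_fres, map_one, one_mul, ← app_section hσ U hV, ← Trv.val_smul, ← hr V hV y,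
          HomOn.comp_app, hψ', ← hψ, ψ.inv_hom]
    have h1 := congrArg (fres T (preimage_section hσ U).ge) h0
    rwa [fres_fres, fres_fres, fres_self, map_one] at h1
  have h2 := hr V hV (ψ.hom.app V hV x)
  rw [ha, map_one, map_one, one_smul, HomOn.comp_app, ψ.hom_inv] at h2
  exact h2.symm

/-- A multiple of an isomorphism on a part. -/
def IsoOn.smulUnit {W : X.Opens} {L L' : X.Modules} (ψ : IsoOn W L L') (r s : Γ(X, W))
    (hrs : r * s = 1) : IsoOn W L L' where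
  hom :=
    { app := fun V hV => fres X hV r • ψ.hom.app V hV
      natural := fun {V V'} h hV y => by
        show mres L' h (fres X hV r • ψ.hom.app V' hV y) = fres X (h.trans hV) r • ψ.hom.app V (h.trans hV) (mres L h y)
        rw [mres_smul', fres_fres, ψ.hom.natural] }
  inv :=
    { app := fun V hV => fres X hV s • ψ.inv.app V hV
      natural := fun {V V'} h hV y => by
        show mres L h (fres X hV s • ψ.inv.app V' hV y) = fres X (h.trans hV) s • ψ.inv.app V (h.trans hV) (mres L' h y)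
        rw [mres_smul', fres_fres, ψ.inv.natural] }
  hom_inv {V} hV y := by
    show fres X hV s • ψ.inv.app V hV (fres X hV r • ψ.hom.app V hV y) = y
    rw [map_smul, ψ.hom_inv, smul_smul, ← map_mul, mul_comm, hrs, map_one, one_smul]
  inv_hom {V} hV y := by
    show fres X hV r • ψ.hom.app V hV (fres X hV s • ψ.inv.app V hV y) = y
    rw [map_smul, ψ.inv_hom, smul_smul, ← map_mul, hrs, map_one, one_smul]

include hσ in
/-- **Every isomorphism can be scaled to respect trivialisations.** -/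
theorem exists_rigid {U : T.Opens} {L L' : X.Modules} (hL : InvOn (f ⁻¹ᵁ U) L)
    {η : Trv σ (f ⁻¹ᵁ U) L} (h : η.NonDeg) {η' : Trv σ (f ⁻¹ᵁ U) L'} (h' : η'.NonDeg)
    (ψ : IsoOn (f ⁻¹ᵁ U) L L') :
    ∃ ψ' : IsoOn (f ⁻¹ᵁ U) L L', ∀ V hV y, η'.val V hV (ψ'.hom.app V hV y) = η.val V hV y := by
  obtain ⟨a, ha⟩ := Trv.exists_factor hL h (h'.comp ψ)
  obtain ⟨b, hb⟩ := Trv.exists_factor hL (h'.comp ψ) h
  have hab : a * b = 1 := h.fun_eq fun V hV y => by
    rw [map_mul, mul_assoc, hb, ha, map_one, one_mul]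
  let r := f.app U (fres T (preimage_section hσ U).ge a)
  let s := f.app U (fres T (preimage_section hσ U).ge b)
  refine ⟨ψ.smulUnit r s (by rw [← map_mul, ← map_mul, hab, map_one, map_one]), fun V hV y => ?_⟩
  show η'.val V hV (fres X hV r • ψ.hom.app V hV y) = _
  rw [Trv.val_smul, app_section hσ U hV, fres_fres, ← ha V hV y]
  rfl

/-- The trivialisation of a rigidification. -/
def trvOf (σ : T ⟶ X) {L : X.Modules} (r : (Scheme.Modules.pullback σ).obj L ≅ unitMod T) :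
    Trv σ ⊤ L :=
  HomOn.ofHom ⊤ ((Scheme.Modules.pullbackPushforwardAdjunction σ).homEquiv _ _ r.hom)

theorem trvOf_val {L : X.Modules} (r : (Scheme.Modules.pullback σ).obj L ≅ unitMod T)
    {V : X.Opens} (hV : V ≤ ⊤) (y : Γ(L, V)) :
    (trvOf σ r).val V hV y = uOut T _ (r.hom.app (σ ⁻¹ᵁ V) (sec σ L V y)) := by
  rw [trvOf, Trv.val, HomOn.ofHom_app, Adjunction.homEquiv_unit]
  rfl

theorem pUnit_sec {Y Z : Scheme.{u}} (g : Y ⟶ Z) (V : Z.Opens) (a : Γ(Z, V)) :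
    uOut Y _ ((pUnit g).hom.app (g ⁻¹ᵁ V) (sec g (unitMod Z) V (uIn Z V a))) = g.app V a := by
  have h := homEquiv_pUnit g
  rw [Adjunction.homEquiv_unit] at h
  exact ConcreteCategory.congr_hom (congrArg (fun η => Scheme.Modules.Hom.app η V) h) (uIn Z V a)

theorem trvOf_nonDeg {L : X.Modules} (hL : Scheme.Modules.IsInvertible L)
    (r : (Scheme.Modules.pullback σ).obj L ≅ unitMod T) : (trvOf σ r).NonDeg := fun x _ => by
  obtain ⟨V, hxV, ⟨e⟩⟩ := isInvertible_iff_isoOn.1 hL (σ x)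
  refine ⟨V, le_top, gen e le_rfl, hxV, ?_⟩
  rw [trvOf_val]
  let i := (σ ⁻¹ᵁ V).ι
  let h := i ≫ σ
  have hh : h ⁻¹ᵁ V = ⊤ := (σ ⁻¹ᵁ V).ι_preimage_self
  let Φ : unitMod (σ ⁻¹ᵁ V).toScheme ≅ unitMod (σ ⁻¹ᵁ V).toScheme :=
    (pUnit h).symm ≪≫ pullIsoOf h hh e ≪≫ (pullIso i σ h rfl L).symm ≪≫
      (Scheme.Modules.pullback i).mapIso r ≪≫ pUnit i
  have h1 : uOut _ _ (Φ.hom.app (h ⁻¹ᵁ V) (uIn _ _ 1)) =
      i.app (σ ⁻¹ᵁ V) (uOut T _ (r.hom.app (σ ⁻¹ᵁ V) (sec σ L V (gen e le_rfl)))) := by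
    have e1 : (pUnit h).inv.app (h ⁻¹ᵁ V) (uIn _ _ 1) = sec h (unitMod X) V (uIn X V 1) := by
      have h0 : (pUnit h).hom.app (h ⁻¹ᵁ V) (sec h (unitMod X) V (uIn X V 1)) = uIn _ _ 1 :=
        (pUnit_sec h V 1).trans (map_one (h.app V).hom)
      rw [← h0]
      exact iso_inv_app_hom_app (pUnit h) _ _
    have e2 : (pullIso i σ h rfl L).inv.app (h ⁻¹ᵁ V) (sec h L V (gen e le_rfl)) =
        sec i _ (σ ⁻¹ᵁ V) (sec σ L V (gen e le_rfl)) := by
      rw [← ((pullIso_sec i σ h rfl L V _).trans (mres_self _ _))]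
      exact iso_inv_app_hom_app (pullIso i σ h rfl L) _ _
    show uOut _ _ ((pUnit i).hom.app _ (((Scheme.Modules.pullback i).map r.hom).app _
      ((pullIso i σ h rfl L).inv.app _ ((pullOf h hh e.hom).app _
        ((pUnit h).inv.app (h ⁻¹ᵁ V) (uIn _ _ 1)))))) = _
    rw [e1, pullOf_sec h hh e.hom le_rfl]
    refine (congrArg (fun z => uOut _ _ ((pUnit i).hom.app _
      (((Scheme.Modules.pullback i).map r.hom).app _ z))) e2).trans ?_
    refine (congrArg (fun z => uOut _ _ ((pUnit i).hom.app _ z))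
      (sec_natural i r.hom (σ ⁻¹ᵁ V) _)).trans ?_
    exact pUnit_sec i (σ ⁻¹ᵁ V) _
  have h2 : IsUnit (uOut _ _ (Φ.hom.app (h ⁻¹ᵁ V) (uIn _ _ 1))) := by
    rw [end_app, one_mul]
    refine IsUnit.map _ (IsUnit.of_mul_eq_one (evOne _ Φ.inv) ?_)
    rw [← evOne_comp, Φ.hom_inv_id, evOne_id]
  rw [h1] at h2
  haveI : IsIso (i.app (σ ⁻¹ᵁ V)) :=
    i.isIso_app _ ((σ ⁻¹ᵁ V).opensRange_ι.ge)
  exact (isUnit_map_iff (asIso (i.app (σ ⁻¹ᵁ V))).commRingCatIsoToRingEquiv _).1 h2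

theorem smul_sec_eq {L : X.Modules} (η : Trv σ ⊤ L) {V V' : X.Opens}
    (e : IsoOn V (unitMod X) L) (hV : V' ≤ V) (y : Γ(L, V'))
    (u : Γ(T, σ ⁻¹ᵁ V')ˣ) (hu : ↑u = η.val V' le_top (gen e hV)) :
    η.val V' le_top y • ((↑u⁻¹ : Γ(T, σ ⁻¹ᵁ V')) • sec σ L V' (gen e hV)) = sec σ L V' y := by
  obtain ⟨c, rfl⟩ := exists_smul_gen e hV y
  rw [Trv.val_smul, sec_smul, smul_smul, mul_assoc, ← hu, u.mul_inv, mul_one]

/-- **A trivialisation of an invertible module is a rigidification.** -/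
theorem exists_rigidification {L : X.Modules} (hL : Scheme.Modules.IsInvertible L)
    (η : Trv σ ⊤ L) (h : η.NonDeg) :
    Nonempty ((Scheme.Modules.pullback σ).obj L ≅ unitMod T) := by
  choose U hxU he using isInvertible_iff_isoOn.1 hL
  let e := fun x => (he x).some
  choose V hV hxV hu using fun t : T => h.exists_unit_gen (e (σ t)) le_top (x := t) (hxU _)
  let φ : L ⟶ (Scheme.Modules.pushforward σ).obj (unitMod T) :=
    glueHom (fun _ : PUnit.{u + 1} => η) (iSup_const (a := (⊤ : X.Opens))) fun _ _ _ _ _ _ => rfl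
  let r := ((Scheme.Modules.pullbackPushforwardAdjunction σ).homEquiv _ _).symm φ
  have hr : ∀ (W : X.Opens) (y : Γ(L, W)),
      uOut T _ (r.app (σ ⁻¹ᵁ W) (sec σ L W y)) = η.val W le_top y := fun W y => by
    have h1 := ((Scheme.Modules.pullbackPushforwardAdjunction σ).homEquiv _ _).apply_symm_apply φ
    rw [Adjunction.homEquiv_unit] at h1
    exact (congrArg (uOut T _) (ConcreteCategory.congr_hom
      (congrArg (fun z => Scheme.Modules.Hom.app z W) h1) y)).trans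
        (congrArg (uOut T _) (glueHom_app (fun _ : PUnit.{u + 1} => η) _ _ (i := PUnit.unit) le_top y))
  have hcov : (⊤ : T.Opens) ≤ iSup fun t => σ ⁻¹ᵁ V t := fun t _ =>
    Opens.mem_iSup.2 ⟨t, hxV t⟩
  let z : ∀ t, Γ((Scheme.Modules.pullback σ).obj L, σ ⁻¹ᵁ V t) := fun t =>
    (↑(hu t).unit⁻¹ : Γ(T, σ ⁻¹ᵁ V t)) • sec σ L (V t) (gen (e (σ t)) (hV t))
  have hz : ∀ t (W : X.Opens) (hW : W ≤ V t) (y : Γ(L, W)),
      η.val W le_top y • mres _ (σ.preimage_mono hW) (z t) = sec σ L W y := fun t W hW y => by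
    have hg : fres T (σ.preimage_mono hW) (η.val (V t) le_top (gen (e (σ t)) (hV t))) =
        η.val W le_top (gen (e (σ t)) (hW.trans (hV t))) := by
      rw [← η.val_mres hW le_top, mres_gen]
    rw [mres_smul', ← sec_mres σ L hW, mres_gen]
    exact smul_sec_eq η (e (σ t)) (hW.trans (hV t)) y
      (Units.map (fres T (σ.preimage_mono hW)).toMonoidHom (hu t).unit) hg
  obtain ⟨y₀, hy₀, -⟩ := existsUnique_mres ((Scheme.Modules.pullback σ).obj L)
    (fun t => (le_top : σ ⁻¹ᵁ V t ≤ ⊤)) hcov z fun i j => by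
      have h1 := hz i (V i ⊓ V j) inf_le_left (gen (e (σ i)) (inf_le_left.trans (hV i)))
      have h2 := hz j (V i ⊓ V j) inf_le_right (gen (e (σ i)) (inf_le_left.trans (hV i)))
      have h3 : IsUnit (η.val (V i ⊓ V j) le_top (gen (e (σ i)) (inf_le_left.trans (hV i)))) := by
        rw [← mres_gen (e (σ i)) (inf_le_left : V i ⊓ V j ≤ V i) (hV i), η.val_mres _ le_top]
        exact (hu i).map _
      exact (IsUnit.smul_left_cancel (β := Γ((Scheme.Modules.pullback σ).obj L, σ ⁻¹ᵁ (V i ⊓ V j)))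
        h3).1 (h1.trans h2.symm)
  let s : unitMod T ⟶ (Scheme.Modules.pullback σ).obj L :=
    homOfMaps (fun W =>
      { toFun := fun a => uOut T W a • mres _ (le_top : W ≤ ⊤) y₀
        map_add' := fun a b => by rw [map_add, add_smul]
        map_smul' := fun c a => (mul_smul c (uOut T W a) _) })
      (fun {W W'} hW a => by
        show mres _ hW (uOut T W' a • mres _ _ y₀) = _
        rw [mres_smul', mres_mres]
        rfl)
  have hrs : r ≫ s = 𝟙 _ := hom_ext_sec σ fun W y => by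
    refine eq_of_mres _ (U := fun t => σ ⁻¹ᵁ (W ⊓ V t)) (fun t => σ.preimage_mono inf_le_left)
      (fun x hx => Opens.mem_iSup.2 ⟨x, hx, hxV x⟩) fun t => ?_
    rw [comp_app_apply]
    show mres _ _ (uOut T _ (r.app _ (sec σ L W y)) • mres _ (le_top : σ ⁻¹ᵁ W ≤ ⊤) y₀) =
      mres _ _ (sec σ L W y)
    rw [mres_smul', mres_mres, hr, ← η.val_mres (inf_le_left : W ⊓ V t ≤ W) le_top, ← sec_mres]
    refine Eq.trans ?_ (hz t _ inf_le_right _)
    rw [← hy₀ t, mres_mres]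
  refine ⟨{ hom := r, inv := s, hom_inv_id := hrs, inv_hom_id := ?_ }⟩
  refine evOne_injective ?_
  rw [evOne_id]
  refine fun_ext (U := fun t => σ ⁻¹ᵁ V t) (fun t => le_top) hcov fun t => ?_
  rw [map_one]
  show fres T _ (uOut T ⊤ (r.app ⊤ (uOut T ⊤ (uIn T ⊤ 1) • mres _ le_rfl y₀))) = 1
  rw [show uOut T ⊤ (uIn T ⊤ (1 : Γ(T, ⊤))) = 1 from rfl, one_smul, mres_self]
  have h4 := (HomOn.ofHom ⊤ r).natural (le_top : σ ⁻¹ᵁ V t ≤ ⊤) le_rfl y₀
  rw [HomOn.ofHom_app, HomOn.ofHom_app, hy₀ t] at h4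
  refine (congrArg (uOut T _) h4).trans ?_
  rw [show r.app (σ ⁻¹ᵁ V t) (z t) = (↑(hu t).unit⁻¹ : Γ(T, σ ⁻¹ᵁ V t)) •
    r.app (σ ⁻¹ᵁ V t) (sec σ L (V t) (gen (e (σ t)) (hV t))) from Scheme.Modules.Hom.app_smul _ _ _]
  refine (congrArg (fun q => (↑(hu t).unit⁻¹ : Γ(T, σ ⁻¹ᵁ V t)) * q) (hr _ _)).trans ?_
  exact (hu t).val_inv_mul

end Trv

end FLTAgent.PicScheme

end
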