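import Fermat.Agent.PicScheme.Modules.Pull
import Fermat.Agent.PicScheme.Modules.Glue

/-!
# Inverse images along open immersions

A section gives one of the inverse image; over the range of an open immersion this is bijective,
so morphisms of inverse images are the morphisms on that part, and they glue.
-/

set_option autoImplicit false

noncomputable section

universe u

open CategoryTheory CategoryTheory.Limits AlgebraicGeometry TopologicalSpace

namespace FLTAgent.PicScheme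

variable {Z Y X : Scheme.{u}}

theorem iso_inv_app_hom_app {A B : X.Modules} (e : A ≅ B) (W : X.Opens) (x : Γ(A, W)) :
    e.inv.app W (e.hom.app W x) = x := by
  have h : (e.hom ≫ e.inv).app W x = x := by rw [e.hom_inv_id]; rfl
  exact h

theorem comp_app_apply {A B C : X.Modules} (φ : A ⟶ B) (ψ : B ⟶ C) (W : X.Opens) (x : Γ(A, W)) :
    (φ ≫ ψ).app W x = ψ.app W (φ.app W x) := rfl

/-- The inverse image of a section. -/
def sec (f : Y ⟶ X) (M : X.Modules) (V : X.Opens) :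
    Γ(M, V) →+ Γ((Scheme.Modules.pullback f).obj M, f ⁻¹ᵁ V) :=
  (((Scheme.Modules.pullbackPushforwardAdjunction f).unit.app M).app V).hom

theorem sec_smul (f : Y ⟶ X) (M : X.Modules) {V : X.Opens} (r : Γ(X, V)) (x : Γ(M, V)) :
    sec f M V (r • x) = f.app V r • sec f M V x :=
  ((Scheme.Modules.pullbackPushforwardAdjunction f).unit.app M).app_smul r x

theorem sec_mres (f : Y ⟶ X) (M : X.Modules) {V W : X.Opens} (h : V ≤ W) (x : Γ(M, W)) :
    sec f M V (mres M h x) =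
      mres ((Scheme.Modules.pullback f).obj M) (f.preimage_mono h) (sec f M W x) :=
  ConcreteCategory.congr_hom
    (((Scheme.Modules.pullbackPushforwardAdjunction f).unit.app M).mapPresheaf.naturality
      (homOfLE h).op) x

theorem sec_natural (f : Y ⟶ X) {M M' : X.Modules} (φ : M ⟶ M') (V : X.Opens) (x : Γ(M, V)) :
    ((Scheme.Modules.pullback f).map φ).app (f ⁻¹ᵁ V) (sec f M V x) = sec f M' V (φ.app V x) :=
  (ConcreteCategory.congr_hom (congrArg (fun η => Scheme.Modules.Hom.app η V)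
    ((Scheme.Modules.pullbackPushforwardAdjunction f).unit.naturality φ)) x).symm

theorem hom_ext_sec (f : Y ⟶ X) {M : X.Modules} {N : Y.Modules}
    {φ ψ : (Scheme.Modules.pullback f).obj M ⟶ N}
    (h : ∀ (V : X.Opens) (x : Γ(M, V)),
      φ.app (f ⁻¹ᵁ V) (sec f M V x) = ψ.app (f ⁻¹ᵁ V) (sec f M V x)) : φ = ψ := by
  apply ((Scheme.Modules.pullbackPushforwardAdjunction f).homEquiv _ _).injective
  rw [Adjunction.homEquiv_unit, Adjunction.homEquiv_unit]
  ext V x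
  exact h V x

theorem sec_bijective (f : Y ⟶ X) [IsOpenImmersion f] (M : X.Modules) {V : X.Opens}
    (hV : V ≤ f.opensRange) : Function.Bijective (sec f M V) := by
  have h : ∀ x, sec f M V x = ((Scheme.Modules.restrictFunctorIsoPullback f).hom.app M).app (f ⁻¹ᵁ V)
      (M.presheaf.map (homOfLE (f.image_preimage_le V)).op x) := fun x => by
    have h1 := Adjunction.unit_leftAdjointUniq_hom_app (Scheme.Modules.restrictAdjunction f)
      (Scheme.Modules.pullbackPushforwardAdjunction f) M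
    exact (ConcreteCategory.congr_hom (congrArg (fun η => Scheme.Modules.Hom.app η V) h1) x).symm
  have : IsIso (homOfLE (f.image_preimage_le V)) :=
    ⟨homOfLE (by rw [f.image_preimage_eq_opensRange_inf, inf_eq_right.2 hV]), rfl, rfl⟩
  rw [show (sec f M V : Γ(M, V) → Γ((Scheme.Modules.pullback f).obj M, f ⁻¹ᵁ V)) = _ from funext h]
  exact (ConcreteCategory.bijective_of_isIso _).comp (ConcreteCategory.bijective_of_isIso _)

/-- The sections over the range of an open immersion are those of the inverse image. -/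
def secEquiv (f : Y ⟶ X) [IsOpenImmersion f] (M : X.Modules) {V : X.Opens}
    (hV : V ≤ f.opensRange) : Γ(M, V) ≃+ Γ((Scheme.Modules.pullback f).obj M, f ⁻¹ᵁ V) :=
  AddEquiv.ofBijective (sec f M V) (sec_bijective f M hV)

/-- A morphism of inverse images as a morphism on the range. -/
def homOnOf (f : Y ⟶ X) [IsOpenImmersion f] {M M' : X.Modules}
    (φ : (Scheme.Modules.pullback f).obj M ⟶ (Scheme.Modules.pullback f).obj M') :
    HomOn f.opensRange M M' where
  app V hV :=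
    { toFun := fun x => (secEquiv f M' hV).symm (φ.app (f ⁻¹ᵁ V) (sec f M V x))
      map_add' := fun x y => by rw [map_add, map_add, map_add]
      map_smul' := fun r x => by
        rw [RingHom.id_apply, sec_smul, Scheme.Modules.Hom.app_smul, AddEquiv.symm_apply_eq]
        refine Eq.trans ?_ (sec_smul f M' r _).symm
        exact congrArg (f.app V r • ·) ((secEquiv f M' hV).apply_symm_apply _).symm }
  natural {V W} h hW x := by
    apply (sec_bijective f M' (h.trans hW)).1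
    rw [sec_mres]
    show mres _ _ (secEquiv f M' hW ((secEquiv f M' hW).symm _)) =
      secEquiv f M' (h.trans hW) ((secEquiv f M' (h.trans hW)).symm _)
    rw [AddEquiv.apply_symm_apply, AddEquiv.apply_symm_apply, sec_mres]
    exact (HomOn.ofHom ⊤ φ).natural (f.preimage_mono h) le_top _

theorem sec_homOnOf (f : Y ⟶ X) [IsOpenImmersion f] {M M' : X.Modules}
    (φ : (Scheme.Modules.pullback f).obj M ⟶ (Scheme.Modules.pullback f).obj M') {V : X.Opens}
    (hV : V ≤ f.opensRange) (x : Γ(M, V)) :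
    sec f M' V ((homOnOf f φ).app V hV x) = φ.app (f ⁻¹ᵁ V) (sec f M V x) :=
  (secEquiv f M' hV).apply_symm_apply _

/-- An isomorphism of inverse images as an isomorphism on the range. -/
def isoOnOf (f : Y ⟶ X) [IsOpenImmersion f] {M M' : X.Modules}
    (φ : (Scheme.Modules.pullback f).obj M ≅ (Scheme.Modules.pullback f).obj M') :
    IsoOn f.opensRange M M' where
  hom := homOnOf f φ.hom
  inv := homOnOf f φ.inv
  hom_inv {V} hV x := by
    apply (sec_bijective f M hV).1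
    rw [sec_homOnOf, sec_homOnOf]
    show (φ.hom ≫ φ.inv).app _ _ = _
    rw [φ.hom_inv_id]
    rfl
  inv_hom {V} hV x := by
    apply (sec_bijective f M' hV).1
    rw [sec_homOnOf, sec_homOnOf]
    show (φ.inv ≫ φ.hom).app _ _ = _
    rw [φ.inv_hom_id]
    rfl

/-- The morphism of inverse images of a morphism on a part containing the image. -/
def pullOf (f : Y ⟶ X) {U : X.Opens} (hU : f ⁻¹ᵁ U = ⊤) {M M' : X.Modules} (ψ : HomOn U M M') :
    (Scheme.Modules.pullback f).obj M ⟶ (Scheme.Modules.pullback f).obj M' :=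
  ((Scheme.Modules.pullbackPushforwardAdjunction f).homEquiv _ _).symm
    (homOfMaps
      (fun V =>
        { toFun := fun x => mres ((Scheme.Modules.pullback f).obj M')
            (show f ⁻¹ᵁ V ≤ f ⁻¹ᵁ (V ⊓ U) by rw [Scheme.Hom.preimage_inf, hU, inf_top_eq])
            (sec f M' (V ⊓ U) (ψ.app (V ⊓ U) inf_le_right (mres M inf_le_left x)))
          map_add' := fun x y => by rw [mres_add, map_add, map_add, mres_add]; rfl
          map_smul' := fun r x => by
            rw [mres_smul, map_smul, sec_smul, mres_smul]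
            refine congrArg (· • _) ?_
            refine (ConcreteCategory.congr_hom
              (congrArg (· ≫ Y.presheaf.map _) (f.naturality (homOfLE (inf_le_left : V ⊓ U ≤ V)).op)) r).trans ?_
            refine (ConcreteCategory.congr_hom ((Category.assoc _ _ _).trans
              (congrArg (f.app V ≫ ·) ((Y.presheaf.map_comp _ _).symm.trans
                ((congrArg Y.presheaf.map (Subsingleton.elim _ (𝟙 _))).trans (Y.presheaf.map_id _))))) r).trans ?_
            rfl })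
      (fun {V W} h x => by
        show mres ((Scheme.Modules.pullback f).obj M') (f.preimage_mono h) (mres _ _ _) =
          mres _ _ (sec f M' _ (ψ.app _ _ (mres M _ (mres M h x))))
        rw [mres_mres, mres_mres, ← mres_mres M (inf_le_inf_right U h) (inf_le_left : W ⊓ U ≤ W),
          ← ψ.natural (inf_le_inf_right U h) inf_le_right, sec_mres, mres_mres]))

theorem pullOf_sec (f : Y ⟶ X) {U : X.Opens} (hU : f ⁻¹ᵁ U = ⊤) {M M' : X.Modules}
    (ψ : HomOn U M M') {V : X.Opens} (hV : V ≤ U) (x : Γ(M, V)) :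
    (pullOf f hU ψ).app (f ⁻¹ᵁ V) (sec f M V x) = sec f M' V (ψ.app V hV x) := by
  have h1 : ((Scheme.Modules.pullbackPushforwardAdjunction f).homEquiv _ _) (pullOf f hU ψ) = _ :=
    ((Scheme.Modules.pullbackPushforwardAdjunction f).homEquiv _ _).apply_symm_apply _
  rw [Adjunction.homEquiv_unit] at h1
  refine (ConcreteCategory.congr_hom (congrArg (fun η => Scheme.Modules.Hom.app η V) h1) x).trans ?_
  show mres _ _ (sec f M' _ _) = _
  rw [← ψ.natural inf_le_left hV, sec_mres, mres_mres, mres_self]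

/-- The isomorphism of inverse images of an isomorphism on a part containing the image. -/
def pullIsoOf (f : Y ⟶ X) {U : X.Opens} (hU : f ⁻¹ᵁ U = ⊤) {M M' : X.Modules}
    (ψ : IsoOn U M M') :
    (Scheme.Modules.pullback f).obj M ≅ (Scheme.Modules.pullback f).obj M' where
  hom := pullOf f hU ψ.hom
  inv := pullOf f hU ψ.inv
  hom_inv_id := hom_ext_sec f fun V x => by
    have hV : V ⊓ U ≤ U := inf_le_right
    have hle : f ⁻¹ᵁ V ≤ f ⁻¹ᵁ (V ⊓ U) := by rw [Scheme.Hom.preimage_inf, hU, inf_top_eq]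
    have e : sec f M V x = mres _ hle (sec f M (V ⊓ U) (mres M inf_le_left x)) := by
      rw [sec_mres, mres_mres, mres_self]
    rw [e]
    refine ((HomOn.ofHom ⊤ (pullOf f hU ψ.hom ≫ pullOf f hU ψ.inv)).natural hle le_top _).symm.trans ?_
    refine congrArg (mres _ hle) ?_
    show (pullOf f hU ψ.inv).app _ ((pullOf f hU ψ.hom).app _ _) = _
    rw [pullOf_sec f hU ψ.hom hV, pullOf_sec f hU ψ.inv hV, ψ.hom_inv]
  inv_hom_id := hom_ext_sec f fun V x => by
    have hV : V ⊓ U ≤ U := inf_le_right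
    have hle : f ⁻¹ᵁ V ≤ f ⁻¹ᵁ (V ⊓ U) := by rw [Scheme.Hom.preimage_inf, hU, inf_top_eq]
    have e : sec f M' V x = mres _ hle (sec f M' (V ⊓ U) (mres M' inf_le_left x)) := by
      rw [sec_mres, mres_mres, mres_self]
    rw [e]
    refine ((HomOn.ofHom ⊤ (pullOf f hU ψ.inv ≫ pullOf f hU ψ.hom)).natural hle le_top _).symm.trans ?_
    refine congrArg (mres _ hle) ?_
    show (pullOf f hU ψ.hom).app _ ((pullOf f hU ψ.inv).app _ _) = _
    rw [pullOf_sec f hU ψ.inv hV, pullOf_sec f hU ψ.hom hV, ψ.inv_hom]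

theorem pullIso_sec (g : Z ⟶ Y) (f : Y ⟶ X) (h : Z ⟶ X) (e : g ≫ f = h) (M : X.Modules)
    (V : X.Opens) (x : Γ(M, V)) :
    (pullIso g f h e M).hom.app (g ⁻¹ᵁ (f ⁻¹ᵁ V))
        (sec g ((Scheme.Modules.pullback f).obj M) (f ⁻¹ᵁ V) (sec f M V x)) =
      mres ((Scheme.Modules.pullback h).obj M) (show g ⁻¹ᵁ (f ⁻¹ᵁ V) ≤ h ⁻¹ᵁ V by subst e; exact le_rfl)
        (sec h M V x) := by
  subst e
  refine Eq.trans ?_ (mres_self _ (sec (g ≫ f) M V x)).symm
  rw [pullIso_refl]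
  have h1 := unit_conjugateEquiv
    ((Scheme.Modules.pullbackPushforwardAdjunction f).comp (Scheme.Modules.pullbackPushforwardAdjunction g))
    (Scheme.Modules.pullbackPushforwardAdjunction (g ≫ f)) (Scheme.Modules.pullbackComp g f).inv M
  rw [Scheme.Modules.conjugateEquiv_pullbackComp_inv, Adjunction.comp_unit_app] at h1
  have h2 : sec g ((Scheme.Modules.pullback f).obj M) (f ⁻¹ᵁ V) (sec f M V x) =
      ((Scheme.Modules.pullbackComp g f).inv.app M).app (g ⁻¹ᵁ (f ⁻¹ᵁ V)) (sec (g ≫ f) M V x) :=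
    ConcreteCategory.congr_hom (congrArg (fun η => Scheme.Modules.Hom.app η V) h1) x
  rw [h2]
  exact ConcreteCategory.congr_hom (congrArg (fun η => Scheme.Modules.Hom.app η (g ⁻¹ᵁ (f ⁻¹ᵁ V)))
    ((Scheme.Modules.pullbackComp g f).inv_hom_id_app M)) (sec (g ≫ f) M V x)

theorem homOnOf_res (f : Y ⟶ X) [IsOpenImmersion f] (g : Z ⟶ Y) (h : Z ⟶ X) [IsOpenImmersion h]
    (e : g ≫ f = h) {M M' : X.Modules}
    (φ : (Scheme.Modules.pullback f).obj M ⟶ (Scheme.Modules.pullback f).obj M')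
    (φ' : (Scheme.Modules.pullback h).obj M ⟶ (Scheme.Modules.pullback h).obj M')
    (hφ : (pullIso g f h e M).hom ≫ φ' =
      (Scheme.Modules.pullback g).map φ ≫ (pullIso g f h e M').hom)
    {V : X.Opens} (hf : V ≤ f.opensRange) (hh : V ≤ h.opensRange) (x : Γ(M, V)) :
    (homOnOf f φ).app V hf x = (homOnOf h φ').app V hh x := by
  subst e
  apply (sec_bijective (g ≫ f) M' hh).1
  rw [sec_homOnOf]
  have h3 : ∀ (N : X.Modules) (y : Γ(N, V)),
      (pullIso g f (g ≫ f) rfl N).hom.app (g ⁻¹ᵁ (f ⁻¹ᵁ V))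
          (sec g ((Scheme.Modules.pullback f).obj N) (f ⁻¹ᵁ V) (sec f N V y)) = sec (g ≫ f) N V y :=
    fun N y => (pullIso_sec g f _ rfl N V y).trans (mres_self _ _)
  refine (h3 M' _).symm.trans (Eq.trans ?_ (congrArg (φ'.app _) (h3 M x)))
  rw [sec_homOnOf]
  refine (congrArg (fun y => (pullIso g f (g ≫ f) rfl M').hom.app (g ⁻¹ᵁ (f ⁻¹ᵁ V)) y)
    (sec_natural g φ (f ⁻¹ᵁ V) (sec f M V x)).symm).trans ?_
  exact (ConcreteCategory.congr_hom (congrArg (fun η => Scheme.Modules.Hom.app η _) hφ) _).symm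

/-- Morphisms out of an inverse image are determined on a part containing the image. -/
theorem hom_ext_sec_le (f : Y ⟶ X) {U : X.Opens} (hU : f ⁻¹ᵁ U = ⊤) {M : X.Modules} {N : Y.Modules}
    {φ ψ : (Scheme.Modules.pullback f).obj M ⟶ N}
    (h : ∀ (V : X.Opens), V ≤ U → ∀ x : Γ(M, V),
      φ.app (f ⁻¹ᵁ V) (sec f M V x) = ψ.app (f ⁻¹ᵁ V) (sec f M V x)) : φ = ψ :=
  hom_ext_sec f fun V x => by
    have hle : f ⁻¹ᵁ V ≤ f ⁻¹ᵁ (V ⊓ U) := by rw [Scheme.Hom.preimage_inf, hU, inf_top_eq]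
    have e : sec f M V x = mres _ hle (sec f M (V ⊓ U) (mres M inf_le_left x)) := by
      rw [sec_mres, mres_mres, mres_self]
    rw [e]
    exact ((HomOn.ofHom ⊤ φ).natural hle le_top _).symm.trans
      ((congrArg (mres N hle) (h _ inf_le_right _)).trans ((HomOn.ofHom ⊤ ψ).natural hle le_top _))

theorem pullOf_pullIso (g : Z ⟶ Y) (f : Y ⟶ X) (h : Z ⟶ X) (e : g ≫ f = h) {U : X.Opens}
    (hUf : f ⁻¹ᵁ U = ⊤) (hUh : h ⁻¹ᵁ U = ⊤) {M M' : X.Modules} (ψ : HomOn U M M') :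
    (pullIso g f h e M).hom ≫ pullOf h hUh ψ =
      (Scheme.Modules.pullback g).map (pullOf f hUf ψ) ≫ (pullIso g f h e M').hom := by
  subst e
  rw [← cancel_epi (pullIso g f (g ≫ f) rfl M).inv, Iso.inv_hom_id_assoc]
  refine hom_ext_sec_le (g ≫ f) hUh fun V hV x => ?_
  have h3 : ∀ (N : X.Modules) (y : Γ(N, V)),
      (pullIso g f (g ≫ f) rfl N).hom.app (g ⁻¹ᵁ (f ⁻¹ᵁ V))
          (sec g ((Scheme.Modules.pullback f).obj N) (f ⁻¹ᵁ V) (sec f N V y)) = sec (g ≫ f) N V y :=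
    fun N y => (pullIso_sec g f _ rfl N V y).trans (mres_self _ _)
  have h4 : (pullIso g f (g ≫ f) rfl M).inv.app (g ⁻¹ᵁ (f ⁻¹ᵁ V)) (sec (g ≫ f) M V x) =
      sec g _ (f ⁻¹ᵁ V) (sec f M V x) := by
    rw [← h3 M x]
    exact iso_inv_app_hom_app (pullIso g f (g ≫ f) rfl M) _ _
  rw [pullOf_sec (g ≫ f) hUh ψ hV, ← h3 M']
  refine Eq.symm ((congrArg (fun z => (pullIso g f (g ≫ f) rfl M').hom.app (g ⁻¹ᵁ (f ⁻¹ᵁ V))
    (((Scheme.Modules.pullback g).map (pullOf f hUf ψ)).app (g ⁻¹ᵁ (f ⁻¹ᵁ V)) z)) h4).trans ?_)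
  rw [sec_natural g (pullOf f hUf ψ) (f ⁻¹ᵁ V), pullOf_sec f hUf ψ hV]

/-- Invertibility on the source of an open immersion is invertibility near its points. -/
theorem exists_isoOn_of_pullback (f : Y ⟶ X) [IsOpenImmersion f] {M : X.Modules}
    (h : Scheme.Modules.IsInvertible ((Scheme.Modules.pullback f).obj M)) {x : X}
    (hx : x ∈ f.opensRange) : ∃ U : X.Opens, x ∈ U ∧ Nonempty (IsoOn U (unitMod X) M) := by
  obtain ⟨y, rfl⟩ := hx
  obtain ⟨V, hy, ⟨e⟩⟩ := h.1 y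
  let e' : (Scheme.Modules.pullback (V.ι ≫ f)).obj (unitMod X) ≅
      (Scheme.Modules.pullback (V.ι ≫ f)).obj M :=
    pUnit (V.ι ≫ f) ≪≫ e.symm ≪≫ pullIso V.ι f (V.ι ≫ f) rfl M
  exact ⟨(V.ι ≫ f).opensRange, ⟨⟨y, hy⟩, rfl⟩, ⟨isoOnOf (V.ι ≫ f) e'⟩⟩

/-- Two open immersions covering a scheme, with their intersection. -/
structure TwoCover (X : Scheme.{u}) where
  /-- The first member. -/
  Y₁ : Scheme.{u}
  /-- The second member. -/
  Y₂ : Scheme.{u}
  /-- The intersection. -/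
  Y₀ : Scheme.{u}
  /-- The first immersion. -/
  f₁ : Y₁ ⟶ X
  /-- The second immersion. -/
  f₂ : Y₂ ⟶ X
  /-- The immersion of the intersection. -/
  f₀ : Y₀ ⟶ X
  /-- The intersection in the first member. -/
  g₁ : Y₀ ⟶ Y₁
  /-- The intersection in the second member. -/
  g₂ : Y₀ ⟶ Y₂
  [open₁ : IsOpenImmersion f₁]
  [open₂ : IsOpenImmersion f₂]
  [open₀ : IsOpenImmersion f₀]
  comp₁ : g₁ ≫ f₁ = f₀
  comp₂ : g₂ ≫ f₂ = f₀
  inter : f₁.opensRange ⊓ f₂.opensRange ≤ f₀.opensRange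
  cover : f₁.opensRange ⊔ f₂.opensRange = ⊤

attribute [instance] TwoCover.open₁ TwoCover.open₂ TwoCover.open₀

namespace TwoCover

variable (U : TwoCover X)

/-- The two parts. -/
def opens : ULift.{u} Bool → X.Opens
  | ⟨true⟩ => U.f₁.opensRange
  | ⟨false⟩ => U.f₂.opensRange

theorem isInvertible {M : X.Modules}
    (h₁ : Scheme.Modules.IsInvertible ((Scheme.Modules.pullback U.f₁).obj M))
    (h₂ : Scheme.Modules.IsInvertible ((Scheme.Modules.pullback U.f₂).obj M)) :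
    Scheme.Modules.IsInvertible M :=
  isInvertible_iff_isoOn.2 fun x => by
    rcases (show x ∈ U.f₁.opensRange ⊔ U.f₂.opensRange by rw [U.cover]; trivial) with hx | hx
    · exact exists_isoOn_of_pullback U.f₁ h₁ hx
    · exact exists_isoOn_of_pullback U.f₂ h₂ hx

theorem iSup_opens : iSup U.opens = ⊤ :=
  eq_top_iff.2 (U.cover ▸ sup_le (le_iSup U.opens ⟨true⟩) (le_iSup U.opens ⟨false⟩))

variable {M M' : X.Modules}
  (φ₁ : (Scheme.Modules.pullback U.f₁).obj M ≅ (Scheme.Modules.pullback U.f₁).obj M')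
  (φ₂ : (Scheme.Modules.pullback U.f₂).obj M ≅ (Scheme.Modules.pullback U.f₂).obj M')

/-- **Isomorphisms on the two parts agreeing on the intersection glue.** -/
theorem nonempty_iso
    (φ₀ : (Scheme.Modules.pullback U.f₀).obj M ⟶ (Scheme.Modules.pullback U.f₀).obj M')
    (h₁ : (pullIso U.g₁ U.f₁ U.f₀ U.comp₁ M).hom ≫ φ₀ =
      (Scheme.Modules.pullback U.g₁).map φ₁.hom ≫ (pullIso U.g₁ U.f₁ U.f₀ U.comp₁ M').hom)
    (h₂ : (pullIso U.g₂ U.f₂ U.f₀ U.comp₂ M).hom ≫ φ₀ =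
      (Scheme.Modules.pullback U.g₂).map φ₂.hom ≫ (pullIso U.g₂ U.f₂ U.f₀ U.comp₂ M').hom) :
    Nonempty (M ≅ M') := by
  let e : ∀ i, IsoOn (U.opens i) M M' := fun i => match i with
    | ⟨true⟩ => isoOnOf U.f₁ φ₁
    | ⟨false⟩ => isoOnOf U.f₂ φ₂
  refine ⟨IsoOn.glue e U.iSup_opens ?_⟩
  have key : ∀ (V : X.Opens) (hi : V ≤ U.f₁.opensRange) (hj : V ≤ U.f₂.opensRange) (x : Γ(M, V)),
      (homOnOf U.f₁ φ₁.hom).app V hi x = (homOnOf U.f₂ φ₂.hom).app V hj x := fun V hi hj x =>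
    (homOnOf_res U.f₁ U.g₁ U.f₀ U.comp₁ φ₁.hom φ₀ h₁ hi ((le_inf hi hj).trans U.inter) x).trans
      (homOnOf_res U.f₂ U.g₂ U.f₀ U.comp₂ φ₂.hom φ₀ h₂ hj ((le_inf hi hj).trans U.inter) x).symm
  rintro ⟨_ | _⟩ ⟨_ | _⟩ V hi hj x
  · rfl
  · exact (key V hj hi x).symm
  · exact key V hi hj x
  · rfl

/-- The index of the first part. -/
abbrev i₁ : ULift.{u} Bool := ⟨true⟩

/-- The index of the second part. -/
abbrev i₂ : ULift.{u} Bool := ⟨false⟩

/-- **Modules on the two parts with an isomorphism on the intersection glue.** -/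
theorem exists_glued (L₁ : U.Y₁.Modules) (L₂ : U.Y₂.Modules)
    (θ : (Scheme.Modules.pullback U.g₁).obj L₁ ≅ (Scheme.Modules.pullback U.g₂).obj L₂) :
    ∃ (M : X.Modules) (e₁ : (Scheme.Modules.pullback U.f₁).obj M ≅ L₁)
      (e₂ : (Scheme.Modules.pullback U.f₂).obj M ≅ L₂),
      (Scheme.Modules.pullback U.g₁).map e₁.hom ≫ θ.hom =
        (pullIso U.g₁ U.f₁ U.f₀ U.comp₁ M).hom ≫ (pullIso U.g₂ U.f₂ U.f₀ U.comp₂ M).inv ≫
          (Scheme.Modules.pullback U.g₂).map e₂.hom := by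
  have hc₁ : IsIso ((Scheme.Modules.pullbackPushforwardAdjunction U.f₁).counit.app L₁) := inferInstance
  have hc₂ : IsIso ((Scheme.Modules.pullbackPushforwardAdjunction U.f₂).counit.app L₂) := inferInstance
  let N : ULift.{u} Bool → X.Modules := fun i => match i with
    | ⟨true⟩ => (Scheme.Modules.pushforward U.f₁).obj L₁
    | ⟨false⟩ => (Scheme.Modules.pushforward U.f₂).obj L₂
  let c₁ : (Scheme.Modules.pullback U.f₁).obj (N i₁) ≅ L₁ :=
    @asIso _ _ _ _ ((Scheme.Modules.pullbackPushforwardAdjunction U.f₁).counit.app L₁) hc₁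
  let c₂ : (Scheme.Modules.pullback U.f₂).obj (N i₂) ≅ L₂ :=
    @asIso _ _ _ _ ((Scheme.Modules.pullbackPushforwardAdjunction U.f₂).counit.app L₂) hc₂
  let ψ : (Scheme.Modules.pullback U.f₀).obj (N i₁) ≅ (Scheme.Modules.pullback U.f₀).obj (N i₂) :=
    (pullIso U.g₁ U.f₁ U.f₀ U.comp₁ _).symm ≪≫ (Scheme.Modules.pullback U.g₁).mapIso c₁ ≪≫ θ ≪≫
      ((Scheme.Modules.pullback U.g₂).mapIso c₂).symm ≪≫ pullIso U.g₂ U.f₂ U.f₀ U.comp₂ _
  let φ : ∀ i j, IsoOn (U.opens i ⊓ U.opens j) (N j) (N i) := fun i j => match i, j with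
    | ⟨true⟩, ⟨true⟩ => IsoOn.refl _ _
    | ⟨false⟩, ⟨false⟩ => IsoOn.refl _ _
    | ⟨true⟩, ⟨false⟩ => ((isoOnOf U.f₀ ψ).symm).res U.inter
    | ⟨false⟩, ⟨true⟩ => (isoOnOf U.f₀ ψ).res (by rw [inf_comm]; exact U.inter)
  let D : GlueData X :=
    { J := ULift.{u} Bool
      U := U.opens
      cover := U.iSup_opens
      N := N
      φ := φ
      φ_self := by rintro ⟨_ | _⟩ V hV x <;> rfl
      φ_comp := by
        rintro ⟨_ | _⟩ ⟨_ | _⟩ ⟨_ | _⟩ V hij hjl hil x
        · rfl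
        · rfl
        · exact (isoOnOf U.f₀ ψ).inv_hom _ x
        · rfl
        · rfl
        · exact (isoOnOf U.f₀ ψ).hom_inv _ x
        · rfl
        · rfl }
  have h₁ : U.f₁ ⁻¹ᵁ U.opens i₁ = ⊤ := U.f₁.preimage_opensRange
  have h₂ : U.f₂ ⁻¹ᵁ U.opens i₂ = ⊤ := U.f₂.preimage_opensRange
  have h0 : U.f₀ ⁻¹ᵁ U.f₀.opensRange = ⊤ := U.f₀.preimage_opensRange
  have hle₁ : U.f₀.opensRange ≤ U.opens i₁ := by
    rintro _ ⟨y, rfl⟩
    exact ⟨U.g₁ y, by rw [← U.comp₁]; rfl⟩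
  have hle₂ : U.f₀.opensRange ≤ U.opens i₂ := by
    rintro _ ⟨y, rfl⟩
    exact ⟨U.g₂ y, by rw [← U.comp₂]; rfl⟩
  have h01 : U.f₀ ⁻¹ᵁ U.opens i₁ = ⊤ := eq_top_iff.2 (h0 ▸ U.f₀.preimage_mono hle₁)
  have h02 : U.f₀ ⁻¹ᵁ U.opens i₂ = ⊤ := eq_top_iff.2 (h0 ▸ U.f₀.preimage_mono hle₂)
  refine ⟨D.glued, pullIsoOf U.f₁ h₁ (D.proj i₁) ≪≫ c₁, pullIsoOf U.f₂ h₂ (D.proj i₂) ≪≫ c₂, ?_⟩
  have key : pullOf U.f₀ h01 (D.proj i₁).hom ≫ ψ.hom = pullOf U.f₀ h02 (D.proj i₂).hom :=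
    hom_ext_sec_le U.f₀ h0 fun V hV x => by
      rw [comp_app_apply]
      rw [pullOf_sec U.f₀ h01 _ (hV.trans hle₁), pullOf_sec U.f₀ h02 _ (hV.trans hle₂),
        ← sec_homOnOf U.f₀ ψ.hom hV]
      exact congrArg (sec U.f₀ _ V) (D.proj_compat i₂ i₁ (hV.trans hle₂) (hV.trans hle₁) x)
  have k₁ := pullOf_pullIso U.g₁ U.f₁ U.f₀ U.comp₁ h₁ h01 (D.proj i₁).hom
  have k₂ := pullOf_pullIso U.g₂ U.f₂ U.f₀ U.comp₂ h₂ h02 (D.proj i₂).hom
  rw [← key] at k₂
  have e₁ : (Scheme.Modules.pullback U.g₁).map (pullOf U.f₁ h₁ (D.proj i₁).hom) =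
      (pullIso U.g₁ U.f₁ U.f₀ U.comp₁ D.glued).hom ≫ pullOf U.f₀ h01 (D.proj i₁).hom ≫
        (pullIso U.g₁ U.f₁ U.f₀ U.comp₁ (D.N i₁)).inv := by
    rw [← Category.assoc, k₁, Category.assoc, Iso.hom_inv_id, Category.comp_id]
  have e₂ : (Scheme.Modules.pullback U.g₂).map (pullOf U.f₂ h₂ (D.proj i₂).hom) =
      (pullIso U.g₂ U.f₂ U.f₀ U.comp₂ D.glued).hom ≫
        (pullOf U.f₀ h01 (D.proj i₁).hom ≫ ψ.hom) ≫
          (pullIso U.g₂ U.f₂ U.f₀ U.comp₂ (D.N i₂)).inv := by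
    rw [← Category.assoc, k₂, Category.assoc, Iso.hom_inv_id, Category.comp_id]
  show (Scheme.Modules.pullback U.g₁).map (pullOf U.f₁ h₁ (D.proj i₁).hom ≫ c₁.hom) ≫ θ.hom =
    _ ≫ _ ≫ (Scheme.Modules.pullback U.g₂).map (pullOf U.f₂ h₂ (D.proj i₂).hom ≫ c₂.hom)
  rw [Functor.map_comp, Functor.map_comp, e₁, e₂]
  simp only [ψ, D, Iso.trans_hom, Iso.symm_hom, Functor.mapIso_hom, Functor.mapIso_inv, Category.assoc,
    Iso.inv_hom_id_assoc, Iso.hom_inv_id_assoc, Iso.map_inv_hom_id, Category.comp_id]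

end TwoCover

end FLTAgent.PicScheme

end
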