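import Fermat.Agent.PicScheme.Modules.Frames

/-!
# Inverse images along composites

Morphisms and frames over `f` are transported to a morphism `h = g ≫ f` by the canonical
identification; this is coherent for composites and compatible with the unit.
-/

set_option autoImplicit false

noncomputable section

universe u

open CategoryTheory CategoryTheory.Limits AlgebraicGeometry TopologicalSpace

namespace FLTAgent.PicScheme

variable {W Z Y X : Scheme.{u}}

/-- The identification of inverse images along a composite. -/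
def pullIso (g : Z ⟶ Y) (f : Y ⟶ X) (h : Z ⟶ X) (e : g ≫ f = h) (M : X.Modules) :
    (Scheme.Modules.pullback g).obj ((Scheme.Modules.pullback f).obj M) ≅
      (Scheme.Modules.pullback h).obj M :=
  (Scheme.Modules.pullbackComp g f).app M ≪≫ (Scheme.Modules.pullbackCongr e).app M

theorem pullIso_refl (g : Z ⟶ Y) (f : Y ⟶ X) (M : X.Modules) :
    pullIso g f (g ≫ f) rfl M = (Scheme.Modules.pullbackComp g f).app M := by
  ext : 1
  exact Category.comp_id _

theorem pullIso_natural (g : Z ⟶ Y) (f : Y ⟶ X) (h : Z ⟶ X) (e : g ≫ f = h) {M M' : X.Modules}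
    (φ : M ⟶ M') :
    (Scheme.Modules.pullback g).map ((Scheme.Modules.pullback f).map φ) ≫ (pullIso g f h e M').hom =
      (pullIso g f h e M).hom ≫ (Scheme.Modules.pullback h).map φ := by
  subst e
  rw [pullIso_refl, pullIso_refl]
  exact (Scheme.Modules.pullbackComp g f).hom.naturality φ

theorem pullbackCongr_hom_app {f g : Y ⟶ X} (e : f = g) (M : X.Modules) :
    (Scheme.Modules.pullbackCongr e).hom.app M = eqToHom (by rw [e]) := by
  subst e
  rfl

set_option maxHeartbeats 800000 in
theorem pullIso_assoc (g' : W ⟶ Z) (g : Z ⟶ Y) (f : Y ⟶ X) (h : Z ⟶ X) (e : g ≫ f = h)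
    (k : W ⟶ Y) (ek : g' ≫ g = k) (h' : W ⟶ X) (e' : g' ≫ h = h') (M : X.Modules) :
    (Scheme.Modules.pullback g').map (pullIso g f h e M).hom ≫ (pullIso g' h h' e' M).hom =
      (pullIso g' g k ek ((Scheme.Modules.pullback f).obj M)).hom ≫
        (pullIso k f h' (by rw [← ek, Category.assoc, e, e']) M).hom := by
  subst e ek e'
  have h0 := congrArg (fun τ => τ.app M) (Scheme.Modules.pseudofunctor_associativity g' g f)
  simp only [NatTrans.comp_app, Functor.whiskerRight_app, Functor.associator_hom_app,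
    Functor.whiskerLeft_app, Category.id_comp, eqToHom_app] at h0
  rw [pullIso_refl, pullIso_refl, pullIso_refl]
  have h1 : ((Scheme.Modules.pullbackComp g' g).hom.app ((Scheme.Modules.pullback f).obj M)) ≫
      (Scheme.Modules.pullbackComp (g' ≫ g) f).hom.app M =
      (Scheme.Modules.pullback g').map ((Scheme.Modules.pullbackComp g f).hom.app M) ≫
        (Scheme.Modules.pullbackComp g' (g ≫ f)).hom.app M ≫ eqToHom (by rw [Category.assoc]) := by
    rw [← h0, Iso.hom_inv_id_app_assoc, ← Functor.map_comp_assoc, Iso.hom_inv_id_app]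
    simp
  show (Scheme.Modules.pullback g').map ((Scheme.Modules.pullbackComp g f).hom.app M) ≫ _ =
    (Scheme.Modules.pullbackComp g' g).hom.app _ ≫
      ((Scheme.Modules.pullbackComp (g' ≫ g) f).hom.app M ≫
        ((Scheme.Modules.pullbackCongr (Category.assoc g' g f)).hom.app M))
  refine Eq.trans ?_ (Category.assoc _ _ _)
  rw [h1, Category.assoc, Category.assoc]
  rw [pullbackCongr_hom_app, eqToHom_trans, eqToHom_refl, Category.comp_id]
  rfl

theorem homEquiv_pUnit (f : Y ⟶ X) :
    (Scheme.Modules.pullbackPushforwardAdjunction f).homEquiv _ _ (pUnit f).hom =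
      SheafOfModules.unitToPushforwardObjUnit f.toRingCatSheafHom :=
  ((Scheme.Modules.pullbackPushforwardAdjunction f).homEquiv _ _).apply_symm_apply _

theorem pullIso_pUnit (g : Z ⟶ Y) (f : Y ⟶ X) (h : Z ⟶ X) (e : g ≫ f = h) :
    (pullIso g f h e (unitMod X)).hom ≫ (pUnit h).hom =
      (Scheme.Modules.pullback g).map (pUnit f).hom ≫ (pUnit g).hom := by
  subst e
  rw [pullIso_refl, Iso.app_hom, ← cancel_epi ((Scheme.Modules.pullbackComp g f).inv.app (unitMod X)),
    Iso.inv_hom_id_app_assoc]
  apply ((Scheme.Modules.pullbackPushforwardAdjunction (g ≫ f)).homEquiv _ _).injective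
  rw [homEquiv_pUnit, Adjunction.homEquiv_unit]
  have h1 := unit_conjugateEquiv
    ((Scheme.Modules.pullbackPushforwardAdjunction f).comp (Scheme.Modules.pullbackPushforwardAdjunction g))
    (Scheme.Modules.pullbackPushforwardAdjunction (g ≫ f)) (Scheme.Modules.pullbackComp g f).inv
    (unitMod X)
  rw [Scheme.Modules.conjugateEquiv_pullbackComp_inv] at h1
  rw [Functor.map_comp, ← Category.assoc, ← h1, Category.assoc,
    ← (Scheme.Modules.pushforwardComp g f).hom.naturality, ← Category.assoc, Adjunction.comp_unit_app]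
  have h2 : (Scheme.Modules.pullbackPushforwardAdjunction f).unit.app (unitMod X) ≫
      (Scheme.Modules.pushforward f).map ((Scheme.Modules.pullbackPushforwardAdjunction g).unit.app _ ≫
        (Scheme.Modules.pushforward g).map
          ((Scheme.Modules.pullback g).map (pUnit f).hom ≫ (pUnit g).hom)) =
      SheafOfModules.unitToPushforwardObjUnit f.toRingCatSheafHom ≫
        (Scheme.Modules.pushforward f).map
          (SheafOfModules.unitToPushforwardObjUnit g.toRingCatSheafHom) := by
    rw [← homEquiv_pUnit f, ← homEquiv_pUnit g, Adjunction.homEquiv_unit, Adjunction.homEquiv_unit]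
    refine Eq.trans ?_ (Category.assoc _ _ _).symm
    refine congrArg (_ ≫ ·) (Eq.trans (congrArg _ ?_) ((Scheme.Modules.pushforward f).map_comp _ _))
    refine (congrArg (_ ≫ ·) ((Scheme.Modules.pushforward g).map_comp _ _)).trans
      ((Category.assoc _ _ _).symm.trans ?_)
    exact (congrArg (· ≫ _) ((Scheme.Modules.pullbackPushforwardAdjunction g).unit.naturality
      (pUnit f).hom).symm).trans (Category.assoc _ _ _)
  simp only [Functor.comp_map, Category.assoc]
  rw [← Category.assoc ((Scheme.Modules.pushforward f).map _), ← Functor.map_comp,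
    ← Category.assoc, h2]
  ext V x
  rfl

namespace MFrame

variable {M M' : X.Modules} {n n' : ℕ}

/-- A frame over `f` gives one over the composite. -/
def pullTo {f : Y ⟶ X} (F : MFrame ((Scheme.Modules.pullback f).obj M) n) (g : Z ⟶ Y)
    (h : Z ⟶ X) (e : g ≫ f = h) : MFrame ((Scheme.Modules.pullback h).obj M) n :=
  (F.pull g).ofIso (pullIso g f h e M)

theorem pullTo_mat {f : Y ⟶ X} (F : MFrame ((Scheme.Modules.pullback f).obj M) n) (g : Z ⟶ Y)
    (h : Z ⟶ X) (e : g ≫ f = h) : (F.pullTo g h e).mat = F.mat.map g.appTop := by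
  rw [pullTo, ofIso_mat, pull_mat]

theorem matHom_pullTo {f : Y ⟶ X} (F : MFrame ((Scheme.Modules.pullback f).obj M) n)
    (F' : MFrame ((Scheme.Modules.pullback f).obj M') n') (g : Z ⟶ Y) (h : Z ⟶ X)
    (e : g ≫ f = h) (φ : M ⟶ M') :
    (F.pullTo g h e).matHom (F'.pullTo g h e) ((Scheme.Modules.pullback h).map φ) =
      (F.matHom F' ((Scheme.Modules.pullback f).map φ)).map g.appTop := by
  rw [pullTo, pullTo, matHom_ofIso, ← pull_matHom, ← Category.assoc, ← pullIso_natural,
    Category.assoc, Iso.hom_inv_id, Category.comp_id]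

theorem ofIso_ofIso {M₁ M₂ M₃ : X.Modules} (F : MFrame M₁ n) (e : M₁ ≅ M₂) (e' : M₂ ≅ M₃) :
    (F.ofIso e).ofIso e' = F.ofIso (e ≪≫ e') := by
  simp [ofIso, Category.assoc]

theorem ofIso_pull {M₁ M₂ : X.Modules} (F : MFrame M₁ n) (e : M₁ ≅ M₂) (g : Y ⟶ X) :
    (F.ofIso e).pull g = (F.pull g).ofIso ((Scheme.Modules.pullback g).mapIso e) := by
  simp [ofIso, pull, Category.assoc]

theorem pull_pull (F : MFrame M n) (f : Y ⟶ X) (g : Z ⟶ Y) :
    ((F.pull f).pull g).ofIso (pullIso g f (g ≫ f) rfl M) = F.pull (g ≫ f) := by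
  have hs : ∀ j, (pUnit g).inv ≫ (Scheme.Modules.pullback g).map
      ((pUnit f).inv ≫ (Scheme.Modules.pullback f).map (F.s j)) ≫ (pullIso g f _ rfl M).hom =
      (pUnit (g ≫ f)).inv ≫ (Scheme.Modules.pullback (g ≫ f)).map (F.s j) := fun j => by
    rw [Functor.map_comp, Category.assoc, pullIso_natural, ← Category.assoc, ← Category.assoc,
      Category.assoc _ _ (pullIso g f _ rfl (unitMod X)).hom]
    congr 1
    rw [← cancel_mono (pUnit (g ≫ f)).hom]
    simp only [Category.assoc, Iso.inv_hom_id]
    rw [pullIso_pUnit, ← Functor.map_comp_assoc, Iso.inv_hom_id]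
    simp
  have ht : ∀ j, (pullIso g f _ rfl M).inv ≫ (Scheme.Modules.pullback g).map
      ((Scheme.Modules.pullback f).map (F.t j) ≫ (pUnit f).hom) ≫ (pUnit g).hom =
      (Scheme.Modules.pullback (g ≫ f)).map (F.t j) ≫ (pUnit (g ≫ f)).hom := fun j => by
    rw [Functor.map_comp, Category.assoc, ← pullIso_pUnit g f (g ≫ f) rfl, ← Category.assoc
      ((Scheme.Modules.pullback g).map _), pullIso_natural, Category.assoc, Iso.inv_hom_id_assoc]
  simp only [pull, ofIso, MFrame.mk.injEq]
  exact ⟨funext fun j => by rw [Category.assoc]; exact hs j, funext fun j => ht j⟩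

theorem pullTo_pull (F : MFrame M n) (f : Y ⟶ X) (g : Z ⟶ Y) (h : Z ⟶ X) (e : g ≫ f = h) :
    (F.pull f).pullTo g h e = F.pull h := by
  subst e
  exact F.pull_pull f g

theorem pullTo_pullTo {f : Y ⟶ X} (F : MFrame ((Scheme.Modules.pullback f).obj M) n) (g : Z ⟶ Y)
    (h : Z ⟶ X) (e : g ≫ f = h) (g' : W ⟶ Z) (h' : W ⟶ X) (e' : g' ≫ h = h') :
    (F.pullTo g h e).pullTo g' h' e' =
      F.pullTo (g' ≫ g) h' (by rw [Category.assoc, e, e']) := by
  rw [pullTo, pullTo, pullTo, ofIso_pull, ofIso_ofIso, ← F.pull_pull g g', ofIso_ofIso]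
  congr 1
  ext : 1
  exact pullIso_assoc g' g f h e (g' ≫ g) rfl h' e' M

end MFrame

end FLTAgent.PicScheme

end
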